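import Mathlib
import Fermat.Prelude.Def_ModularCurve_X0
import Fermat.Prelude.Def_ModularForm_HeckeOperatorForms
import Fermat.Prelude.Thm_ModularFormClass_qCoeff_heckeT
import Fermat.Agent.FunField.JExp

/-!
# Level one forms with integral coefficients and Hecke operators (for modular polynomials)
-/

set_option autoImplicit false
set_option linter.style.haveILetI false
open ModularCurve Polynomial UpperHalfPlane ModularForm MatrixGroups EisensteinSeries
noncomputable section

namespace Fermat.Agent.S28.ModPoly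

/-- integral power series which are `q`-expansions of level one modular forms of weight `k` -/
def IsQ (k : ℤ) (f : PowerSeries ℤ) : Prop :=
  ∃ F : ModularForm 𝒮ℒ k, qExpansion 1 F = f.map (Int.castRingHom ℂ)

theorem map_int_injective : Function.Injective (PowerSeries.map (Int.castRingHom ℂ)) :=
  PowerSeries.map_injective _ (RingHom.injective_int _)

theorem IsQ.cast {k l : ℤ} {f : PowerSeries ℤ} (h : IsQ k f) (hkl : k = l) : IsQ l f := hkl ▸ h

theorem IsQ.add {k : ℤ} {f g : PowerSeries ℤ} (hf : IsQ k f) (hg : IsQ k g) : IsQ k (f + g) := by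
  obtain ⟨F, hF⟩ := hf
  obtain ⟨G, hG⟩ := hg
  refine ⟨F + G, ?_⟩
  rw [map_add, ← hF, ← hG]
  exact ModularForm.qExpansion_add one_pos one_mem_strictPeriods_SL F G

theorem IsQ.sub {k : ℤ} {f g : PowerSeries ℤ} (hf : IsQ k f) (hg : IsQ k g) : IsQ k (f - g) := by
  obtain ⟨F, hF⟩ := hf
  obtain ⟨G, hG⟩ := hg
  refine ⟨F - G, ?_⟩
  rw [map_sub, ← hF, ← hG]
  exact ModularForm.qExpansion_sub one_pos one_mem_strictPeriods_SL F G

theorem IsQ.C_mul {k : ℤ} {f : PowerSeries ℤ} (c : ℤ) (hf : IsQ k f) :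
    IsQ k (PowerSeries.C c * f) := by
  obtain ⟨F, hF⟩ := hf
  refine ⟨(c : ℂ) • F, ?_⟩
  have := ModularForm.qExpansion_smul one_pos one_mem_strictPeriods_SL (c : ℂ) F
  rw [hF] at this
  refine this.trans ?_
  ext n
  rw [PowerSeries.coeff_smul, PowerSeries.coeff_map, PowerSeries.coeff_map, PowerSeries.coeff_C_mul]
  simp

theorem IsQ.mul {k l : ℤ} {f g : PowerSeries ℤ} (hf : IsQ k f) (hg : IsQ l g) :
    IsQ (k + l) (f * g) := by
  obtain ⟨F, hF⟩ := hf
  obtain ⟨G, hG⟩ := hg
  exact ⟨F.mul G, by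
    rw [map_mul, ← hF, ← hG, ModularForm.qExpansion_mul one_pos one_mem_strictPeriods_SL]⟩

theorem IsQ.one : IsQ 0 1 := ⟨1, by
  rw [map_one, ModularForm.qExpansion_one]⟩

theorem IsQ.pow {k : ℤ} {f : PowerSeries ℤ} (hf : IsQ k f) (n : ℕ) : IsQ (n * k) (f ^ n) := by
  induction n with
  | zero => simpa using IsQ.one
  | succ n ih => 
    rw [pow_succ]
    exact (ih.mul hf).cast (by push_cast; ring)

/-- the integral discriminant series -/
def dz : PowerSeries ℤ := PowerSeries.X * dedekindEtaUnit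

theorem isQ_E4 : IsQ 4 eisenstein4 := ⟨E₄, Fermat.Agent.FunField.qExpansion_E4⟩

theorem isQ_dz : IsQ 12 dz := by
  refine ⟨CuspForm.discriminant, ?_⟩
  rw [dz, map_mul, PowerSeries.map_X, ← Fermat.Agent.FunField.qExpansion_discriminant]
  rfl

/-- the division by `Δ` -/
theorem IsQ.div {k : ℤ} {f : PowerSeries ℤ} (hf : IsQ k f) (h0 : PowerSeries.constantCoeff f = 0) :
    ∃ g : PowerSeries ℤ, f = dz * g ∧ IsQ (k - 12) g := by
  obtain ⟨F, hF⟩ := hf
  obtain ⟨f', hf'⟩ := PowerSeries.X_dvd_iff.mpr h0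
  have hc : (qExpansion 1 F).coeff 0 = 0 := by
    rw [hF, PowerSeries.coeff_map, PowerSeries.coeff_zero_eq_constantCoeff, h0, map_zero]
  refine ⟨f' * dedekindEtaUnitInv, ?_, CuspForm.discriminantEquiv (toCuspForm F hc), ?_⟩
  · rw [dz, hf', mul_assoc, mul_left_comm dedekindEtaUnit, dedekindEtaUnit_mul_inv, mul_one]
  · have h1 := qExpansion_eq_qExpansion_discriminant_mul F hc
    rw [hF, hf', Fermat.Agent.FunField.qExpansion_discriminant, map_mul, PowerSeries.map_X, mul_assoc] at h1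
    have h2 := mul_left_cancel₀ PowerSeries.X_ne_zero h1
    rw [map_mul, h2, mul_comm, ← mul_assoc, ← map_mul, mul_comm dedekindEtaUnitInv,
      dedekindEtaUnit_mul_inv, map_one, one_mul]

/-- Level one forms of weight `12 m` with integral coefficients are integral homogeneous
polynomials in `E₄³, Δ`. -/
theorem IsQ.structure (m : ℕ) {f : PowerSeries ℤ} (hf : IsQ (12 * m) f) :
    ∃ c : ℕ → ℤ, f = ∑ a ∈ Finset.range (m + 1),
      PowerSeries.C (c a) * ((eisenstein4 ^ 3) ^ a * dz ^ (m - a)) := by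
  induction m generalizing f with
  | zero =>
    obtain ⟨F, hF⟩ := hf
    obtain ⟨c, hc⟩ : ∃ c : ℂ, ⇑F = Function.const _ c :=
      ModularFormClass.levelOne_weight_zero_const (ModularForm.mcast (by simp) F : ModularForm 𝒮ℒ 0)
    have h1 : qExpansion 1 F = PowerSeries.C c := by
      have h2 : (⇑F : ℍ → ℂ) = c • (⇑(1 : ModularForm 𝒮ℒ 0) : ℍ → ℂ) := by
        rw [hc]; ext z; simp
      rw [h2]
      refine (ModularForm.qExpansion_smul one_pos one_mem_strictPeriods_SL c
        (1 : ModularForm 𝒮ℒ 0)).trans ?_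
      rw [ModularForm.qExpansion_one, PowerSeries.C_eq_algebraMap, Algebra.algebraMap_eq_smul_one]
    refine ⟨fun _ => PowerSeries.constantCoeff f, ?_⟩
    rw [zero_add, Finset.sum_range_one, pow_zero, Nat.sub_self, pow_zero, mul_one, mul_one]
    ext n
    rw [PowerSeries.coeff_C]
    split_ifs with hn
    · rw [hn, PowerSeries.coeff_zero_eq_constantCoeff]
    · have h3 := congrArg (PowerSeries.coeff n) (hF.symm.trans h1)
      rw [PowerSeries.coeff_map, PowerSeries.coeff_C, if_neg hn, eq_intCast] at h3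
      exact_mod_cast h3
  | succ m ih =>
    set c₀ := PowerSeries.constantCoeff f with hc₀
    have hE : IsQ (12 * (m + 1 : ℕ)) ((eisenstein4 ^ 3) ^ (m + 1)) := by
      rw [← pow_mul]
      exact (isQ_E4.pow (3 * (m + 1))).cast (by push_cast; ring)
    have h1 : IsQ (12 * (m + 1 : ℕ)) (f - PowerSeries.C c₀ * (eisenstein4 ^ 3) ^ (m + 1)) :=
      hf.sub (hE.C_mul c₀)
    obtain ⟨g, hg, hg'⟩ := h1.div (by simp [hc₀])
    obtain ⟨c, hc⟩ := ih (hg'.cast (by push_cast; ring))
    refine ⟨fun a => if a = m + 1 then c₀ else c a, ?_⟩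
    beta_reduce
    rw [Finset.sum_range_succ, if_pos rfl, Nat.sub_self, pow_zero, mul_one]
    have : f = PowerSeries.C c₀ * (eisenstein4 ^ 3) ^ (m + 1) + dz * g := by
      rw [← hg]; ring
    rw [this, add_comm, hc, Finset.mul_sum]
    congr 1
    apply Finset.sum_congr rfl
    intro a ha
    rw [Finset.mem_range] at ha
    rw [if_neg (by omega), show m + 1 - a = (m - a) + 1 by omega, pow_succ]
    ring

theorem Gamma0_one_coe : (CongruenceSubgroup.Gamma0 1 : Subgroup (GL (Fin 2) ℝ)) = 𝒮ℒ := by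
  have h : CongruenceSubgroup.Gamma0 1 = ⊤ := by
    ext g
    simp [CongruenceSubgroup.Gamma0_mem, Subsingleton.elim _ (0 : ZMod 1)]
  rw [h, ← MonoidHom.range_eq_map]

/-- the Hecke operator on integral power series -/
def heckeTZ (k p : ℕ) (f : PowerSeries ℤ) : PowerSeries ℤ :=
  PowerSeries.mk fun n => PowerSeries.coeff (n * p) f +
    if p ∣ n then (p : ℤ) ^ (k - 1) * PowerSeries.coeff (n / p) f else 0

theorem IsQ.hecke {k : ℕ} (hk : 1 ≤ k) {p : ℕ} (hp : p.Prime) {f : PowerSeries ℤ}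
    (hf : IsQ k f) : IsQ k (heckeTZ k p f) := by
  obtain ⟨F, hF⟩ := hf
  have h1 : ¬ p ∣ 1 := by
    rw [Nat.dvd_one]; exact hp.one_lt.ne'
  refine ⟨ModularForm.mcast rfl (ModularForm.heckeTLin (N := 1) k hp h1
    (ModularForm.mcast rfl F Gamma0_one_coe)) Gamma0_one_coe.symm, ?_⟩
  ext n
  have h2 := ModularFormClass.qCoeff_heckeT F (p := p) one_mem_strictPeriods_SL hp.ne_zero n
  refine h2.trans ?_
  rw [ModularForm.coeffHeckeT, heckeTZ, PowerSeries.coeff_map, PowerSeries.coeff_mk]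
  have h3 : ∀ m, ModularFormClass.qCoeff F m = ((PowerSeries.coeff m f : ℤ) : ℂ) := by
    intro m
    have := congrArg (PowerSeries.coeff m) hF
    rw [PowerSeries.coeff_map, eq_intCast] at this
    exact this
  rw [h3, h3, eq_intCast]
  push_cast
  congr 1
  split_ifs
  · congr 1
    rw [← zpow_natCast]
    congr 1
    omega
  · rfl

end Fermat.Agent.S28.ModPoly
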