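import Mathlib
import Fermat.Prelude.Def_ModularCurve_X0
import Fermat.Prelude.Def_ModularCurve_X0ModL

set_option autoImplicit false

noncomputable section

namespace Fermat.Agent.S28

open ModularCurve

section Twist

variable {K : Type*} [CommRing K]

theorem support_twist_eq (u : Kˣ) (f : LaurentSeries K) :
    Function.support (fun n : ℤ => ((u ^ n : Kˣ) : K) * f.coeff n) = f.support := by
  ext n
  simp [HahnSeries.mem_support]

/-- The substitution `t ↦ u t` on Laurent series, for a unit `u`. -/
def twist (u : Kˣ) : LaurentSeries K →+* LaurentSeries K where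
  toFun f := ⟨fun n => ((u ^ n : Kˣ) : K) * f.coeff n, by
    rw [support_twist_eq]; exact f.isPWO_support⟩
  map_one' := by
    ext n
    by_cases hn : n = 0
    · subst hn; simp
    · simp [HahnSeries.coeff_one, hn]
  map_zero' := by
    ext n
    simp
  map_add' f g := by
    ext n
    simp [mul_add]
  map_mul' f g := by
    ext n
    have hf : (⟨fun n => ((u ^ n : Kˣ) : K) * f.coeff n, by
      rw [support_twist_eq]; exact f.isPWO_support⟩ : LaurentSeries K).support = f.support :=
      support_twist_eq u f
    have hg : (⟨fun n => ((u ^ n : Kˣ) : K) * g.coeff n, by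
      rw [support_twist_eq]; exact g.isPWO_support⟩ : LaurentSeries K).support = g.support :=
      support_twist_eq u g
    rw [HahnSeries.coeff_mul]
    simp only [hf, hg]
    change ((u ^ n : Kˣ) : K) * (f * g).coeff n = _
    rw [HahnSeries.coeff_mul, Finset.mul_sum]
    refine Finset.sum_congr rfl fun ij hij => ?_
    rw [Finset.mem_addAntidiagonal] at hij
    rw [← hij.2.2, zpow_add, Units.val_mul]
    ring

@[simp]
theorem twist_coeff (u : Kˣ) (f : LaurentSeries K) (n : ℤ) :
    (twist u f).coeff n = ((u ^ n : Kˣ) : K) * f.coeff n := rfl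

@[simp]
theorem twist_one (f : LaurentSeries K) : twist (1 : Kˣ) f = f := by
  ext n; simp

theorem twist_twist (u v : Kˣ) (f : LaurentSeries K) : twist u (twist v f) = twist (u * v) f := by
  ext n
  simp only [twist_coeff, mul_zpow, Units.val_mul]
  ring

@[simp]
theorem twist_single (u : Kˣ) (n : ℤ) (r : K) :
    twist u (HahnSeries.single n r) = HahnSeries.single n (((u ^ n : Kˣ) : K) * r) := by
  ext m
  rw [twist_coeff]
  by_cases h : m = n
  · subst h; simp
  · simp [HahnSeries.coeff_single_of_ne h]

@[simp]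
theorem twist_C (u : Kˣ) (r : K) : twist u (HahnSeries.C r) = HahnSeries.C r := by
  rw [HahnSeries.C_apply, twist_single]; simp

theorem twist_injective (u : Kˣ) : Function.Injective (twist u) := by
  intro f g h
  have := congrArg (twist u⁻¹) h
  simpa [twist_twist] using this

theorem twist_qExpand (u : Kˣ) (m : ℕ) [NeZero m] (f : LaurentSeries K) :
    twist u (qExpand K m f) = qExpand K m (twist (u ^ m) f) := by
  ext n
  by_cases h : (m : ℤ) ∣ n
  · obtain ⟨k, rfl⟩ := h
    rw [twist_coeff, qExpand_coeff_mul, qExpand_coeff_mul, twist_coeff, zpow_mul, zpow_natCast]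
  · rw [twist_coeff, qExpand_coeff_of_not_dvd _ _ h, qExpand_coeff_of_not_dvd _ _ h, mul_zero]

theorem twist_qExpand_of_pow_eq_one (u : Kˣ) (m : ℕ) [NeZero m] (hu : u ^ m = 1)
    (f : LaurentSeries K) : twist u (qExpand K m f) = qExpand K m f := by
  rw [twist_qExpand, hu, twist_one]

/-- `twist` as an algebra homomorphism. -/
def twistAlgHom {K : Type*} [Field K] (u : Kˣ) : LaurentSeries K →ₐ[K] LaurentSeries K where
  __ := twist u
  commutes' r := by
    change twist u (algebraMap K (LaurentSeries K) r) = algebraMap K (LaurentSeries K) r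
    rw [algebraMap_laurentSeries_eq_single, twist_single]
    simp

@[simp] theorem twistAlgHom_apply {K : Type*} [Field K] (u : Kˣ) (f : LaurentSeries K) :
    twistAlgHom u f = twist u f := rfl

theorem mem_range_qExpand_iff (m : ℕ) [NeZero m] (f : LaurentSeries K) :
    f ∈ Set.range (qExpand K m) ↔ ∀ n : ℤ, ¬ (m : ℤ) ∣ n → f.coeff n = 0 := by
  constructor
  · rintro ⟨g, rfl⟩ n hn
    exact qExpand_coeff_of_not_dvd _ _ hn
  · intro h
    have hm : (0 : ℤ) < m := by exact_mod_cast Nat.pos_of_ne_zero (NeZero.ne m)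
    refine ⟨⟨fun k => f.coeff ((m : ℤ) * k), ?_⟩, ?_⟩
    · have himg : (fun k : ℤ => (m : ℤ) * k) '' (Function.support fun k => f.coeff ((m : ℤ) * k))
          ⊆ f.support := by
        rintro _ ⟨k, hk, rfl⟩
        exact hk
      have hpwo := f.isPWO_support.mono himg
      have hwf : (f.support).IsWF := f.isPWO_support.isWF
      rw [Set.isPWO_iff_isWF]
      rw [Set.isPWO_iff_isWF] at hpwo
      rw [Set.isWF_iff_no_descending_seq] at hpwo ⊢
      intro g hg hmem
      refine hpwo (fun n => (m : ℤ) * g n) ?_ (fun n => ⟨g n, hmem n, rfl⟩)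
      intro a b hab
      exact mul_lt_mul_of_pos_left (hg hab) hm
    · ext n
      by_cases hn : (m : ℤ) ∣ n
      · obtain ⟨k, rfl⟩ := hn
        rw [qExpand_coeff_mul]
      · rw [qExpand_coeff_of_not_dvd _ _ hn, h n hn]

end Twist

/-- Evaluation `ℤ[Y] → K((t))`, `Y ↦ x`. -/
def evJ (K : Type*) [CommRing K] (x : LaurentSeries K) : Polynomial ℤ →+* LaurentSeries K :=
  Polynomial.eval₂RingHom (Int.castRingHom _) x

@[simp] theorem evJ_X (K : Type*) [CommRing K] (x : LaurentSeries K) :
    evJ K x Polynomial.X = x := by simp [evJ]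

theorem map_evJ {K L : Type*} [CommRing K] [CommRing L] (x : LaurentSeries K)
    (σ : LaurentSeries K →+* LaurentSeries L) (P : Polynomial ℤ) :
    σ (evJ K x P) = evJ L (σ x) P := by
  rw [evJ, evJ, Polynomial.coe_eval₂RingHom, Polynomial.coe_eval₂RingHom, Polynomial.hom_eval₂]
  congr 1
  exact Subsingleton.elim _ _

theorem comp_evJ {K L : Type*} [CommRing K] [CommRing L] (x : LaurentSeries K)
    (σ : LaurentSeries K →+* LaurentSeries L) : σ.comp (evJ K x) = evJ L (σ x) :=
  RingHom.ext fun P => map_evJ x σ P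

end Fermat.Agent.S28
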