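import Mathlib
import Fermat.Agent.S28.ModPolyHecke
import Fermat.Agent.S28.Twist

/-!
# The conjugates of level one forms under the isogenies of degree `p`: power sums
-/

set_option autoImplicit false
set_option linter.style.haveILetI false
open ModularCurve Polynomial
noncomputable section

namespace Fermat.Agent.S28.ModPoly

section General

variable (R : Type*) [CommRing R]

/-- integral power series as Laurent series over `R` -/
def L : PowerSeries ℤ →+* LaurentSeries R :=
  (HahnSeries.ofPowerSeries ℤ R).comp (PowerSeries.map (Int.castRingHom R))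

theorem L_coeff_nat (f : PowerSeries ℤ) (n : ℕ) :
    (L R f).coeff (n : ℤ) = ((PowerSeries.coeff n f : ℤ) : R) := by
  rw [L, RingHom.comp_apply, HahnSeries.ofPowerSeries_apply_coeff, PowerSeries.coeff_map,
    eq_intCast]

theorem L_coeff_neg (f : PowerSeries ℤ) {n : ℤ} (hn : n < 0) : (L R f).coeff n = 0 :=
  ofPowerSeries_coeff_of_neg _ hn

theorem L_X : L R PowerSeries.X = HahnSeries.single 1 1 := by
  rw [L, RingHom.comp_apply, PowerSeries.map_X, HahnSeries.ofPowerSeries_X]

/-- `Δ · j = E₄³` -/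
theorem L_dz_mul_jq : L R dz * jqModC R = L R (eisenstein4 ^ 3) := by
  rw [dz, map_mul, L_X, jqModC, mul_mul_mul_comm, HahnSeries.single_mul_single]
  change _ * (L R dedekindEtaUnit * L R jNum) = _
  rw [← map_mul, jNum, mul_left_comm, dedekindEtaUnit_mul_inv, mul_one]
  simp

/-- inverse of `Δ` -/
def dInv : LaurentSeries R := HahnSeries.single (-1 : ℤ) 1 * L R dedekindEtaUnitInv

theorem L_dz_mul_dInv : L R dz * dInv R = 1 := by
  rw [dz, map_mul, L_X, dInv, mul_mul_mul_comm, HahnSeries.single_mul_single, ← map_mul,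
    dedekindEtaUnit_mul_inv]
  simp

variable (p : ℕ)

/-- `U_p` -/
def UZ (f : PowerSeries ℤ) : PowerSeries ℤ := PowerSeries.mk fun n => PowerSeries.coeff (n * p) f

/-- `V_p` -/
def VZ (f : PowerSeries ℤ) : PowerSeries ℤ :=
  PowerSeries.mk fun n => if p ∣ n then PowerSeries.coeff (n / p) f else 0

theorem heckeTZ_eq (k : ℕ) (f : PowerSeries ℤ) :
    heckeTZ k p f = UZ p f + PowerSeries.C ((p : ℤ) ^ (k - 1)) * VZ p f := by
  ext n
  rw [heckeTZ, PowerSeries.coeff_mk, map_add, PowerSeries.coeff_C_mul, UZ, VZ,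
    PowerSeries.coeff_mk, PowerSeries.coeff_mk, mul_ite, mul_zero]

theorem L_VZ [NeZero p] (f : PowerSeries ℤ) : L R (VZ p f) = qExpand R p (L R f) := by
  have hp : 0 < (p : ℤ) := by exact_mod_cast Nat.pos_of_ne_zero (NeZero.ne p)
  ext n
  by_cases hn : (p : ℤ) ∣ n
  · obtain ⟨m, rfl⟩ := hn
    rw [qExpand_coeff_mul]
    rcases lt_or_ge m 0 with hm | hm
    · rw [L_coeff_neg R _ hm, L_coeff_neg R _ (mul_neg_of_pos_of_neg hp hm)]
    · lift m to ℕ using hm
      rw [← Nat.cast_mul, L_coeff_nat, L_coeff_nat, VZ, PowerSeries.coeff_mk,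
        if_pos (dvd_mul_right _ _), Nat.mul_div_cancel_left _ (Nat.pos_of_ne_zero (NeZero.ne p))]
  · rw [qExpand_coeff_of_not_dvd _ _ hn]
    rcases lt_or_ge n 0 with hm | hm
    · rw [L_coeff_neg R _ hm]
    · lift n to ℕ using hm
      rw [L_coeff_nat, VZ, PowerSeries.coeff_mk, if_neg (fun h => hn (by exact_mod_cast h))]
      simp

end General

section Root

variable (R : Type*) [CommRing R] [IsDomain R] (p : ℕ) [hp : Fact p.Prime] (ζ : Rˣ)

/-- sum of powers of a root of unity -/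
theorem sum_zpow (hζ : IsPrimitiveRoot ζ p) (n : ℤ) :
    ∑ b : Fin p, (((ζ ^ (b : ℕ)) ^ n : Rˣ) : R) = if (p : ℤ) ∣ n then (p : R) else 0 := by
  have e : ∀ b : ℕ, (((ζ ^ b) ^ n : Rˣ) : R) = ((ζ ^ n : Rˣ) : R) ^ b := by
    intro b
    rw [← Units.val_pow_eq_pow_val]
    congr 1
    rw [← zpow_natCast, ← zpow_natCast, ← zpow_mul, ← zpow_mul, mul_comm]
  simp only [e]
  rw [Fin.sum_univ_eq_sum_range (fun b => ((ζ ^ n : Rˣ) : R) ^ b)]
  split_ifs with h
  · have : ζ ^ n = 1 := by rwa [hζ.zpow_eq_one_iff_dvd]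
    rw [this]; simp
  · have h1 : IsPrimitiveRoot (ζ ^ n) p := by
      apply hζ.zpow_of_gcd_eq_one
      rw [← Int.isCoprime_iff_gcd_eq_one, isCoprime_comm]
      exact (Nat.prime_iff_prime_int.mp hp.out).coprime_iff_not_dvd.mpr h
    have h2 : IsPrimitiveRoot ((ζ ^ n : Rˣ) : R) p := IsPrimitiveRoot.coe_units_iff.mpr h1
    exact h2.geom_sum_eq_zero hp.out.one_lt

/-- The ring homomorphisms `f(q) ↦ f(q^p), f(ζ^b q^{1/p})`, with `q = t^p`. -/
def S : Option (Fin p) → LaurentSeries R →+* LaurentSeries R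
  | none => qExpand R (p * p)
  | some b => twist (ζ ^ (b : ℕ))

/-- the scalars -/
def cc : Option (Fin p) → ℕ
  | none => p
  | some _ => 1

theorem sum_twist (hζ : IsPrimitiveRoot ζ p) (f : PowerSeries ℤ) :
    ∑ b : Fin p, twist (ζ ^ (b : ℕ)) (L R f) = p * qExpand R p (L R (UZ p f)) := by
  ext n
  have e1 : ((p : LaurentSeries R) * qExpand R p (L R (UZ p f))).coeff n =
      (p : R) * (qExpand R p (L R (UZ p f))).coeff n := by
    have : ((p : LaurentSeries R)) = HahnSeries.C (p : R) := (map_natCast _ _).symm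
    rw [this, HahnSeries.C_mul_eq_smul, HahnSeries.coeff_smul, smul_eq_mul]
  rw [e1, HahnSeries.coeff_sum]
  simp only [twist_coeff]
  rw [← Finset.sum_mul, sum_zpow R p ζ hζ]
  have hp0 : 0 < (p : ℤ) := by exact_mod_cast hp.out.pos
  split_ifs with h
  · obtain ⟨m, rfl⟩ := h
    rw [qExpand_coeff_mul]
    rcases lt_or_ge m 0 with hm | hm
    · rw [L_coeff_neg R _ hm, L_coeff_neg R _ (mul_neg_of_pos_of_neg hp0 hm)]
    · lift m to ℕ using hm
      rw [← Nat.cast_mul, L_coeff_nat, L_coeff_nat, UZ, PowerSeries.coeff_mk, mul_comm p m]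
  · rw [qExpand_coeff_of_not_dvd _ _ h, zero_mul, mul_zero]

theorem sum_hecke (hζ : IsPrimitiveRoot ζ p) (k : ℕ) (hk : 1 ≤ k) (f : PowerSeries ℤ) :
    ∑ i : Option (Fin p), (cc p i : LaurentSeries R) ^ k * S R p ζ i (L R f) =
      p * qExpand R p (L R (heckeTZ k p f)) := by
  rw [Fintype.sum_option, heckeTZ_eq, map_add, map_add, mul_add, ← sum_twist R p ζ hζ, add_comm]
  congr 1
  · apply Finset.sum_congr rfl
    intro b _
    simp [cc, S]
  · simp only [cc, S]
    rw [map_mul, L_VZ, map_mul, qExpand_qExpand, ← mul_assoc]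
    congr 1
    have : L R (PowerSeries.C ((p : ℤ) ^ (k - 1))) = (p : LaurentSeries R) ^ (k - 1) := by
      rw [map_pow, map_pow, map_natCast, map_natCast]
    rw [this, map_pow, map_natCast, ← pow_succ', Nat.sub_add_cancel hk]

end Root

end Fermat.Agent.S28.ModPoly
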