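import Mathlib
import Fermat.Agent.S28.ModPolySym

/-!
# Power sums of the conjugates are integral polynomials in `j`
-/

set_option autoImplicit false
set_option linter.style.haveILetI false
open ModularCurve Polynomial
noncomputable section

namespace Fermat.Agent.S28.ModPoly

variable (R : Type*) [CommRing R] [IsDomain R] (p : ℕ) [hp : Fact p.Prime] (ζ : Rˣ)

/-- `j(t^p)` -/
def J0 : LaurentSeries R := qExpand R p (jqModC R)

/-- the conjugates of `j` -/
def jj (i : Option (Fin p)) : LaurentSeries R := S R p ζ i (jqModC R)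

/-- the conjugates of `Δ`, divided by `Δ` -/
def uu (i : Option (Fin p)) : LaurentSeries R :=
  (cc p i : LaurentSeries R) ^ 12 * S R p ζ i (L R dz) * qExpand R p (dInv R)

/-- `w = u j` -/
def ww (i : Option (Fin p)) : LaurentSeries R := uu R p ζ i * jj R p ζ i

theorem ww_eq (i : Option (Fin p)) : ww R p ζ i =
    (cc p i : LaurentSeries R) ^ 12 * S R p ζ i (L R (eisenstein4 ^ 3)) * qExpand R p (dInv R) := by
  rw [ww, uu, jj, ← L_dz_mul_jq, map_mul]; ring

theorem qExpand_dz_mul : qExpand R p (L R dz) * qExpand R p (dInv R) = 1 := by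
  rw [← map_mul, L_dz_mul_dInv, map_one]

theorem J0_eq : qExpand R p (L R (eisenstein4 ^ 3)) * qExpand R p (dInv R) = J0 R p := by
  rw [← L_dz_mul_jq, map_mul, J0, mul_right_comm, qExpand_dz_mul, one_mul]

variable {R ζ}

/-- power sums, homogeneous version -/
theorem powerSum_mem (hζ : IsPrimitiveRoot ζ p) (m a : ℕ) (ha : a ≤ m) :
    ∑ i, uu R p ζ i ^ (m - a) * ww R p ζ i ^ a ∈ (evJ R (J0 R p)).range := by
  rcases Nat.eq_zero_or_pos m with rfl | hm
  · obtain rfl : a = 0 := by omega
    simp only [Nat.sub_self, pow_zero, mul_one]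
    rw [Finset.sum_const, nsmul_eq_mul, mul_one]
    exact ⟨_, map_natCast _ _⟩
  have hQ : IsQ (12 * m) (heckeTZ (12 * m) p ((eisenstein4 ^ 3) ^ a * dz ^ (m - a))) := by
    have h1 : IsQ ((12 * m : ℕ)) ((eisenstein4 ^ 3) ^ a * dz ^ (m - a)) := by
      rw [← pow_mul]
      refine ((isQ_E4.pow (3 * a)).mul (isQ_dz.pow (m - a))).cast ?_
      push_cast [Nat.cast_sub ha]
      ring
    exact (h1.hecke (by omega) hp.out).cast (by push_cast; ring)
  obtain ⟨c, hc⟩ := hQ.structure m
  have e1 : ∀ i, uu R p ζ i ^ (m - a) * ww R p ζ i ^ a =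
      ((cc p i : LaurentSeries R) ^ (12 * m) * S R p ζ i
        (L R ((eisenstein4 ^ 3) ^ a * dz ^ (m - a)))) * qExpand R p (dInv R) ^ m := by
    intro i
    rw [ww_eq, uu]
    simp only [map_mul, map_pow, mul_pow, ← pow_mul]
    have h2 : 12 * m = 12 * (m - a) + 12 * a := by omega
    have h3 : qExpand R p (dInv R) ^ m =
      qExpand R p (dInv R) ^ (m - a) * qExpand R p (dInv R) ^ a := by
      rw [← pow_add]; congr 1; omega
    rw [h2, pow_add, h3]
    ring
  simp only [e1]
  rw [← Finset.sum_mul, sum_hecke R p ζ hζ (12 * m) (by omega), hc]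
  rw [map_sum, map_sum, Finset.mul_sum, Finset.sum_mul]
  refine sum_mem fun b hb => ?_
  rw [Finset.mem_range] at hb
  have e2 : (p : LaurentSeries R) * qExpand R p (L R (PowerSeries.C (c b) *
      ((eisenstein4 ^ 3) ^ b * dz ^ (m - b)))) * qExpand R p (dInv R) ^ m =
      (p : LaurentSeries R) * (c b : LaurentSeries R) * J0 R p ^ b := by
    have h4 : qExpand R p (dInv R) ^ m =
      qExpand R p (dInv R) ^ (m - b) * qExpand R p (dInv R) ^ b := by
      rw [← pow_add]; congr 1; omega
    have h5 : qExpand R p (L R (PowerSeries.C (c b))) = (c b : LaurentSeries R) := by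
      rw [show (PowerSeries.C (c b) : PowerSeries ℤ) = ((c b : ℤ) : PowerSeries ℤ) from
        (eq_intCast (PowerSeries.C (R := ℤ)) (c b)), map_intCast, map_intCast]
    have h6 : qExpand R p (L R dz) ^ (m - b) * qExpand R p (dInv R) ^ (m - b) = 1 := by
      rw [← mul_pow, qExpand_dz_mul, one_pow]
    rw [← J0_eq, mul_pow, h4]
    simp only [map_mul, map_pow]
    rw [h5]
    linear_combination (p : LaurentSeries R) * (c b : LaurentSeries R) *
      (qExpand R p (L R eisenstein4) ^ 3) ^ b * qExpand R p (dInv R) ^ b * h6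
  rw [e2]
  have m1 : (p : LaurentSeries R) ∈ (evJ R (J0 R p)).range := ⟨_, map_natCast _ _⟩
  have m2 : (c b : LaurentSeries R) ∈ (evJ R (J0 R p)).range := ⟨_, map_intCast _ _⟩
  have m3 : J0 R p ∈ (evJ R (J0 R p)).range := ⟨X, evJ_X _ _⟩
  exact mul_mem (mul_mem m1 m2) (pow_mem m3 _)

end Fermat.Agent.S28.ModPoly
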