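import Mathlib
import Fermat.Agent.S28.ModPolyPS

/-!
# Newton identities: symmetric functions of the conjugates are integral polynomials in `j`
-/

set_option autoImplicit false
set_option linter.style.haveILetI false
open ModularCurve Polynomial
noncomputable section

namespace Fermat.Agent.S28.ModPoly

section Lead

variable {R : Type*} [CommRing R] (p : ℕ) [hp : Fact p.Prime]

theorem coeff_J0_pow_of_lt {k : ℕ} {m : ℤ} (hm : m < -(p * k : ℤ)) :
    ((J0 R p) ^ k).coeff m = 0 := by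
  have hp0 : 0 < (p : ℤ) := by exact_mod_cast Nat.pos_of_ne_zero (NeZero.ne p)
  rw [J0, ← map_pow]
  by_cases h : (p : ℤ) ∣ m
  · obtain ⟨n, rfl⟩ := h
    rw [qExpand_coeff_mul]
    apply coeff_jqModC_pow_of_lt
    rw [← mul_neg] at hm
    exact lt_of_mul_lt_mul_left hm hp0.le
  · rw [qExpand_coeff_of_not_dvd _ _ h]

theorem coeff_J0_pow_self (k : ℕ) : ((J0 R p) ^ k).coeff (-(p * k : ℤ)) = 1 := by
  rw [J0, ← map_pow, ← mul_neg, qExpand_coeff_mul]
  exact coeff_jqModC_pow_self R k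

theorem coeff_evJ_of_lt (Q : ℤ[X]) {m : ℤ} (hm : m < -(p * Q.natDegree : ℤ)) :
    (evJ R (J0 R p) Q).coeff m = 0 := by
  rw [evJ, coe_eval₂RingHom, eval₂_eq_sum_range, HahnSeries.coeff_sum]
  apply Finset.sum_eq_zero
  intro k hk
  rw [Finset.mem_range] at hk
  have h1 : ((Int.castRingHom (LaurentSeries R)) (Q.coeff k)) =
      HahnSeries.C ((Q.coeff k : ℤ) : R) := by
    rw [map_intCast, eq_intCast]
  rw [h1, HahnSeries.C_mul_eq_smul, HahnSeries.coeff_smul, coeff_J0_pow_of_lt, smul_zero]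
  refine hm.trans_le ?_
  have : (p : ℤ) * k ≤ p * Q.natDegree := by
    apply mul_le_mul_of_nonneg_left _ (by positivity)
    exact_mod_cast Nat.lt_succ_iff.mp hk
  linarith

theorem coeff_evJ_natDegree (Q : ℤ[X]) :
    (evJ R (J0 R p) Q).coeff (-(p * Q.natDegree : ℤ)) = (Q.leadingCoeff : R) := by
  have hp0 : 0 < (p : ℤ) := by exact_mod_cast Nat.pos_of_ne_zero (NeZero.ne p)
  rw [evJ, coe_eval₂RingHom, eval₂_eq_sum_range, HahnSeries.coeff_sum,
    Finset.sum_eq_single Q.natDegree]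
  · have h1 : ((Int.castRingHom (LaurentSeries R)) (Q.coeff Q.natDegree)) =
        HahnSeries.C ((Q.coeff Q.natDegree : ℤ) : R) := by
      rw [map_intCast, eq_intCast]
    rw [h1, HahnSeries.C_mul_eq_smul, HahnSeries.coeff_smul, coeff_J0_pow_self, smul_eq_mul, mul_one]
    rfl
  · intro k hk hne
    rw [Finset.mem_range] at hk
    have h1 : ((Int.castRingHom (LaurentSeries R)) (Q.coeff k)) =
        HahnSeries.C ((Q.coeff k : ℤ) : R) := by
      rw [map_intCast, eq_intCast]
    rw [h1, HahnSeries.C_mul_eq_smul, HahnSeries.coeff_smul, coeff_J0_pow_of_lt, smul_zero]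
    have : (p : ℤ) * k < p * Q.natDegree := by
      apply mul_lt_mul_of_pos_left _ hp0
      have : k < Q.natDegree := by omega
      exact_mod_cast this
    linarith
  · intro h
    exact absurd (Finset.mem_range.mpr (Nat.lt_succ_self _)) h

theorem evJ_injective [CharZero R] : Function.Injective (evJ R (J0 R p)) := by
  rw [injective_iff_map_eq_zero]
  intro Q hQ
  have := coeff_evJ_natDegree (R := R) p Q
  rw [hQ, HahnSeries.coeff_zero] at this
  rw [← leadingCoeff_eq_zero]
  exact_mod_cast this.symm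

/-- saturation of `ℤ[j]` in Laurent series -/
theorem mem_range_of_natCast_mul_mem [CharZero R] [IsDomain R]
    (hpure : ∀ (c : ℤ) (N : ℕ) (r : R), N ≠ 0 → (N : R) * r = (c : R) → (N : ℤ) ∣ c)
    {N : ℕ} (hN : N ≠ 0) {z : LaurentSeries R}
    (hz : (N : LaurentSeries R) * z ∈ (evJ R (J0 R p)).range) : z ∈ (evJ R (J0 R p)).range := by
  obtain ⟨Q, hQ⟩ := hz
  have hNC : ((N : LaurentSeries R)) = HahnSeries.C (N : R) := (map_natCast _ _).symm
  have hN0 : ((N : LaurentSeries R)) ≠ 0 := by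
    rw [hNC, Ne, map_eq_zero_iff _ HahnSeries.C_injective]
    exact_mod_cast hN
  generalize hn : Q.support.card = n
  induction n using Nat.strong_induction_on generalizing Q z with
  | _ n ih =>
    by_cases hQ0 : Q = 0
    · rw [hQ0, map_zero, zero_eq_mul, or_iff_right hN0] at hQ
      rw [hQ]; exact zero_mem _
    have h1 := coeff_evJ_natDegree (R := R) p Q
    rw [hQ, hNC, HahnSeries.C_mul_eq_smul, HahnSeries.coeff_smul, smul_eq_mul] at h1
    obtain ⟨c, hc⟩ := hpure _ _ _ hN h1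
    have hlt := eraseLead_support_card_lt hQ0
    have h2 : evJ R (J0 R p) Q.eraseLead = (N : LaurentSeries R) *
        (z - evJ R (J0 R p) (C c * X ^ Q.natDegree)) := by
      have h3 : Q.eraseLead = Q - C (N : ℤ) * (C c * X ^ Q.natDegree) := by
        rw [← mul_assoc, ← C_mul, ← hc, C_mul_X_pow_eq_monomial, ← self_sub_monomial_natDegree_leadingCoeff]
      rw [h3, map_sub, map_mul, hQ, mul_sub]
      congr 2
      simp
    have h4 := ih _ (hn ▸ hlt) _ h2 rfl
    have := add_mem h4 (⟨_, rfl⟩ : evJ R (J0 R p) (C c * X ^ Q.natDegree) ∈ (evJ R (J0 R p)).range)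
    simpa using this

end Lead

section Newton

variable {B ι : Type*} [CommRing B] [Fintype ι] (B₁ : Subring B)
  (hsat : ∀ (N : ℕ) (z : B), N ≠ 0 → (N : B) * z ∈ B₁ → z ∈ B₁) (x : ι → B)
  (hps : ∀ m : ℕ, ∑ i, x i ^ m ∈ B₁)

include hsat hps

theorem esymm_mem (n : ℕ) : MvPolynomial.aeval x (MvPolynomial.esymm ι ℤ n) ∈ B₁ := by
  classical
  induction n using Nat.strong_induction_on with
  | _ n ih =>
    rcases Nat.eq_zero_or_pos n with rfl | hn
    · rw [MvPolynomial.esymm_zero, map_one]; exact one_mem _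
    · apply hsat n _ hn.ne'
      have h := congrArg (MvPolynomial.aeval x) (MvPolynomial.mul_esymm_eq_sum ι ℤ n)
      rw [map_mul, map_natCast] at h
      rw [h, map_mul, map_sum]
      refine mul_mem ?_ (sum_mem fun a ha => ?_)
      · rw [map_pow, map_neg, map_one]
        exact pow_mem (neg_mem (one_mem _)) _
      · rw [Finset.mem_filter] at ha
        rw [map_mul, map_mul]
        refine mul_mem (mul_mem ?_ (ih _ ha.2)) ?_
        · rw [map_pow, map_neg, map_one]
          exact pow_mem (neg_mem (one_mem _)) _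
        · rw [MvPolynomial.psum, map_sum]
          simp only [map_pow, MvPolynomial.aeval_X]
          exact hps _

theorem prod_mem_of_powerSums : ∏ i, x i ∈ B₁ := by
  classical
  have h := esymm_mem B₁ hsat x hps (Fintype.card ι)
  rw [MvPolynomial.esymm, ← Finset.card_univ, Finset.powersetCard_self, Finset.sum_singleton,
    map_prod] at h
  simpa using h

end Newton

section LinearForm

variable {R : Type*} [CommRing R] [IsDomain R] (p : ℕ) [hp : Fact p.Prime] {ζ : Rˣ}

/-- `ℤ[j][X]` inside `R((t))[X]` -/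
def B1 (R : Type*) [CommRing R] (p : ℕ) [hp : Fact p.Prime] : Subring (LaurentSeries R)[X] :=
  (mapRingHom (evJ R (J0 R p))).range

theorem mem_B1_iff {f : (LaurentSeries R)[X]} :
    f ∈ B1 R p ↔ ∀ n, f.coeff n ∈ (evJ R (J0 R p)).range := by
  have := Polynomial.lifts_iff_coeff_lifts (f := evJ R (J0 R p)) f
  rw [Polynomial.lifts] at this
  exact this

theorem C_mem_B1 {z : LaurentSeries R} (hz : z ∈ (evJ R (J0 R p)).range) : C z ∈ B1 R p := by
  obtain ⟨Q, hQ⟩ := hz
  exact ⟨C Q, by simp [hQ]⟩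

theorem X_mem_B1 : X ∈ B1 R p := ⟨X, by simp⟩

theorem B1_sat [CharZero R]
    (hpure : ∀ (c : ℤ) (N : ℕ) (r : R), N ≠ 0 → (N : R) * r = (c : R) → (N : ℤ) ∣ c)
    (N : ℕ) (z : (LaurentSeries R)[X]) (hN : N ≠ 0) (hz : (N : (LaurentSeries R)[X]) * z ∈ B1 R p) :
    z ∈ B1 R p := by
  rw [mem_B1_iff] at hz ⊢
  intro n
  apply mem_range_of_natCast_mul_mem p hpure hN
  have := hz n
  rwa [← C_eq_natCast, coeff_C_mul] at this

/-- power sums of linear forms in `u, w` -/
theorem powerSum_linear_mem (hζ : IsPrimitiveRoot ζ p) {α β γ : (LaurentSeries R)[X]}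
    (hα : α ∈ B1 R p) (hβ : β ∈ B1 R p) (hγ : γ ∈ B1 R p) (m : ℕ) :
    ∑ i, (α + β * C (uu R p ζ i) + γ * C (ww R p ζ i)) ^ m ∈ B1 R p := by
  have key : ∀ n k : ℕ, ∑ i, C (uu R p ζ i) ^ n * C (ww R p ζ i) ^ k ∈ B1 R p := by
    intro n k
    have h := powerSum_mem p hζ (n + k) k (Nat.le_add_left _ _)
    rw [Nat.add_sub_cancel] at h
    have h2 := C_mem_B1 p h
    rw [map_sum] at h2
    simpa using h2
  have e : ∀ i, (α + β * C (uu R p ζ i) + γ * C (ww R p ζ i)) ^ m =
      ∑ k ∈ Finset.range (m + 1), ∑ n ∈ Finset.range (k + 1),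
        (α ^ n * β ^ (k - n) * γ ^ (m - k) * (k.choose n : (LaurentSeries R)[X]) *
          (m.choose k : (LaurentSeries R)[X])) *
        (C (uu R p ζ i) ^ (k - n) * C (ww R p ζ i) ^ (m - k)) := by
    intro i
    rw [add_pow]
    apply Finset.sum_congr rfl
    intro k _
    rw [add_pow, Finset.sum_mul, Finset.sum_mul]
    apply Finset.sum_congr rfl
    intro n _
    rw [mul_pow, mul_pow]
    ring
  simp only [e]
  rw [Finset.sum_comm]
  refine sum_mem fun k _ => ?_
  rw [Finset.sum_comm]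
  refine sum_mem fun n _ => ?_
  rw [← Finset.mul_sum]
  refine mul_mem (mul_mem (mul_mem (mul_mem (mul_mem (pow_mem hα _) (pow_mem hβ _))
    (pow_mem hγ _)) ?_) ?_) (key _ _)
  · exact natCast_mem _ _
  · exact natCast_mem _ _

/-- products of linear forms in `u, w` -/
theorem prod_linear_mem [CharZero R]
    (hpure : ∀ (c : ℤ) (N : ℕ) (r : R), N ≠ 0 → (N : R) * r = (c : R) → (N : ℤ) ∣ c)
    (hζ : IsPrimitiveRoot ζ p) {α β γ : (LaurentSeries R)[X]}
    (hα : α ∈ B1 R p) (hβ : β ∈ B1 R p) (hγ : γ ∈ B1 R p) :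
    ∏ i, (α + β * C (uu R p ζ i) + γ * C (ww R p ζ i)) ∈ B1 R p :=
  prod_mem_of_powerSums _ (fun N z hN hz => B1_sat p hpure N z hN hz) _
    (powerSum_linear_mem p hζ hα hβ hγ)

end LinearForm

end Fermat.Agent.S28.ModPoly
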