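import Mathlib
import Fermat.Agent.S28.ModPolyNewton

/-!
# The modular polynomial of prime level
-/

set_option autoImplicit false
set_option linter.style.haveILetI false
open ModularCurve Polynomial
noncomputable section

namespace Fermat.Agent.S28.ModPoly

section IsPow

variable {R : Type*} [CommRing R]

/-- Laurent series which are power series with constant coefficient `c` -/
def IsPow (f : LaurentSeries R) (c : R) : Prop :=
  ∃ F : PowerSeries R, f = HahnSeries.ofPowerSeries ℤ R F ∧ PowerSeries.constantCoeff F = c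

theorem IsPow.mul {f g : LaurentSeries R} {c d : R} (hf : IsPow f c) (hg : IsPow g d) :
    IsPow (f * g) (c * d) := by
  obtain ⟨F, rfl, rfl⟩ := hf
  obtain ⟨G, rfl, rfl⟩ := hg
  exact ⟨F * G, by rw [map_mul], by rw [map_mul]⟩

theorem IsPow.one : IsPow (1 : LaurentSeries R) 1 := ⟨1, by rw [map_one], by rw [map_one]⟩

theorem IsPow.pow {f : LaurentSeries R} {c : R} (hf : IsPow f c) (n : ℕ) :
    IsPow (f ^ n) (c ^ n) := by
  induction n with
  | zero => simpa using IsPow.one
  | succ n ih => rw [pow_succ, pow_succ]; exact ih.mul hf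

theorem IsPow.prod {ι : Type*} (s : Finset ι) {f : ι → LaurentSeries R} {c : ι → R}
    (h : ∀ i ∈ s, IsPow (f i) (c i)) : IsPow (∏ i ∈ s, f i) (∏ i ∈ s, c i) := by
  classical
  induction s using Finset.induction_on with
  | empty => simpa using IsPow.one
  | insert a s ha ih =>
    rw [Finset.prod_insert ha, Finset.prod_insert ha]
    exact (h _ (Finset.mem_insert_self _ _)).mul
      (ih fun i hi => h i (Finset.mem_insert_of_mem hi))

theorem IsPow.coeff_neg {f : LaurentSeries R} {c : R} (hf : IsPow f c) {n : ℤ} (hn : n < 0) :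
    f.coeff n = 0 := by
  obtain ⟨F, rfl, -⟩ := hf
  exact ofPowerSeries_coeff_of_neg _ hn

theorem IsPow.coeff_zero {f : LaurentSeries R} {c : R} (hf : IsPow f c) : f.coeff 0 = c := by
  obtain ⟨F, rfl, rfl⟩ := hf
  rw [show (0 : ℤ) = ((0 : ℕ) : ℤ) from rfl, HahnSeries.ofPowerSeries_apply_coeff,
    PowerSeries.coeff_zero_eq_constantCoeff]

theorem isPow_C (c : R) : IsPow (HahnSeries.C c) c := ⟨PowerSeries.C c, by simp, by simp⟩

theorem isPow_L (g : PowerSeries ℤ) : IsPow (L R g) ((PowerSeries.constantCoeff g : ℤ) : R) :=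
  ⟨g.map (Int.castRingHom R), rfl, by
    rw [← PowerSeries.coeff_zero_eq_constantCoeff, PowerSeries.coeff_map]; simp⟩

theorem isPow_qExpand_L (m : ℕ) [NeZero m] (g : PowerSeries ℤ) :
    IsPow (qExpand R m (L R g)) ((PowerSeries.constantCoeff g : ℤ) : R) := by
  rw [← L_VZ]
  have h := isPow_L (R := R) (VZ m g)
  have e : PowerSeries.constantCoeff (VZ m g) = PowerSeries.constantCoeff g := by
    rw [← PowerSeries.coeff_zero_eq_constantCoeff, VZ, PowerSeries.coeff_mk,
      if_pos (dvd_zero _), Nat.zero_div]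
  rwa [e] at h

theorem isPow_twist_L (u : Rˣ) (g : PowerSeries ℤ) :
    IsPow (twist u (L R g)) ((PowerSeries.constantCoeff g : ℤ) : R) := by
  refine ⟨PowerSeries.rescale (u : R) (g.map (Int.castRingHom R)), ?_, ?_⟩
  · ext n
    rw [twist_coeff]
    rcases lt_or_ge n 0 with hn | hn
    · rw [L_coeff_neg R _ hn, ofPowerSeries_coeff_of_neg _ hn, mul_zero]
    · lift n to ℕ using hn
      rw [L_coeff_nat, HahnSeries.ofPowerSeries_apply_coeff, PowerSeries.coeff_rescale,
        PowerSeries.coeff_map, zpow_natCast, Units.val_pow_eq_pow_val]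
      simp
  · rw [← PowerSeries.coeff_zero_eq_constantCoeff, PowerSeries.coeff_rescale,
      PowerSeries.coeff_map]
    simp

end IsPow

section Prod

variable {R : Type*} [CommRing R] [IsDomain R] (p : ℕ) [hp : Fact p.Prime] {ζ : Rˣ}

theorem prod_single {ι : Type*} (s : Finset ι) (a : ι → ℤ) (r : ι → R) :
    ∏ i ∈ s, HahnSeries.single (a i) (r i) = HahnSeries.single (∑ i ∈ s, a i) (∏ i ∈ s, r i) := by
  classical
  induction s using Finset.induction_on with
  | empty => simp
  | insert b s hb ih =>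
    rw [Finset.prod_insert hb, Finset.prod_insert hb, Finset.sum_insert hb, ih,
      HahnSeries.single_mul_single]

omit [IsDomain R] hp in
theorem single_split (a b : ℤ) (r : R) : (HahnSeries.single (a + b) r : LaurentSeries R) =
    HahnSeries.single a r * HahnSeries.single b 1 := by
  rw [HahnSeries.single_mul_single, mul_one]

theorem isPow_prod_uu : IsPow (∏ i, uu R p ζ i)
    ((p : R) ^ 12 * ∏ b : Fin p, ((ζ ^ (b : ℕ) : Rˣ) : R)) := by
  have hη : PowerSeries.constantCoeff dedekindEtaUnit = 1 := constantCoeff_dedekindEtaUnit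
  have hη' : PowerSeries.constantCoeff dedekindEtaUnitInv = 1 := constantCoeff_dedekindEtaUnitInv
  have e0 : uu R p ζ none = HahnSeries.single ((p : ℤ) * p - p) 1 *
      (HahnSeries.C ((p : R) ^ 12) * qExpand R (p * p) (L R dedekindEtaUnit) *
        qExpand R p (L R dedekindEtaUnitInv)) := by
    rw [uu, S, cc, dz, dInv, map_mul, L_X, map_mul, map_mul, qExpand_single, qExpand_single,
      map_pow, map_natCast]
    rw [show (p : ℤ) * p - p = ((p * p : ℕ) : ℤ) * 1 + (p : ℤ) * -1 by push_cast; ring,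
      single_split]
    ring
  have e1 : ∀ b : Fin p, uu R p ζ (some b) =
      HahnSeries.single (1 - (p : ℤ)) ((ζ ^ (b : ℕ) : Rˣ) : R) *
      (twist (ζ ^ (b : ℕ)) (L R dedekindEtaUnit) * qExpand R p (L R dedekindEtaUnitInv)) := by
    intro b
    rw [uu, S, cc, dz, dInv, map_mul, L_X, map_mul, map_mul, twist_single, qExpand_single]
    rw [show (1 : ℤ) - p = 1 + (p : ℤ) * -1 by ring, single_split, Nat.cast_one, one_pow,
      zpow_one, mul_one]
    ring
  rw [Fintype.prod_option, e0]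
  simp only [e1]
  rw [Finset.prod_mul_distrib, prod_single, Finset.sum_const, Finset.card_univ, Fintype.card_fin,
    mul_mul_mul_comm, HahnSeries.single_mul_single]
  have e2 : (p : ℤ) * p - p + p • (1 - (p : ℤ)) = 0 := by
    rw [nsmul_eq_mul]; ring
  rw [e2, one_mul, mul_comm ((p : R) ^ 12)]
  apply (isPow_C _).mul
  have h1 : IsPow (HahnSeries.C ((p : R) ^ 12) * qExpand R (p * p) (L R dedekindEtaUnit) *
        qExpand R p (L R dedekindEtaUnitInv)) ((p : R) ^ 12 * 1 * 1) := by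
    have a := isPow_qExpand_L (R := R) (p * p) dedekindEtaUnit
    have b := isPow_qExpand_L (R := R) p dedekindEtaUnitInv
    rw [hη, Int.cast_one] at a
    rw [hη', Int.cast_one] at b
    exact ((isPow_C _).mul a).mul b
  have h2 : IsPow (∏ b : Fin p, (twist (ζ ^ (b : ℕ)) (L R dedekindEtaUnit) *
      qExpand R p (L R dedekindEtaUnitInv))) (∏ b : Fin p, (1 * 1)) := by
    apply IsPow.prod
    intro b _
    have a := isPow_twist_L (R := R) (ζ ^ (b : ℕ)) dedekindEtaUnit
    have b := isPow_qExpand_L (R := R) p dedekindEtaUnitInv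
    rw [hη, Int.cast_one] at a
    rw [hη', Int.cast_one] at b
    exact a.mul b
  simpa using h1.mul h2

theorem prod_root_sq (hζ : IsPrimitiveRoot ζ p) :
    (∏ b : Fin p, ((ζ ^ (b : ℕ) : Rˣ) : R)) ^ 2 = 1 := by
  have h1 : ∏ b : Fin p, ((ζ ^ (b : ℕ) : Rˣ) : R) = (ζ : R) ^ (∑ b ∈ Finset.range p, b) := by
    simp only [Units.val_pow_eq_pow_val]
    rw [Fin.prod_univ_eq_prod_range (fun b => (ζ : R) ^ b), Finset.prod_pow_eq_pow_sum]
  rw [h1, ← pow_mul, Finset.sum_range_id_mul_two, pow_mul, ← Units.val_pow_eq_pow_val, hζ.pow_eq_one]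
  simp

variable [CharZero R]
    (hpure : ∀ (c : ℤ) (N : ℕ) (r : R), N ≠ 0 → (N : R) * r = (c : R) → (N : ℤ) ∣ c)
    (hζ : IsPrimitiveRoot ζ p)
include hpure hζ

theorem prod_uu_eq : ∏ i, uu R p ζ i = (p : LaurentSeries R) ^ 12 ∨
    ∏ i, uu R p ζ i = -(p : LaurentSeries R) ^ 12 := by
  have h0 := prod_linear_mem p hpure hζ (α := 0) (β := 1) (γ := 0) (zero_mem _) (one_mem _)
    (zero_mem _)
  simp only [zero_add, one_mul, zero_mul, add_zero] at h0
  rw [← map_prod, mem_B1_iff] at h0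
  obtain ⟨Q, hQ⟩ := h0 0
  rw [coeff_C_zero] at hQ
  have hpow := isPow_prod_uu (R := R) p (ζ := ζ)
  have hp0 : 0 < (p : ℤ) := by exact_mod_cast hp.out.pos
  have hdeg : Q.natDegree = 0 := by
    by_contra hne
    have h1 := coeff_evJ_natDegree (R := R) p Q
    rw [hQ, hpow.coeff_neg] at h1
    · have h2 : Q.leadingCoeff = 0 := by exact_mod_cast h1.symm
      rw [leadingCoeff_eq_zero] at h2
      rw [h2, natDegree_zero] at hne
      exact hne rfl
    · have : 0 < (Q.natDegree : ℤ) := by exact_mod_cast Nat.pos_of_ne_zero hne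
      have := mul_pos hp0 this
      linarith
  obtain ⟨q, rfl⟩ := natDegree_eq_zero.mp hdeg
  have hq : evJ R (J0 R p) (C q) = ((q : ℤ) : LaurentSeries R) := by
    simp [evJ]
  rw [hq] at hQ
  have hc : ((q : ℤ) : R) = (p : R) ^ 12 * ∏ b : Fin p, ((ζ ^ (b : ℕ) : Rˣ) : R) := by
    rw [← hpow.coeff_zero, ← hQ]
    have : ((q : ℤ) : LaurentSeries R) = HahnSeries.C (q : R) := (map_intCast _ _).symm
    rw [this, HahnSeries.C_apply, HahnSeries.coeff_single_same]
  have hsq : q ^ 2 = ((p : ℤ) ^ 12) ^ 2 := by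
    have h3 : ((q : ℤ) : R) ^ 2 = ((p : R) ^ 12) ^ 2 := by
      rw [hc, mul_pow, prod_root_sq p hζ, mul_one]
    exact_mod_cast h3
  rcases sq_eq_sq_iff_eq_or_eq_neg.mp hsq with h | h
  · left; rw [← hQ, h]; push_cast; rfl
  · right; rw [← hQ, h]; push_cast; rfl

/-- `∏ (X - j_i)` has coefficients in `ℤ[j]` -/
theorem prod_X_sub_jj_mem : ∏ i, (X - C (jj R p ζ i)) ∈ B1 R p := by
  have h0 := prod_linear_mem p hpure hζ (α := 0) (β := X) (γ := -1) (zero_mem _) (X_mem_B1 p)
    (neg_mem (one_mem _))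
  have e : ∀ i, (0 : (LaurentSeries R)[X]) + X * C (uu R p ζ i) + (-1) * C (ww R p ζ i) =
      C (uu R p ζ i) * (X - C (jj R p ζ i)) := by
    intro i
    rw [ww, C_mul]; ring
  simp only [e] at h0
  rw [Finset.prod_mul_distrib, ← map_prod] at h0
  have hN : p ^ 12 ≠ 0 := pow_ne_zero _ hp.out.ne_zero
  have hC : C ((p : LaurentSeries R) ^ 12) = ((p ^ 12 : ℕ) : (LaurentSeries R)[X]) := by
    rw [map_pow, map_natCast, Nat.cast_pow]
  rcases prod_uu_eq p hpure hζ with h | h
  · rw [h, hC] at h0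
    exact B1_sat p hpure _ _ hN h0
  · have h1 : ((p ^ 12 : ℕ) : (LaurentSeries R)[X]) * ∏ x, (X - C (jj R p ζ x)) =
        -(C (∏ x, uu R p ζ x) * ∏ x, (X - C (jj R p ζ x))) := by
      rw [h, C_neg, hC]; ring
    exact B1_sat p hpure _ _ hN (by rw [h1]; exact neg_mem h0)

/-- `∏ (X - u_i)` has coefficients in `ℤ[j]` -/
theorem prod_X_sub_uu_mem : ∏ i, (X - C (uu R p ζ i)) ∈ B1 R p := by
  have h0 := prod_linear_mem p hpure hζ (α := X) (β := -1) (γ := 0) (X_mem_B1 p)
    (neg_mem (one_mem _)) (zero_mem _)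
  have e : ∀ i, (X : (LaurentSeries R)[X]) + (-1) * C (uu R p ζ i) + 0 * C (ww R p ζ i) =
      X - C (uu R p ζ i) := by
    intro i
    ring
  simpa only [e] using h0

end Prod

section Cyc

variable (p : ℕ) [hp : Fact p.Prime]

/-- `ℤ[ζ_p]` -/
abbrev ZCyc : Type := AdjoinRoot (cyclotomic p ℤ)

instance : IsDomain (ZCyc p) :=
  AdjoinRoot.isDomain_of_prime (cyclotomic.irreducible hp.out.pos).prime

theorem ZCyc_pure (c : ℤ) (N : ℕ) (r : ZCyc p) (hN : N ≠ 0) (h : (N : ZCyc p) * r = (c : ZCyc p)) :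
    (N : ℤ) ∣ c := by
  obtain ⟨P, rfl⟩ := AdjoinRoot.mk_surjective r
  have h1 : AdjoinRoot.mk (cyclotomic p ℤ) (C (N : ℤ) * P - C c) = 0 := by
    rw [map_sub, map_mul]
    rw [sub_eq_zero]
    simpa using h
  rw [AdjoinRoot.mk_eq_zero] at h1
  have h2 := Polynomial.map_dvd (Int.castRingHom (ZMod N)) h1
  rw [map_cyclotomic, Polynomial.map_sub, Polynomial.map_mul, Polynomial.map_C, Polynomial.map_C] at h2
  have h3 : (Int.castRingHom (ZMod N)) (N : ℤ) = 0 := by simp
  rw [h3, C_0, zero_mul, zero_sub, dvd_neg] at h2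
  have h4 : (Int.castRingHom (ZMod N)) c = 0 := by
    by_contra hne
    haveI : Nontrivial (ZMod N) := nontrivial_of_ne _ _ hne
    have hd : (C ((Int.castRingHom (ZMod N)) c)).degree < (cyclotomic p (ZMod N)).degree := by
      rw [degree_C hne, degree_cyclotomic]
      exact_mod_cast Nat.totient_pos.mpr hp.out.pos
    exact (cyclotomic.monic p (ZMod N)).not_dvd_of_degree_lt (C_ne_zero.mpr hne) hd h2
  rw [eq_intCast, ZMod.intCast_zmod_eq_zero_iff_dvd] at h4
  exact h4

instance : CharZero (ZCyc p) := by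
  refine charZero_of_inj_zero fun n hn => ?_
  have h1 : AdjoinRoot.mk (cyclotomic p ℤ) (C (n : ℤ)) = 0 := by
    simpa using hn
  rw [AdjoinRoot.mk_eq_zero] at h1
  by_contra hne
  have hne' : (n : ℤ) ≠ 0 := by exact_mod_cast hne
  have hd : (C (n : ℤ)).degree < (cyclotomic p ℤ).degree := by
    rw [degree_C hne', degree_cyclotomic]
    exact_mod_cast Nat.totient_pos.mpr hp.out.pos
  exact (cyclotomic.monic p ℤ).not_dvd_of_degree_lt (C_ne_zero.mpr hne') hd h1

theorem isPrimitiveRoot_root : IsPrimitiveRoot (AdjoinRoot.root (cyclotomic p ℤ)) p := by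
  haveI : NeZero (p : ZCyc p) := ⟨by exact_mod_cast hp.out.ne_zero⟩
  rw [← isRoot_cyclotomic_iff]
  have := AdjoinRoot.isRoot_root (cyclotomic p ℤ)
  rwa [map_cyclotomic] at this

end Cyc

end Fermat.Agent.S28.ModPoly
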