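import Mathlib
import Fermat.Agent.S28.ModPoly

/-!
# The modular polynomial `Φ_p ∈ ℤ[j][X]` for a prime `p`, over all fields
-/

set_option autoImplicit false
set_option linter.style.haveILetI false
open ModularCurve Polynomial
noncomputable section

namespace Fermat.Agent.S28.ModPoly

section Transfer

variable {R K : Type*} [CommRing R] [CommRing K] (ψ : R →+* K)

theorem coeffMap_twist (u : Rˣ) (f : LaurentSeries R) :
    coeffMap ψ (twist u f) = twist (Units.map (ψ : R →* K) u) (coeffMap ψ f) := by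
  ext n
  rw [coeffMap_coeff, twist_coeff, twist_coeff, coeffMap_coeff, map_mul, ← map_zpow]
  rfl

theorem coeffMap_L (g : PowerSeries ℤ) : coeffMap ψ (L R g) = L K g := by
  rw [L, L, RingHom.comp_apply, RingHom.comp_apply, coeffMap_ofPowerSeries]
  congr 1
  ext n
  rw [PowerSeries.coeff_map, PowerSeries.coeff_map, PowerSeries.coeff_map, eq_intCast, eq_intCast,
    map_intCast]

theorem coeffMap_dInv : coeffMap ψ (dInv R) = dInv K := by
  rw [dInv, dInv, map_mul, coeffMap_single, map_one, coeffMap_L]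

variable [IsDomain R] [IsDomain K] (p : ℕ) [hp : Fact p.Prime] (ζ : Rˣ)

theorem coeffMap_S (i : Option (Fin p)) (f : LaurentSeries R) :
    coeffMap ψ (S R p ζ i f) = S K p (Units.map (ψ : R →* K) ζ) i (coeffMap ψ f) := by
  cases i with
  | none => exact coeffMap_qExpand _ _ _
  | some b => 
    change coeffMap ψ (twist (ζ ^ (b : ℕ)) f) = twist ((Units.map (ψ : R →* K) ζ) ^ (b : ℕ)) _
    rw [coeffMap_twist, map_pow]

theorem coeffMap_jj (i : Option (Fin p)) :
    coeffMap ψ (jj R p ζ i) = jj K p (Units.map (ψ : R →* K) ζ) i := by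
  rw [jj, coeffMap_S, coeffMap_jqModC, jj]

theorem coeffMap_uu (i : Option (Fin p)) :
    coeffMap ψ (uu R p ζ i) = uu K p (Units.map (ψ : R →* K) ζ) i := by
  rw [uu, uu, map_mul, map_mul, coeffMap_S, coeffMap_L, coeffMap_qExpand, coeffMap_dInv, map_pow,
    map_natCast]

theorem coeffMap_J0 : coeffMap ψ (J0 R p) = J0 K p := by
  rw [J0, J0, coeffMap_qExpand, coeffMap_jqModC]

end Transfer

section Main

variable (p : ℕ) [hp : Fact p.Prime]

/-- `ζ` as a unit of `ℤ[ζ_p]` -/
def zcyc : (ZCyc p)ˣ :=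
  (isPrimitiveRoot_root p).isUnit hp.out.ne_zero |>.unit

theorem isPrimitiveRoot_zcyc : IsPrimitiveRoot (zcyc p) p := by
  rw [← IsPrimitiveRoot.coe_units_iff]
  exact isPrimitiveRoot_root p

/-- the modular polynomial `Φ_p(X) ∈ ℤ[j][X]` -/
def modPoly : ℤ[X][X] :=
  (prod_X_sub_jj_mem p (ZCyc_pure p) (isPrimitiveRoot_zcyc p)).choose

theorem modPoly_map_zcyc : (modPoly p).map (evJ (ZCyc p) (J0 (ZCyc p) p)) =
    ∏ i, (X - C (jj (ZCyc p) p (zcyc p) i)) :=
  (prod_X_sub_jj_mem p (ZCyc_pure p) (isPrimitiveRoot_zcyc p)).choose_spec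

/-- the characteristic polynomial of `p^12 Δ(q^p)/Δ(q)` -/
def deltaPoly : ℤ[X][X] :=
  (prod_X_sub_uu_mem p (ZCyc_pure p) (isPrimitiveRoot_zcyc p)).choose

theorem deltaPoly_map_zcyc : (deltaPoly p).map (evJ (ZCyc p) (J0 (ZCyc p) p)) =
    ∏ i, (X - C (uu (ZCyc p) p (zcyc p) i)) :=
  (prod_X_sub_uu_mem p (ZCyc_pure p) (isPrimitiveRoot_zcyc p)).choose_spec

theorem monic_prod {B ι : Type*} [CommRing B] [Fintype ι] (x : ι → B) :
    (∏ i, (X - C (x i))).Monic := monic_prod_of_monic _ _ fun i _ => monic_X_sub_C (x i)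

theorem natDegree_prod' {B : Type*} [CommRing B] [Nontrivial B] (x : Option (Fin p) → B) :
    (∏ i, (X - C (x i))).natDegree = p + 1 := by
  rw [natDegree_prod_of_monic _ _ fun i _ => monic_X_sub_C (x i)]
  simp

theorem modPoly_monic : (modPoly p).Monic := by
  have h := monic_prod (fun i => jj (ZCyc p) p (zcyc p) i)
  rw [← modPoly_map_zcyc] at h
  exact monic_of_injective (evJ_injective p) h

theorem modPoly_natDegree : (modPoly p).natDegree = p + 1 := by
  rw [← natDegree_prod' p (fun i => jj (ZCyc p) p (zcyc p) i), ← modPoly_map_zcyc,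
    natDegree_map_eq_of_injective (evJ_injective p)]

theorem deltaPoly_monic : (deltaPoly p).Monic := by
  have h := monic_prod (fun i => uu (ZCyc p) p (zcyc p) i)
  rw [← deltaPoly_map_zcyc] at h
  exact monic_of_injective (evJ_injective p) h

theorem deltaPoly_natDegree : (deltaPoly p).natDegree = p + 1 := by
  rw [← natDegree_prod' p (fun i => uu (ZCyc p) p (zcyc p) i), ← deltaPoly_map_zcyc,
    natDegree_map_eq_of_injective (evJ_injective p)]

theorem deltaPoly_coeff_zero : (deltaPoly p).coeff 0 = C ((p : ℤ) ^ 12) ∨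
    (deltaPoly p).coeff 0 = -C ((p : ℤ) ^ 12) := by
  have h := congrArg (fun f => f.coeff 0) (deltaPoly_map_zcyc p)
  rw [coeff_map, coeff_zero_eq_eval_zero, coeff_zero_eq_eval_zero, eval_prod] at h
  simp only [eval_sub, eval_X, eval_C, zero_sub] at h
  rw [Finset.prod_neg] at h
  have hC : evJ (ZCyc p) (J0 (ZCyc p) p) (C ((p : ℤ) ^ 12)) = (p : LaurentSeries (ZCyc p)) ^ 12 := by
    rw [show (C ((p : ℤ) ^ 12) : ℤ[X]) = ((p : ℕ) : ℤ[X]) ^ 12 by simp, map_pow, map_natCast]
  rcases prod_uu_eq p (ZCyc_pure p) (isPrimitiveRoot_zcyc p) with h1 | h1 <;>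
  rcases neg_one_pow_eq_or (LaurentSeries (ZCyc p)) (Finset.univ : Finset (Option (Fin p))).card
    with h2 | h2 <;> rw [h1, h2] at h
  · left; apply evJ_injective (R := ZCyc p) p; rw [coeff_zero_eq_eval_zero, h, hC]; ring
  · right; apply evJ_injective (R := ZCyc p) p; rw [coeff_zero_eq_eval_zero, h, map_neg, hC]; ring
  · right; apply evJ_injective (R := ZCyc p) p; rw [coeff_zero_eq_eval_zero, h, map_neg, hC]; ring
  · left; apply evJ_injective (R := ZCyc p) p; rw [coeff_zero_eq_eval_zero, h, hC]; ring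

variable (K : Type*) [Field K] (ζ : Kˣ) (hζ : IsPrimitiveRoot ζ p)

include hζ in
theorem exists_hom : ∃ ψ : ZCyc p →+* K, Units.map (ψ : ZCyc p →* K) (zcyc p) = ζ := by
  have h1 : (cyclotomic p ℤ).eval₂ (Int.castRingHom K) (ζ : K) = 0 := by
    rw [← eval_map, map_cyclotomic]
    exact (IsPrimitiveRoot.coe_units_iff.mpr hζ).isRoot_cyclotomic hp.out.pos
  refine ⟨AdjoinRoot.lift (Int.castRingHom K) (ζ : K) h1, ?_⟩
  ext
  change AdjoinRoot.lift (Int.castRingHom K) (ζ : K) h1 (AdjoinRoot.root (cyclotomic p ℤ)) = ζ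
  rw [AdjoinRoot.lift_root]

include hζ in
theorem modPoly_map : (modPoly p).map (evJ K (J0 K p)) = ∏ i, (X - C (jj K p ζ i)) := by
  obtain ⟨ψ, rfl⟩ := exists_hom p K ζ hζ
  have h := congrArg (Polynomial.map (coeffMap ψ)) (modPoly_map_zcyc p)
  rw [Polynomial.map_map, comp_evJ, coeffMap_J0, Polynomial.map_prod] at h
  rw [h]
  apply Finset.prod_congr rfl
  intro i _
  rw [Polynomial.map_sub, Polynomial.map_X, Polynomial.map_C, coeffMap_jj]

include hζ in
theorem deltaPoly_map : (deltaPoly p).map (evJ K (J0 K p)) = ∏ i, (X - C (uu K p ζ i)) := by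
  obtain ⟨ψ, rfl⟩ := exists_hom p K ζ hζ
  have h := congrArg (Polynomial.map (coeffMap ψ)) (deltaPoly_map_zcyc p)
  rw [Polynomial.map_map, comp_evJ, coeffMap_J0, Polynomial.map_prod] at h
  rw [h]
  apply Finset.prod_congr rfl
  intro i _
  rw [Polynomial.map_sub, Polynomial.map_X, Polynomial.map_C, coeffMap_uu]

include hζ in
/-- The root formula for the modular polynomial (`q = t^p`). -/
theorem modPoly_map_eq : (modPoly p).map (evJ K (qExpand K p (jqModC K))) =
    (X - C (qExpand K (p * p) (jqModC K))) *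
      ∏ i ∈ Finset.range p, (X - C (twist (ζ ^ i) (jqModC K))) := by
  have h := modPoly_map p K ζ hζ
  rw [Fintype.prod_option] at h
  rw [← Fin.prod_univ_eq_prod_range (fun i => (X - C (twist (ζ ^ i) (jqModC K))))]
  exact h

end Main

end Fermat.Agent.S28.ModPoly

namespace Fermat.Agent.S28

open ModPoly

universe u

/-- (T1) -/
theorem exists_modPoly (p : ℕ) [Fact p.Prime] : ∃ Φ : Polynomial (Polynomial ℤ), Φ.Monic ∧
    Φ.natDegree = p + 1 ∧ ∀ (K : Type u) [Field K] (ζ : Kˣ), IsPrimitiveRoot ζ p →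
      Φ.map (evJ K (qExpand K p (jqModC K))) = (X - C (qExpand K (p * p) (jqModC K))) *
        ∏ i ∈ Finset.range p, (X - C (twist (ζ ^ i) (jqModC K))) :=
  ⟨modPoly p, modPoly_monic p, modPoly_natDegree p, fun K _ ζ hζ => modPoly_map_eq p K ζ hζ⟩

end Fermat.Agent.S28
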