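import Mathlib
import Fermat.Prelude.Def_ModularCurve_X0ModL
import Fermat.Agent.S28.ModPolyMain

/-!
# `j(q^p) ∉ K(j(q))` when `p` is invertible in `K`
-/

set_option autoImplicit false
set_option linter.style.haveILetI false
open ModularCurve Polynomial IntermediateField
noncomputable section

namespace Fermat.Agent.S28.ModPoly

section

variable (K : Type*) [Field K] (p : ℕ) [hp : Fact p.Prime]

/-- `K(j(t^p))` -/
abbrev L0 : IntermediateField K (LaurentSeries K) := K⟮J0 K p⟯

theorem algebraMap_eq_C (c : K) : algebraMap K (LaurentSeries K) c = HahnSeries.C c :=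
  algebraMap_laurentSeries_eq_single K c

/-- evaluation at `J0` of polynomials over `K` -/
theorem coeff_aeval_J0_of_lt (Q : K[X]) {m : ℤ} (hm : m < -(p * Q.natDegree : ℤ)) :
    (aeval (J0 K p) Q).coeff m = 0 := by
  rw [aeval_eq_sum_range, HahnSeries.coeff_sum]
  apply Finset.sum_eq_zero
  intro k hk
  rw [Finset.mem_range] at hk
  rw [Algebra.smul_def, algebraMap_eq_C, HahnSeries.C_mul_eq_smul, HahnSeries.coeff_smul,
    coeff_J0_pow_of_lt, smul_zero]
  refine hm.trans_le ?_
  have : (p : ℤ) * k ≤ p * Q.natDegree := by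
    apply mul_le_mul_of_nonneg_left _ (by positivity)
    exact_mod_cast Nat.lt_succ_iff.mp hk
  linarith

theorem coeff_aeval_J0_natDegree (Q : K[X]) :
    (aeval (J0 K p) Q).coeff (-(p * Q.natDegree : ℤ)) = Q.leadingCoeff := by
  have hp0 : 0 < (p : ℤ) := by exact_mod_cast hp.out.pos
  rw [aeval_eq_sum_range, HahnSeries.coeff_sum, Finset.sum_eq_single Q.natDegree]
  · rw [Algebra.smul_def, algebraMap_eq_C, HahnSeries.C_mul_eq_smul, HahnSeries.coeff_smul,
      coeff_J0_pow_self, smul_eq_mul, mul_one]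
    rfl
  · intro k hk hne
    rw [Finset.mem_range] at hk
    rw [Algebra.smul_def, algebraMap_eq_C, HahnSeries.C_mul_eq_smul, HahnSeries.coeff_smul,
      coeff_J0_pow_of_lt, smul_zero]
    have : (p : ℤ) * k < p * Q.natDegree := by
      apply mul_lt_mul_of_pos_left _ hp0
      have : k < Q.natDegree := by omega
      exact_mod_cast this
    linarith
  · intro h
    exact absurd (Finset.mem_range.mpr (Nat.lt_succ_self _)) h

theorem transcendental_J0 : Transcendental K (J0 K p) := by
  rw [transcendental_iff]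
  intro Q hQ
  have := coeff_aeval_J0_natDegree K p Q
  rw [hQ, HahnSeries.coeff_zero] at this
  rw [← leadingCoeff_eq_zero]
  exact this.symm

/-- an element of `K[J0]` invertible in `K[J0]` is constant -/
theorem eq_C_of_inv_mem {z z' : LaurentSeries K} (hz : z ∈ Algebra.adjoin K {J0 K p})
    (hz' : z' ∈ Algebra.adjoin K {J0 K p}) (h : z * z' = 1) : ∃ c : K, z = HahnSeries.C c := by
  rw [Algebra.adjoin_singleton_eq_range_aeval] at hz hz'
  obtain ⟨P, rfl⟩ := hz
  obtain ⟨P', rfl⟩ := hz'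
  have h1 : P * P' = 1 := by
    have h2 : aeval (J0 K p) (P * P' - 1) = 0 := by
      rw [map_sub, map_mul, map_one, sub_eq_zero]
      exact h
    exact sub_eq_zero.mp (transcendental_iff.mp (transcendental_J0 K p) _ h2)
  have h2 : IsUnit P := IsUnit.of_mul_eq_one P' h1
  obtain ⟨c, -, rfl⟩ := Polynomial.isUnit_iff.mp h2
  exact ⟨c, by
    change aeval _ (C c) = _
    rw [aeval_C, algebraMap_eq_C]⟩

theorem evJ_mem_adjoin (Q : ℤ[X]) : evJ K (J0 K p) Q ∈ Algebra.adjoin K {J0 K p} := by
  rw [Algebra.adjoin_singleton_eq_range_aeval]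
  refine ⟨Q.map (Int.castRingHom K), ?_⟩
  change aeval (J0 K p) _ = _
  rw [aeval_def, eval₂_map, evJ, coe_eval₂RingHom]
  congr 1
  exact Subsingleton.elim _ _

/-- an element of `K(J0)` integral over `K[J0]` lies in `K[J0]` -/
theorem mem_adjoin_of_isIntegral {z : LaurentSeries K} (hz : z ∈ L0 K p)
    (hi : IsIntegral (Algebra.adjoin K {J0 K p}) z) : z ∈ Algebra.adjoin K {J0 K p} := by
  haveI : UniqueFactorizationMonoid (Algebra.adjoin K {J0 K p}) :=
    (transcendental_J0 K p).uniqueFactorizationMonoid_adjoin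
  open scoped IntermediateField.algebraAdjoinAdjoin in
  have h1 : IsIntegral (Algebra.adjoin K {J0 K p}) (⟨z, hz⟩ : L0 K p) := by
    have := isIntegral_algHom_iff (IsScalarTower.toAlgHom (Algebra.adjoin K {J0 K p}) (L0 K p)
      (LaurentSeries K)) (Subtype.val_injective) (x := (⟨z, hz⟩ : L0 K p))
    exact this.mp hi
  open scoped IntermediateField.algebraAdjoinAdjoin in
  obtain ⟨y, hy⟩ := (IsIntegrallyClosed.isIntegral_iff (R := Algebra.adjoin K {J0 K p})
    (K := L0 K p)).mp h1
  have h2 := congrArg (Subtype.val) hy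
  rw [IntermediateField.algebraAdjoinAdjoin.coe_algebraMap] at h2
  change (y : LaurentSeries K) = z at h2
  rw [← h2]; exact y.2

end

section

variable (K : Type*) [Field K] (p : ℕ) [hp : Fact p.Prime] (ζ : Kˣ) (hζ : IsPrimitiveRoot ζ p)
include hζ

theorem isIntegral_uu (i : Option (Fin p)) :
    IsIntegral (Algebra.adjoin K {J0 K p}) (uu K p ζ i) := by
  have h := deltaPoly_map p K ζ hζ
  have hl : (deltaPoly p).map (evJ K (J0 K p)) ∈
      Polynomial.lifts (algebraMap (Algebra.adjoin K {J0 K p}) (LaurentSeries K)) := by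
    rw [lifts_iff_coeff_lifts]
    intro n
    rw [coeff_map]
    exact ⟨⟨_, evJ_mem_adjoin K p _⟩, rfl⟩
  obtain ⟨q, hq, -, hqm⟩ := lifts_and_natDegree_eq_and_monic hl ((deltaPoly_monic p).map _)
  refine ⟨q, hqm, ?_⟩
  rw [eval₂_eq_eval_map, hq, h, eval_prod]
  apply Finset.prod_eq_zero (Finset.mem_univ i)
  simp

theorem prod_uu_K : ∏ i, uu K p ζ i = (p : LaurentSeries K) ^ 12 ∨
    ∏ i, uu K p ζ i = -(p : LaurentSeries K) ^ 12 := by
  obtain ⟨ψ, rfl⟩ := exists_hom p K ζ hζ
  have h : ∏ i, uu K p (Units.map (ψ : ZCyc p →* K) (zcyc p)) i =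
      coeffMap ψ (∏ i, uu (ZCyc p) p (zcyc p) i) := by
    rw [map_prod]
    exact Finset.prod_congr rfl fun i _ => (coeffMap_uu ψ p (zcyc p) i).symm
  rw [h]
  rcases prod_uu_eq p (ZCyc_pure p) (isPrimitiveRoot_zcyc p) with h1 | h1
  · left; rw [h1, map_pow, map_natCast]
  · right; rw [h1, map_neg, map_pow, map_natCast]

theorem natCast_laurent_ne_zero (hpK : (p : K) ≠ 0) : (p : LaurentSeries K) ≠ 0 := by
  have : ((p : LaurentSeries K)) = HahnSeries.C (p : K) := (map_natCast _ _).symm
  rw [this, Ne, map_eq_zero_iff _ HahnSeries.C_injective]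
  exact hpK

theorem isIntegral_inv_uu_none (hpK : (p : K) ≠ 0) :
    IsIntegral (Algebra.adjoin K {J0 K p}) (uu K p ζ none)⁻¹ := by
  have hp0 := natCast_laurent_ne_zero K p ζ hζ hpK
  have hprod : IsIntegral (Algebra.adjoin K {J0 K p}) (∏ b : Fin p, uu K p ζ (some b)) :=
    IsIntegral.prod _ fun b _ => isIntegral_uu K p ζ hζ (some b)
  have hconst : ∀ c : K, IsIntegral (Algebra.adjoin K {J0 K p}) (HahnSeries.C c : LaurentSeries K) := by
    intro c
    rw [← algebraMap_eq_C]
    exact isIntegral_algebraMap (R := Algebra.adjoin K {J0 K p}) (A := LaurentSeries K)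
      (x := algebraMap K _ c)
  have hC : ((p : LaurentSeries K) ^ 12)⁻¹ = HahnSeries.C (((p : K) ^ 12)⁻¹) := by
    rw [map_inv₀, map_pow, map_natCast]
  have h := prod_uu_K K p ζ hζ
  rw [Fintype.prod_option] at h
  have hne : uu K p ζ none ≠ 0 := by
    intro h0
    rw [h0, zero_mul] at h
    rcases h with h | h
    · exact pow_ne_zero 12 hp0 h.symm
    · exact pow_ne_zero 12 hp0 (neg_eq_zero.mp h.symm)
  rcases h with h | h
  · have : (uu K p ζ none)⁻¹ = (∏ b : Fin p, uu K p ζ (some b)) *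
        HahnSeries.C (((p : K) ^ 12)⁻¹) := by
      rw [← hC, ← h]
      field_simp
      rw [div_self]
      intro h0
      rw [h0, mul_zero] at h
      exact pow_ne_zero 12 hp0 h.symm
    rw [this]
    exact hprod.mul (hconst _)
  · have : (uu K p ζ none)⁻¹ = -((∏ b : Fin p, uu K p ζ (some b)) *
        HahnSeries.C (((p : K) ^ 12)⁻¹)) := by
      have h' : (p : LaurentSeries K) ^ 12 = -(uu K p ζ none * ∏ b : Fin p, uu K p ζ (some b)) := by
        rw [h, neg_neg]
      have h3 : ∏ b : Fin p, uu K p ζ (some b) ≠ 0 := by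
        intro h0
        rw [h0, mul_zero, neg_zero] at h'
        exact pow_ne_zero 12 hp0 h'
      rw [← hC, h']
      field_simp
    rw [this]
    exact (hprod.mul (hconst _)).neg

omit hζ in
theorem uu_none_eq : uu K p ζ none = HahnSeries.single ((p : ℤ) * p - p) 1 *
      (HahnSeries.C ((p : K) ^ 12) * qExpand K (p * p) (L K dedekindEtaUnit) *
        qExpand K p (L K dedekindEtaUnitInv)) := by
  rw [uu, S, cc, dz, dInv, map_mul, L_X, map_mul, map_mul, qExpand_single, qExpand_single,
    map_pow, map_natCast]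
  rw [show (p : ℤ) * p - p = ((p * p : ℕ) : ℤ) * 1 + (p : ℤ) * -1 by push_cast; ring,
    single_split]
  ring

omit hζ in
theorem coeff_zero_uu_none_pow : (uu K p ζ none ^ p).coeff 0 = 0 := by
  have h1 : IsPow (HahnSeries.C ((p : K) ^ 12) * qExpand K (p * p) (L K dedekindEtaUnit) *
        qExpand K p (L K dedekindEtaUnitInv)) _ :=
    ((isPow_C _).mul (isPow_qExpand_L (R := K) (p * p) dedekindEtaUnit)).mul
      (isPow_qExpand_L (R := K) p dedekindEtaUnitInv)
  have h2 := h1.pow p
  have hp1 : (1 : ℤ) < p := by exact_mod_cast hp.out.one_lt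
  rw [uu_none_eq, mul_pow, HahnSeries.single_pow, one_pow, HahnSeries.coeff_single_mul, one_mul,
    h2.coeff_neg]
  rw [nsmul_eq_mul]
  nlinarith

theorem jj_none_ne_jj_some (b : Fin p) : jj K p ζ none ≠ jj K p ζ (some b) := by
  intro h
  have h1 := congrArg (fun f => HahnSeries.coeff f (-((p * p : ℕ) : ℤ))) h
  simp only [jj, S] at h1
  have e1 : (-((p * p : ℕ) : ℤ)) = ((p * p : ℕ) : ℤ) * (-1) := by ring
  have h2 : 1 < p * p := by
    have := hp.out.one_lt
    nlinarith
  have h3 : (-((p * p : ℕ) : ℤ)) < -1 := by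
    have : (1 : ℤ) < ((p * p : ℕ) : ℤ) := by exact_mod_cast h2
    linarith
  rw [twist_coeff, coeff_jqModC_of_lt K h3, mul_zero, e1, qExpand_coeff_mul,
    coeff_jqModC_neg_one] at h1
  exact one_ne_zero h1

/-- Main step over a field containing the `p`-th roots of unity. -/
theorem jj_none_notMem (hpK : (p : K) ≠ 0) : jj K p ζ none ∉ L0 K p := by
  intro hmem
  have hp0 := natCast_laurent_ne_zero K p ζ hζ hpK
  -- the polynomial Ψ = ∏ (X - j_b) has coefficients in L0
  set Ψ : (LaurentSeries K)[X] := ∏ b : Fin p, (X - C (jj K p ζ (some b))) with hΨ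
  have hL0 : ∀ Q : ℤ[X], evJ K (J0 K p) Q ∈ L0 K p := fun Q =>
    algebra_adjoin_le_adjoin K _ (evJ_mem_adjoin K p Q)
  have hΨc : ∀ n, Ψ.coeff n ∈ L0 K p := by
    have hl : (modPoly p).map (evJ K (J0 K p)) ∈
        Polynomial.lifts (algebraMap (L0 K p) (LaurentSeries K)) := by
      rw [lifts_iff_coeff_lifts]
      intro n
      rw [coeff_map]
      exact ⟨⟨_, hL0 _⟩, rfl⟩
    obtain ⟨q, hq⟩ := hl
    have hdiv : Ψ = (q /ₘ (X - C (⟨_, hmem⟩ : L0 K p))).map (algebraMap (L0 K p) (LaurentSeries K)) := by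
      rw [map_divByMonic _ (monic_X_sub_C _)]
      have e1 : (X - C (⟨_, hmem⟩ : L0 K p)).map (algebraMap (L0 K p) (LaurentSeries K)) =
          X - C (jj K p ζ none) := by
        rw [Polynomial.map_sub, Polynomial.map_X, Polynomial.map_C]; rfl
      have e2 : q.map (algebraMap (L0 K p) (LaurentSeries K)) =
          (X - C (jj K p ζ none)) * Ψ := by
        change mapRingHom _ q = _
        rw [hq, modPoly_map p K ζ hζ, Fintype.prod_option]
      rw [e1, e2, mul_divByMonic_cancel_left _ (monic_X_sub_C _)]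
    intro n
    rw [hdiv, coeff_map]
    exact (SetLike.coe_mem _)
  have hΨdeg : Ψ.natDegree = p := by
    rw [hΨ, natDegree_prod_of_monic _ _ fun i _ => monic_X_sub_C _]
    simp
  -- power sums
  have hsum : ∑ i, uu K p ζ i ^ p * Ψ.eval (jj K p ζ i) ∈ L0 K p := by
    have e : ∀ i, uu K p ζ i ^ p * Ψ.eval (jj K p ζ i) =
        ∑ a ∈ Finset.range (p + 1), Ψ.coeff a * (uu K p ζ i ^ (p - a) * ww K p ζ i ^ a) := by
      intro i
      rw [eval_eq_sum_range, hΨdeg, Finset.mul_sum]
      apply Finset.sum_congr rfl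
      intro a ha
      rw [Finset.mem_range] at ha
      have : uu K p ζ i ^ p = uu K p ζ i ^ (p - a) * uu K p ζ i ^ a := by
        rw [← pow_add]; congr 1; omega
      rw [ww, mul_pow, this]
      ring
    simp only [e]
    rw [Finset.sum_comm]
    refine sum_mem fun a ha => ?_
    rw [Finset.mem_range] at ha
    rw [← Finset.mul_sum]
    refine mul_mem (hΨc a) ?_
    obtain ⟨Q, hQ⟩ := powerSum_mem (R := K) p hζ p a (by omega)
    rw [← hQ]
    exact hL0 Q
  have hz0 : ∀ b : Fin p, Ψ.eval (jj K p ζ (some b)) = 0 := by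
    intro b
    rw [hΨ, eval_prod]
    apply Finset.prod_eq_zero (Finset.mem_univ b)
    simp
  rw [Fintype.sum_option] at hsum
  simp only [hz0, mul_zero, Finset.sum_const_zero, add_zero] at hsum
  have hΨ0 : Ψ.eval (jj K p ζ none) ≠ 0 := by
    rw [hΨ, eval_prod]
    apply Finset.prod_ne_zero_iff.mpr
    intro b _
    rw [eval_sub, eval_X, eval_C, sub_ne_zero]
    exact jj_none_ne_jj_some K p ζ hζ b
  have hΨmem : Ψ.eval (jj K p ζ none) ∈ L0 K p := by
    rw [eval_eq_sum_range]
    exact sum_mem fun a _ => mul_mem (hΨc a) (pow_mem hmem _)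
  have hz : uu K p ζ none ^ p ∈ L0 K p := by
    have := mul_mem hsum (inv_mem hΨmem)
    rwa [mul_inv_cancel_right₀ hΨ0] at this
  -- z is a unit of K[J0]
  have h1 : uu K p ζ none ^ p ∈ Algebra.adjoin K {J0 K p} :=
    mem_adjoin_of_isIntegral K p hz ((isIntegral_uu K p ζ hζ none).pow p)
  have h2 : (uu K p ζ none ^ p)⁻¹ ∈ Algebra.adjoin K {J0 K p} := by
    refine mem_adjoin_of_isIntegral K p (inv_mem hz) ?_
    rw [← inv_pow]
    exact (isIntegral_inv_uu_none K p ζ hζ hpK).pow p
  have hne : uu K p ζ none ≠ 0 := by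
    intro h0
    have h := prod_uu_K K p ζ hζ
    rw [Fintype.prod_option, h0, zero_mul] at h
    rcases h with h | h
    · exact pow_ne_zero 12 hp0 h.symm
    · exact pow_ne_zero 12 hp0 (neg_eq_zero.mp h.symm)
  obtain ⟨c, hc⟩ := eq_C_of_inv_mem K p h1 h2 (mul_inv_cancel₀ (pow_ne_zero _ hne))
  -- order considerations
  have horder : (uu K p ζ none ^ p).coeff 0 = 0 := coeff_zero_uu_none_pow K p ζ
  rw [hc, HahnSeries.C_apply, HahnSeries.coeff_single_same] at horder
  rw [horder, map_zero] at hc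
  exact pow_ne_zero _ hne hc

end

end Fermat.Agent.S28.ModPoly

namespace Fermat.Agent.S28

open ModPoly

theorem coeffMap_C' {R S : Type*} [CommRing R] [CommRing S] (f : R →+* S) (r : R) :
    coeffMap f (HahnSeries.C r) = HahnSeries.C (f r) := coeffMap_single f 0 r

/-- coefficient extension maps `K(j)` into `K'(j)` -/
theorem coeffMap_mem_adjoin {K K' : Type*} [Field K] [Field K'] (f : K →+* K')
    {x : LaurentSeries K} (hx : x ∈ IntermediateField.adjoin K {jqModC K}) :
    coeffMap f x ∈ IntermediateField.adjoin K' {jqModC K'} := by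
  induction hx using IntermediateField.adjoin_induction with
  | mem y hy =>
    rw [Set.mem_singleton_iff] at hy
    rw [hy, coeffMap_jqModC]
    exact IntermediateField.mem_adjoin_simple_self K' _
  | algebraMap c =>
    rw [algebraMap_eq_C, coeffMap_C', ← algebraMap_eq_C]
    exact (IntermediateField.adjoin K' {jqModC K'}).algebraMap_mem _
  | add y z _ _ hy hz => rw [map_add]; exact add_mem hy hz
  | inv y _ hy => rw [map_inv₀]; exact inv_mem hy
  | mul y z _ _ hy hz => rw [map_mul]; exact mul_mem hy hz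

/-- (T2) -/
theorem jqp_notMem (p : ℕ) [hp : Fact p.Prime] (K : Type*) [Field K] (hpK : (p : K) ≠ 0) :
    qExpand K p (jqModC K) ∉ IntermediateField.adjoin K {jqModC K} := by
  intro h
  set K' := AlgebraicClosure K
  have hpK' : (p : K') ≠ 0 := by
    rw [← map_natCast (algebraMap K K') p, Ne, map_eq_zero]
    exact hpK
  haveI : NeZero (p : K') := ⟨hpK'⟩
  have h1 := coeffMap_mem_adjoin (algebraMap K K') h
  rw [coeffMap_qExpand, coeffMap_jqModC] at h1
  obtain ⟨ζ, hζ⟩ := HasEnoughRootsOfUnity.exists_primitiveRoot K' p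
  obtain ⟨u, rfl⟩ := hζ.isUnit hp.out.ne_zero
  have hu : IsPrimitiveRoot u p := IsPrimitiveRoot.coe_units_iff.mp hζ
  apply jj_none_notMem K' p u hu hpK'
  -- apply `q ↦ t^p`
  have h2 : (qExpandAlgHomC K' p) (qExpand K' p (jqModC K')) ∈
      (IntermediateField.adjoin K' {jqModC K'}).map (qExpandAlgHomC K' p) := ⟨_, h1, rfl⟩
  rw [IntermediateField.adjoin_map, Set.image_singleton] at h2
  rw [qExpandAlgHomC_apply, qExpandAlgHomC_apply, qExpand_qExpand] at h2
  exact h2

end Fermat.Agent.S28
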