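import Mathlib
import Fermat.Prelude.Def_ModularCurve_X0ModL
import Fermat.Agent.S28.Twist

set_option autoImplicit false

noncomputable section

namespace Fermat.Agent.S28

open ModularCurve Polynomial

/-- `j` is a unit in `R((q))`. -/
theorem isUnit_jqModC (R : Type*) [CommRing R] : IsUnit (jqModC R) := by
  rw [jqModC]
  refine IsUnit.mul ?_ ?_
  · refine IsUnit.of_mul_eq_one (HahnSeries.single (1 : ℤ) (1 : R)) ?_
    rw [HahnSeries.single_mul_single]
    simp
  · refine IsUnit.map _ ?_
    rw [PowerSeries.isUnit_iff_constantCoeff]
    have : PowerSeries.constantCoeff (jNum.map (Int.castRingHom R)) = 1 := by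
      rw [← PowerSeries.coeff_zero_eq_constantCoeff, PowerSeries.coeff_map,
        PowerSeries.coeff_zero_eq_constantCoeff, constantCoeff_jNum, map_one]
    rw [this]
    exact isUnit_one

theorem coeffMap_injective {R S : Type*} [CommRing R] [CommRing S] {f : R →+* S}
    (hf : Function.Injective f) : Function.Injective (coeffMap f) := by
  intro x y h
  ext k
  have := congrArg (fun z => HahnSeries.coeff z k) h
  exact hf (by simpa using this)

theorem algebraMap_eq_single' (T : Type*) [CommRing T] (t : T) :
    algebraMap T (LaurentSeries T) t = HahnSeries.single 0 t := by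
  have h1 : algebraMap T (PowerSeries T) t = PowerSeries.C t := by
    rw [PowerSeries.algebraMap_apply]; rfl
  rw [HahnSeries.algebraMap_apply', h1, HahnSeries.ofPowerSeries_C]
  rfl

theorem coeff_algebraMap_mul {T : Type*} [CommRing T] (t : T) (x : LaurentSeries T) (k : ℤ) :
    (algebraMap T (LaurentSeries T) t * x).coeff k = t * x.coeff k := by
  rw [algebraMap_eq_single', HahnSeries.coeff_single_zero_mul]

theorem coeffMap_algebraMap' {R S : Type*} [CommRing R] [CommRing S] (f : R →+* S) (r : R) :
    coeffMap f (algebraMap R (LaurentSeries R) r) = algebraMap S (LaurentSeries S) (f r) := by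
  rw [algebraMap_eq_single', algebraMap_eq_single', coeffMap_single]

theorem coeffMap_aeval {R S : Type*} [CommRing R] [CommRing S] (f : R →+* S)
    (x : LaurentSeries R) (P : R[X]) :
    coeffMap f (aeval x P) = aeval (coeffMap f x) (P.map f) := by
  rw [aeval_def, aeval_def, hom_eval₂, eval₂_map]
  congr 1
  ext r : 1
  exact coeffMap_algebraMap' f r

theorem coeffMap_aeval_j {R S : Type*} [CommRing R] [CommRing S] (f : R →+* S) (P : R[X]) :
    coeffMap f (aeval (jqModC R) P) = aeval (jqModC S) (P.map f) := by
  rw [coeffMap_aeval, coeffMap_jqModC]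

theorem aeval_j_coeff (K : Type*) [CommRing K] (P : K[X]) :
    (aeval (jqModC K) P).coeff (-(P.natDegree : ℤ)) = P.leadingCoeff := by
  rw [aeval_eq_sum_range, HahnSeries.coeff_sum, Finset.sum_range_succ]
  rw [Finset.sum_eq_zero, zero_add, Algebra.smul_def, coeff_algebraMap_mul,
    coeff_jqModC_pow_self, mul_one]
  · rfl
  · intro i hi
    rw [Algebra.smul_def, coeff_algebraMap_mul, coeff_jqModC_pow_of_lt, mul_zero]
    have := Finset.mem_range.mp hi
    omega

theorem aeval_j_injective (K : Type*) [CommRing K] :
    Function.Injective (aeval (R := K) (jqModC K)) := by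
  rw [injective_iff_map_eq_zero]
  intro P hP
  have h := aeval_j_coeff K P
  rw [hP] at h
  rw [← leadingCoeff_eq_zero, ← h]
  rfl

theorem transcendental_jqModC (K : Type*) [Field K] : Transcendental K (jqModC K) := by
  rw [transcendental_iff_injective]
  exact aeval_j_injective K

end Fermat.Agent.S28
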