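import Mathlib
import Fermat.Prelude.Def_ModularCurve_X0ModL
import Fermat.Agent.S28.Twist
import Fermat.Agent.S28.JFacts

set_option autoImplicit false

noncomputable section

namespace Fermat.Agent.S28

open ModularCurve Polynomial

section JT

variable {K : Type*} [Field K]

/-- The series `j(u q^n)` (`0` if `n = 0`). -/
def jt (u : Kˣ) (n : ℕ) : LaurentSeries K :=
  if h : n = 0 then 0 else @qExpand K _ n ⟨h⟩ (twist u (jqModC K))

theorem jt_eq (u : Kˣ) (n : ℕ) [hn : NeZero n] :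
    jt u n = qExpand K n (twist u (jqModC K)) := by
  rw [jt, dif_neg hn.out]

theorem jt_one_eq (n : ℕ) [hn : NeZero n] :
    jt (1 : Kˣ) n = qExpand K n (jqModC K) := by
  rw [jt_eq, twist_one]

theorem jt_one_one : jt (1 : Kˣ) 1 = jqModC K := by
  rw [jt_one_eq, qExpand_one_apply]

theorem jt_coeff_neg (u : Kˣ) {n : ℕ} (hn : n ≠ 0) :
    (jt u n).coeff (-(n : ℤ)) = ((u⁻¹ : Kˣ) : K) := by
  have : NeZero n := ⟨hn⟩
  rw [jt_eq, show (-(n : ℤ)) = (n : ℤ) * (-1) by ring, qExpand_coeff_mul, twist_coeff,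
    coeff_jqModC_neg_one, mul_one, zpow_neg_one]

theorem jt_coeff_of_lt (u : Kˣ) {n : ℕ} {k : ℤ} (hk : k < -(n : ℤ)) :
    (jt u n).coeff k = 0 := by
  by_cases hn : n = 0
  · rw [jt, dif_pos hn]; rfl
  have : NeZero n := ⟨hn⟩
  rw [jt_eq]
  by_cases hd : (n : ℤ) ∣ k
  · obtain ⟨m, rfl⟩ := hd
    have hn' : (0 : ℤ) < n := by exact_mod_cast Nat.pos_of_ne_zero hn
    have hm : m < -1 := by nlinarith
    rw [qExpand_coeff_mul, twist_coeff, coeff_jqModC_of_lt K hm, mul_zero]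
  · rw [qExpand_coeff_of_not_dvd _ _ hd]

theorem jt_inj {u v : Kˣ} {m n : ℕ} (hm : m ≠ 0) (hn : n ≠ 0) (h : jt u m = jt v n) :
    m = n ∧ u = v := by
  have hmn : m = n := by
    rcases lt_trichotomy m n with hlt | heq | hgt
    · exfalso
      have h1 := jt_coeff_neg v hn
      rw [← h, jt_coeff_of_lt u (by omega)] at h1
      exact Units.ne_zero _ h1.symm
    · exact heq
    · exfalso
      have h1 := jt_coeff_neg u hm
      rw [h, jt_coeff_of_lt v (by omega)] at h1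
      exact Units.ne_zero _ h1.symm
  refine ⟨hmn, ?_⟩
  subst hmn
  have h1 := jt_coeff_neg u hm
  rw [h, jt_coeff_neg v hm] at h1
  exact (inv_injective (Units.ext h1)).symm

theorem qExpand_jt (m : ℕ) [NeZero m] (u : Kˣ) (n : ℕ) :
    qExpand K m (jt u n) = jt u (m * n) := by
  by_cases hn : n = 0
  · subst hn
    simp [jt]
  have : NeZero n := ⟨hn⟩
  rw [jt_eq, jt_eq, qExpand_qExpand]

theorem twist_jt (v u : Kˣ) (n : ℕ) : twist v (jt u n) = jt (v ^ n * u) n := by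
  by_cases hn : n = 0
  · subst hn
    simp [jt]
  have : NeZero n := ⟨hn⟩
  rw [jt_eq, jt_eq, twist_qExpand, twist_twist]

end JT

section Phi

/-- `Φ(X; x)` for `x` in any commutative ring. -/
def PhiR (Φ : ℤ[X][X]) {S : Type*} [CommRing S] (x : S) : S[X] :=
  Φ.map (eval₂RingHom (Int.castRingHom S) x)

theorem PhiR_map (Φ : ℤ[X][X]) {S T : Type*} [CommRing S] [CommRing T] (f : S →+* T) (x : S) :
    (PhiR Φ x).map f = PhiR Φ (f x) := by
  rw [PhiR, PhiR, Polynomial.map_map]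
  congr 1
  refine Polynomial.ringHom_ext' (Subsingleton.elim _ _) ?_
  simp

theorem PhiR_monic {Φ : ℤ[X][X]} (h : Φ.Monic) {S : Type*} [CommRing S] (x : S) :
    (PhiR Φ x).Monic := h.map _

theorem PhiR_natDegree {Φ : ℤ[X][X]} (h : Φ.Monic) {S : Type*} [CommRing S] [Nontrivial S]
    (x : S) : (PhiR Φ x).natDegree = Φ.natDegree := h.natDegree_map _

/-- The specification of the modular polynomial of prime level `p`. -/
structure ModPolySpec (p : ℕ) [NeZero p] (Φ : ℤ[X][X]) : Prop where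
  monic : Φ.Monic
  natDegree_eq : Φ.natDegree = p + 1
  splits : ∀ (K : Type) [Field K] (ζ : Kˣ), IsPrimitiveRoot ζ p →
    PhiR Φ (qExpand K p (jqModC K)) =
      (X - C (qExpand K (p * p) (jqModC K))) *
        ∏ i ∈ Finset.range p, (X - C (twist (ζ ^ i) (jqModC K)))

variable {K : Type} [Field K] {p : ℕ} [hp : Fact p.Prime] {Φ : ℤ[X][X]}

theorem ModPolySpec.at_jt (h : ModPolySpec p Φ) {ζ : Kˣ} (hζ : IsPrimitiveRoot ζ p) (v : Kˣ)
    {m : ℕ} (hm : m ≠ 0) :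
    PhiR Φ (jt (v ^ p) (p * m)) = (X - C (jt (v ^ (p * p)) (p * p * m))) *
      ∏ i ∈ Finset.range p, (X - C (jt (v * ζ ^ i) m)) := by
  have : NeZero m := ⟨hm⟩
  have h1 := congrArg (Polynomial.map ((qExpand K m).comp (twist v))) (h.splits K ζ hζ)
  rw [PhiR_map] at h1
  simp only [Polynomial.map_mul, Polynomial.map_sub, Polynomial.map_X, Polynomial.map_C,
    Polynomial.map_prod, RingHom.comp_apply] at h1
  rw [← jt_one_eq, ← jt_one_eq, twist_jt, twist_jt, qExpand_jt, qExpand_jt, mul_one, mul_one] at h1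
  rw [mul_comm p m, mul_comm (p * p) m, h1]
  congr 1
  refine Finset.prod_congr rfl fun i _ => ?_
  rw [twist_twist, jt_eq]

/-- `Φ(j(u q^{m}) ; j(u^p q^{pm})) = 0` -/
theorem ModPolySpec.root_low (h : ModPolySpec p Φ) {ζ : Kˣ} (hζ : IsPrimitiveRoot ζ p) (v : Kˣ)
    {m : ℕ} (hm : m ≠ 0) : (PhiR Φ (jt (v ^ p) (p * m))).eval (jt v m) = 0 := by
  rw [h.at_jt hζ v hm, eval_mul, eval_prod]
  rw [Finset.prod_eq_zero (Finset.mem_range.mpr hp.out.pos), mul_zero]
  simp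

theorem ModPolySpec.root_high' (h : ModPolySpec p Φ) {ζ : Kˣ} (hζ : IsPrimitiveRoot ζ p) (v : Kˣ)
    {m : ℕ} (hm : m ≠ 0) :
    (PhiR Φ (jt (v ^ p) (p * m))).eval (jt (v ^ (p * p)) (p * p * m)) = 0 := by
  rw [h.at_jt hζ v hm, eval_mul, eval_sub, eval_X, eval_C, sub_self, zero_mul]

/-- `Φ(j(q^{pm}) ; j(q^m)) = 0` -/
theorem ModPolySpec.root_high (h : ModPolySpec p Φ) {ζ : Kˣ} (hζ : IsPrimitiveRoot ζ p)
    {m : ℕ} (hm : m ≠ 0) : (PhiR Φ (jt (1 : Kˣ) m)).eval (jt (1 : Kˣ) (p * m)) = 0 := by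
  have h1 := h.root_high' hζ 1 hm
  rw [one_pow, one_pow] at h1
  apply qExpand_injective (R := K) p
  rw [map_zero, ← h1]
  have h2 : PhiR Φ (jt (1 : Kˣ) (p * m)) = (PhiR Φ (jt (1 : Kˣ) m)).map (qExpand K p) := by
    rw [PhiR_map, qExpand_jt]
  have h3 : jt (1 : Kˣ) (p * p * m) = qExpand K p (jt (1 : Kˣ) (p * m)) := by
    rw [qExpand_jt, mul_assoc]
  rw [h2, h3, eval_map, eval₂_at_apply]

theorem ModPolySpec.root_low_one (h : ModPolySpec p Φ) {ζ : Kˣ} (hζ : IsPrimitiveRoot ζ p)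
    {m : ℕ} (hm : m ≠ 0) : (PhiR Φ (jt (1 : Kˣ) (p * m))).eval (jt (1 : Kˣ) m) = 0 := by
  have := h.root_low hζ 1 hm
  rwa [one_pow] at this

/-- description of the roots of `Φ(X; j(v^p q^{pm}))` -/
theorem ModPolySpec.eq_of_root (h : ModPolySpec p Φ) {ζ : Kˣ} (hζ : IsPrimitiveRoot ζ p) (v : Kˣ)
    {m : ℕ} (hm : m ≠ 0) {x : LaurentSeries K}
    (hx : (PhiR Φ (jt (v ^ p) (p * m))).eval x = 0) :
    x = jt (v ^ (p * p)) (p * p * m) ∨ ∃ i < p, x = jt (v * ζ ^ i) m := by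
  rw [h.at_jt hζ v hm, eval_mul, eval_prod, mul_eq_zero] at hx
  rcases hx with hx | hx
  · left
    rw [eval_sub, eval_X, eval_C] at hx
    exact sub_eq_zero.mp hx
  · right
    rw [Finset.prod_eq_zero_iff] at hx
    obtain ⟨i, hi, hx⟩ := hx
    rw [eval_sub, eval_X, eval_C] at hx
    exact ⟨i, Finset.mem_range.mp hi, sub_eq_zero.mp hx⟩

/-- The polynomial `Φ(X; j(v^p q^{pm}))` is separable. -/
theorem ModPolySpec.separable (h : ModPolySpec p Φ) {ζ : Kˣ} (hζ : IsPrimitiveRoot ζ p) (v : Kˣ)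
    {m : ℕ} (hm : m ≠ 0) : (PhiR Φ (jt (v ^ p) (p * m))).Separable := by
  have hp1 := hp.out.one_lt
  have hp0 := hp.out.pos
  rw [h.at_jt hζ v hm]
  have hlow : (∏ i ∈ Finset.range p, (X - C (jt (v * ζ ^ i) m))).Separable := by
    apply separable_prod_X_sub_C_iff'.mpr
    intro i hi j hj hij
    have h1 := (jt_inj hm hm hij).2
    exact hζ.pow_inj (Finset.mem_range.mp hi) (Finset.mem_range.mp hj) (mul_left_cancel h1)
  refine Separable.mul separable_X_sub_C hlow ?_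
  refine IsCoprime.prod_right fun i _ => ?_
  refine isCoprime_X_sub_C_of_isUnit_sub ?_
  rw [isUnit_iff_ne_zero, sub_ne_zero]
  intro h1
  have h2 := (jt_inj (by positivity) hm h1).1
  have h3 : 1 * m < p * p * m := by
    apply Nat.mul_lt_mul_of_pos_right _ (Nat.pos_of_ne_zero hm)
    nlinarith
  omega

end Phi

end Fermat.Agent.S28
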