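import Mathlib
import Fermat.Agent.S28.JT
import Fermat.Agent.S28.ModPolyMain
import Fermat.Agent.S28.JqpNotMem

set_option autoImplicit false
open ModularCurve Polynomial

namespace Fermat.Agent.S28

theorem modPolySpec_modPoly (p : ℕ) [hp : Fact p.Prime] : ModPolySpec p (ModPoly.modPoly p) where
  monic := ModPoly.modPoly_monic p
  natDegree_eq := ModPoly.modPoly_natDegree p
  splits K _ ζ hζ := ModPoly.modPoly_map_eq p K ζ hζ

/-- (T1) in the form of `ModPolySpec` -/
theorem exists_modPolySpec (p : ℕ) [Fact p.Prime] : ∃ Φ : ℤ[X][X], ModPolySpec p Φ :=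
  ⟨_, modPolySpec_modPoly p⟩

end Fermat.Agent.S28
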