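import Mathlib
import Fermat.Prelude.Def_ModularCurve_X0ModL
import Fermat.Agent.S28.JT

set_option autoImplicit false

noncomputable section

namespace Fermat.Agent.S28

open ModularCurve Polynomial IntermediateField

section General

/-- A separable polynomial over `E` annihilating `y`, all of whose roots (in an extension where it
splits) that are also roots of a second annihilating polynomial are equal: then `y ∈ E`. -/
theorem mem_of_common_root {E L L' : Type*} [Field E] [Field L] [Field L'] [Algebra E L]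
    (φ : L →+* L') {y : L} {P Q : E[X]} (hPsep : P.Separable) (hPy : aeval y P = 0)
    (hQy : aeval y Q = 0)
    (hsplit : (P.map (φ.comp (algebraMap E L))).Splits)
    (huniq : ∀ z : L', (P.map (φ.comp (algebraMap E L))).eval z = 0 →
      (Q.map (φ.comp (algebraMap E L))).eval z = 0 → z = φ y) :
    y ∈ (algebraMap E L).range := by
  classical
  have hP0 : P ≠ 0 := hPsep.ne_zero
  have hint : IsIntegral E y := by
    rw [← isAlgebraic_iff_isIntegral]
    exact ⟨P, hP0, hPy⟩
  rw [← minpoly.natDegree_eq_one_iff]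
  set ψ := φ.comp (algebraMap E L) with hψ
  have hμP : minpoly E y ∣ P := minpoly.dvd E y hPy
  have hμQ : minpoly E y ∣ Q := minpoly.dvd E y hQy
  have hμsplit : ((minpoly E y).map ψ).Splits :=
    hsplit.of_dvd (by rwa [Ne, Polynomial.map_eq_zero]) (Polynomial.map_dvd ψ hμP)
  have hμsep : ((minpoly E y).map ψ).Separable := (hPsep.of_dvd hμP).map
  have hdeg : (minpoly E y).natDegree = ((minpoly E y).map ψ).roots.toFinset.card := by
    rw [Multiset.toFinset_card_of_nodup (nodup_roots hμsep), ← hμsplit.natDegree_eq_card_roots,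
      natDegree_map]
  have hsub : ((minpoly E y).map ψ).roots.toFinset ⊆ {φ y} := by
    intro z hz
    rw [Multiset.mem_toFinset, mem_roots (by
      rw [Ne, Polynomial.map_eq_zero]; exact minpoly.ne_zero hint)] at hz
    rw [Finset.mem_singleton]
    refine huniq z ?_ ?_
    · exact eval_eq_zero_of_dvd_of_eval_eq_zero (Polynomial.map_dvd ψ hμP) hz
    · exact eval_eq_zero_of_dvd_of_eval_eq_zero (Polynomial.map_dvd ψ hμQ) hz
  have hle : (minpoly E y).natDegree ≤ 1 := by
    rw [hdeg]
    exact (Finset.card_le_card hsub).trans (by simp)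
  exact le_antisymm hle (minpoly.natDegree_pos hint)

/-- Extension of a ring homomorphism to a simple extension. -/
theorem exists_extend_simple {E L L' : Type*} [Field E] [Field L] [Field L'] [Algebra E L]
    (ι : E →+* L') {x : L} (hx : IsIntegral E x) {z : L'}
    (hz : ((minpoly E x).map ι).eval z = 0) :
    ∃ ι'' : E⟮x⟯ →+* L', (∀ a : E, ι'' (algebraMap E E⟮x⟯ a) = ι a) ∧
      ι'' (AdjoinSimple.gen E x) = z := by
  let e := IntermediateField.adjoinRootEquivAdjoin E hx
  let f : AdjoinRoot (minpoly E x) →+* L' :=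
    AdjoinRoot.lift ι z (by rwa [eval_map] at hz)
  refine ⟨f.comp (e.symm : E⟮x⟯ →+* AdjoinRoot (minpoly E x)), ?_, ?_⟩
  · intro a
    simp only [RingHom.comp_apply, RingHom.coe_coe]
    rw [AlgEquiv.commutes, AdjoinRoot.algebraMap_eq, AdjoinRoot.lift_of]
  · simp only [RingHom.comp_apply, RingHom.coe_coe]
    rw [IntermediateField.adjoinRootEquivAdjoin_symm_apply_gen, AdjoinRoot.lift_root]

end General

section Roots

variable {K : Type} [Field K] {p : ℕ} [hp : Fact p.Prime]

/-- A polynomial fixed by `t ↦ ζ t` having one root `j(ζ^i t^m)`, `p ∤ m`, is divisible by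
`∏ (X - j(ζ^i t^m))`. -/
theorem prod_dvd_of_twist_fixed {ζ : Kˣ} (hζ : IsPrimitiveRoot ζ p) {m : ℕ} (hm : ¬ p ∣ m)
    {μ : (LaurentSeries K)[X]} (hμ : μ.map (twist ζ) = μ) {i : ℕ}
    (hi : μ.eval (jt (ζ ^ i) m) = 0) :
    (∏ i ∈ Finset.range p, (X - C (jt (ζ ^ i) m))) ∣ μ := by
  have hm0 : m ≠ 0 := by rintro rfl; exact hm (dvd_zero _)
  have hstep : ∀ n : ℕ, μ.eval (jt (ζ ^ (i + n * m)) m) = 0 := by
    intro n
    induction n with
    | zero => simpa using hi
    | succ n ih =>
      have h1 : (μ.map (twist ζ)).eval (twist ζ (jt (ζ ^ (i + n * m)) m)) = 0 := by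
        rw [eval_map, eval₂_at_apply, ih, map_zero]
      rw [hμ, twist_jt, ← pow_add] at h1
      rw [← h1]
      congr 3
      ring
  have hall : ∀ j : ℕ, μ.eval (jt (ζ ^ j) m) = 0 := by
    intro j
    obtain ⟨n, hn⟩ : ∃ n : ℕ, (i + n * m) ≡ j [MOD p] := by
      have hm' : (m : ZMod p) ≠ 0 := by
        rwa [Ne, ZMod.natCast_eq_zero_iff]
      refine ⟨(((j : ZMod p) - i) / m).val, ?_⟩
      rw [← ZMod.natCast_eq_natCast_iff]
      push_cast
      rw [ZMod.natCast_zmod_val]
      field_simp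
      ring
    have h1 : ζ ^ (i + n * m) = ζ ^ j := by
      have hfin : IsOfFinOrder ζ := isOfFinOrder_iff_pow_eq_one.mpr
        ⟨p, hp.out.pos, hζ.pow_eq_one⟩
      rw [hfin.pow_eq_pow_iff_modEq, ← hζ.eq_orderOf]
      exact hn
    rw [← h1]
    exact hstep n
  refine Finset.prod_dvd_of_coprime ?_ ?_
  · intro a ha b hb hab
    refine isCoprime_X_sub_C_of_isUnit_sub ?_
    rw [isUnit_iff_ne_zero, sub_ne_zero]
    intro h1
    exact hab (hζ.pow_inj (Finset.mem_range.mp ha) (Finset.mem_range.mp hb) (jt_inj hm0 hm0 h1).2)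
  · intro j _
    rw [dvd_iff_isRoot]
    exact hall j

/-- two common roots, membership form -/
theorem common_root_mem {r : ℕ} [hr : Fact r.Prime] (hrp : r ≠ p) {ζ : Kˣ}
    (hζ : IsPrimitiveRoot ζ p) {η : Kˣ} (hη : IsPrimitiveRoot η r) {Φp Φr : ℤ[X][X]}
    (hΦp : ModPolySpec p Φp) (hΦr : ModPolySpec r Φr) {c : ℕ} (hc : c ≠ 0)
    {z : LaurentSeries K} (h1 : (PhiR Φr (jt (1 : Kˣ) (r * (p * p * c)))).eval z = 0)
    (h2 : (PhiR Φp (jt (1 : Kˣ) (p * (r * r * c)))).eval z = 0) :
    z = jt 1 (r * r * (p * p * c)) := by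
  have hp0 := hp.out.pos
  have hr0 := hr.out.pos
  have hp1 := hp.out.one_lt
  have hr1 := hr.out.one_lt
  have hc0 := Nat.pos_of_ne_zero hc
  have ha : p * p * c ≠ 0 := by positivity
  have hb : r * r * c ≠ 0 := by positivity
  have h1' := hΦr.eq_of_root hη 1 ha (x := z) (by rw [one_pow]; exact h1)
  have h2' := hΦp.eq_of_root hζ 1 hb (x := z) (by rw [one_pow]; exact h2)
  rcases h1' with h1' | ⟨i, -, h1'⟩
  · rw [h1', one_pow]
  · exfalso
    rcases h2' with h2' | ⟨j, -, h2'⟩
    · rw [h1'] at h2'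
      have h3 := (jt_inj ha (by positivity) h2').1
      have h4 : 1 * (p * p * c) < p * p * (r * r * c) := by
        have : p * p * (r * r * c) = (r * r) * (p * p * c) := by ring
        rw [this]
        apply Nat.mul_lt_mul_of_pos_right _ (by positivity)
        nlinarith
      omega
    · rw [h1'] at h2'
      have h3 := (jt_inj ha hb h2').1
      have h4 : p * p = r * r := Nat.eq_of_mul_eq_mul_right hc0 h3
      exact hrp (Nat.mul_self_inj.mp h4).symm

/-- two common roots, value form -/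
theorem common_root_val {r : ℕ} [hr : Fact r.Prime] (hrp : r ≠ p) {ζ : Kˣ}
    (hζ : IsPrimitiveRoot ζ p) {η : Kˣ} (hη : IsPrimitiveRoot η r) {Φp Φr : ℤ[X][X]}
    (hΦp : ModPolySpec p Φp) (hΦr : ModPolySpec r Φr) {c : ℕ} (hc : c ≠ 0)
    {z : LaurentSeries K} (h1 : (PhiR Φr (jt (1 : Kˣ) (r * c))).eval z = 0)
    (h2 : (PhiR Φp (jt (1 : Kˣ) (p * c))).eval z = 0) :
    z = jt 1 c := by
  have hp0 := hp.out.pos
  have hr0 := hr.out.pos
  have hp1 := hp.out.one_lt
  have hr1 := hr.out.one_lt
  have hc0 := Nat.pos_of_ne_zero hc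
  have h1' := hΦr.eq_of_root hη 1 hc (x := z) (by rw [one_pow]; exact h1)
  have h2' := hΦp.eq_of_root hζ 1 hc (x := z) (by rw [one_pow]; exact h2)
  rcases h1' with h1' | ⟨i, -, h1'⟩
  · exfalso
    rcases h2' with h2' | ⟨j, -, h2'⟩
    · rw [h1'] at h2'
      have h3 := (jt_inj (by positivity) (by positivity) h2').1
      have h4 : r * r = p * p := Nat.eq_of_mul_eq_mul_right hc0 h3
      exact hrp (Nat.mul_self_inj.mp h4)
    · rw [h1'] at h2'
      have h3 := (jt_inj (by positivity) hc h2').1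
      have h4 : 1 * c < r * r * c := Nat.mul_lt_mul_of_pos_right (by nlinarith) hc0
      omega
  · rcases h2' with h2' | ⟨j, -, h2'⟩
    · exfalso
      rw [h1'] at h2'
      have h3 := (jt_inj hc (by positivity) h2').1
      have h4 : 1 * c < p * p * c := Nat.mul_lt_mul_of_pos_right (by nlinarith) hc0
      omega
    · rw [h1'] at h2'
      have h3 := (jt_inj hc hc h2').2
      rw [one_mul, one_mul] at h3
      have h4 : η ^ i = 1 := by
        have h5 : (η ^ i) ^ r = 1 := by rw [← pow_mul, mul_comm, pow_mul, hη.pow_eq_one, one_pow]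
        have h6 : (η ^ i) ^ p = 1 := by
          rw [h3, ← pow_mul, mul_comm, pow_mul, hζ.pow_eq_one, one_pow]
        have h7 : Nat.Coprime r p := (Nat.coprime_primes hr.out hp.out).mpr hrp
        have h8 := pow_gcd_eq_one.mpr ⟨h5, h6⟩
        rwa [h7.gcd_eq_one, pow_one] at h8
      rw [h1', h4, mul_one]

end Roots

end Fermat.Agent.S28
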