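import Mathlib
import Fermat.Prelude.Def_ModularCurve_X0ModL
import Fermat.Agent.S28.TowerLemmas

set_option autoImplicit false

noncomputable section

namespace Fermat.Agent.S28

open ModularCurve Polynomial IntermediateField

theorem dvd_mul_pow_succ_cases {p M₁ k d : ℕ} (hp : p.Prime) (hd : d ∣ M₁ * p ^ (k + 1)) :
    d ∣ M₁ * p ^ k ∨ ∃ d₁, d₁ ∣ M₁ ∧ d = d₁ * p ^ (k + 1) := by
  obtain ⟨a, b, ha, hb, rfl⟩ := (Nat.dvd_mul).mp hd
  obtain ⟨j, hj, rfl⟩ := (Nat.dvd_prime_pow hp).mp hb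
  rcases Nat.lt_or_ge j (k + 1) with h | h
  · left
    exact Nat.mul_dvd_mul ha (pow_dvd_pow p (by omega))
  · right
    have : j = k + 1 := le_antisymm hj h
    subst this
    exact ⟨a, ha, rfl⟩

section Full

variable (K : Type) [Field K]

theorem jt_mem_full {M d : ℕ} (hM : M ≠ 0) (hd : d ∣ M) :
    jt (1 : Kˣ) d ∈ modularFunctionFieldFullC K M := by
  have hd0 : d ≠ 0 := by rintro rfl; exact hM (Nat.eq_zero_of_zero_dvd hd)
  have : NeZero d := ⟨hd0⟩
  rw [jt_one_eq]
  exact jqModCd_mem_full K M hd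

theorem full_le_iff {M : ℕ} (E : IntermediateField K (LaurentSeries K)) :
    modularFunctionFieldFullC K M ≤ E ↔
      ∀ d : ℕ, d ≠ 0 → d ∣ M → jt (1 : Kˣ) d ∈ E := by
  rw [modularFunctionFieldFullC, adjoin_le_iff]
  constructor
  · intro h d hd0 hd
    have : NeZero d := ⟨hd0⟩
    rw [jt_one_eq]
    exact h ⟨d, this, hd, rfl⟩
  · rintro h x ⟨d, hd0, hd, rfl⟩
    have := h d hd0.out hd
    rwa [jt_one_eq] at this

theorem full_mono {M M' : ℕ} (hM' : M' ≠ 0) (h : M ∣ M') :
    modularFunctionFieldFullC K M ≤ modularFunctionFieldFullC K M' := by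
  rw [full_le_iff]
  intro d _ hd
  exact jt_mem_full K hM' (hd.trans h)

/-- the Fricke embedding `F_M → K((t))`, `q = t^M`, `j(q^d) ↦ j(t^{M/d})`. -/
def IsFricke (M : ℕ) (ι : modularFunctionFieldFullC K M →+* LaurentSeries K) : Prop :=
  (∀ c : K, ι (algebraMap K _ c) = algebraMap K _ c) ∧
  ∀ (d : ℕ) (h : jt (1 : Kˣ) d ∈ modularFunctionFieldFullC K M), d ∣ M →
    ι ⟨jt 1 d, h⟩ = jt 1 (M / d)

end Full

/-- All prime level modular polynomials exist. -/
def ModPolyAll : Prop := ∀ (p : ℕ) [Fact p.Prime], ∃ Φ, ModPolySpec p Φ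

section Step

variable {K : Type} [Field K] [IsAlgClosed K]

omit [IsAlgClosed K] in
theorem exists_units_root_of_prim {n : ℕ} (hn : n ≠ 0) {ζ : K} (hζ : IsPrimitiveRoot ζ n) :
    ∃ u : Kˣ, IsPrimitiveRoot u n := by
  refine ⟨(hζ.isUnit hn).unit, ?_⟩
  rw [← IsPrimitiveRoot.coe_units_iff]
  exact hζ

theorem exists_unit_primitiveRoot {n : ℕ} (hn : (n : K) ≠ 0) : ∃ u : Kˣ, IsPrimitiveRoot u n := by
  have : NeZero (n : K) := ⟨hn⟩
  have hn0 : n ≠ 0 := by rintro rfl; exact hn Nat.cast_zero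
  obtain ⟨ζ, hζ⟩ := HasEnoughRootsOfUnity.exists_primitiveRoot K n
  exact exists_units_root_of_prim hn0 hζ

variable {p : ℕ} [hp : Fact p.Prime]

/-- General step: from level `M₁ p^k` to `M₁ p^{k+1}`. -/
theorem tower_step (hΦ : ModPolyAll) {M₁ k : ℕ} (hM₁ : M₁ ≠ 0) (hpM₁ : ¬ p ∣ M₁)
    (hchar : ((M₁ * p : ℕ) : K) ≠ 0)
    {ι : modularFunctionFieldFullC K (M₁ * p ^ k) →+* LaurentSeries K}
    (hι : IsFricke K (M₁ * p ^ k) ι)
    (hirr : ((minpoly (modularFunctionFieldFullC K (M₁ * p ^ k))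
      (jt (1 : Kˣ) (p ^ (k + 1)))).map ((qExpand K p).comp ι)).eval (jt (1 : Kˣ) M₁) = 0) :
    (∃ ι₂ : modularFunctionFieldFullC K (M₁ * p ^ (k + 1)) →+* LaurentSeries K,
      IsFricke K (M₁ * p ^ (k + 1)) ι₂) ∧
    modularFunctionFieldFullC K (M₁ * p ^ (k + 1)) =
      (IntermediateField.adjoin (modularFunctionFieldFullC K (M₁ * p ^ k))
        {jt (1 : Kˣ) (p ^ (k + 1))}).restrictScalars K := by
  obtain ⟨Φp, hΦp⟩ := hΦ p
  have hp0 : p ≠ 0 := hp.out.ne_zero
  have hpk : p ^ k ≠ 0 := pow_ne_zero _ hp0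
  have hpk1 : p ^ (k + 1) ≠ 0 := pow_ne_zero _ hp0
  have hcharp : (p : K) ≠ 0 := by
    intro h; apply hchar; push_cast; rw [h, mul_zero]
  obtain ⟨ζ, hζ⟩ := exists_unit_primitiveRoot (K := K) (n := p) hcharp
  have hM0 : M₁ * p ^ k ≠ 0 := Nat.mul_ne_zero hM₁ hpk
  have hM0' : M₁ * p ^ (k + 1) ≠ 0 := Nat.mul_ne_zero hM₁ hpk1
  let FM := modularFunctionFieldFullC K (M₁ * p ^ k)
  set x : LaurentSeries K := jt (1 : Kˣ) (p ^ (k + 1)) with hx
  let ι' : FM →+* LaurentSeries K := (qExpand K p).comp ι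
  have hι' : ι' = (qExpand K p).comp ι := rfl
  have hpkmem : jt (1 : Kˣ) (p ^ k) ∈ FM := jt_mem_full K hM0 (dvd_mul_left _ _)
  have hxint : IsIntegral FM x := by
    refine ⟨PhiR Φp (⟨jt 1 (p ^ k), hpkmem⟩ : FM), PhiR_monic hΦp.monic _, ?_⟩
    rw [← eval_map, PhiR_map]
    have := hΦp.root_high hζ hpk
    rwa [← pow_succ'] at this
  obtain ⟨ι'', hext, hgen⟩ := exists_extend_simple ι' hxint hirr
  let E := IntermediateField.adjoin FM {x}
  have hE : E = IntermediateField.adjoin FM {x} := rfl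
  have hFE : ∀ a : LaurentSeries K, a ∈ FM → a ∈ E := fun a ha =>
    IntermediateField.algebraMap_mem E ⟨a, ha⟩
  have hextmem : ∀ (a : LaurentSeries K) (ha : a ∈ FM), ι'' ⟨a, hFE a ha⟩ = ι' ⟨a, ha⟩ :=
    fun a ha => hext ⟨a, ha⟩
  -- the key claim
  have claim : ∀ d, d ∣ M₁ → ∃ h : jt (1 : Kˣ) (d * p ^ (k + 1)) ∈ E,
      ι'' ⟨_, h⟩ = jt 1 (M₁ / d) := by
    intro d
    induction d using Nat.strong_induction_on with
    | _ d ih =>
    intro hd
    have hd0 : d ≠ 0 := by rintro rfl; exact hM₁ (Nat.eq_zero_of_zero_dvd hd)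
    by_cases hd1 : d = 1
    · subst hd1
      have h1 : jt (1 : Kˣ) (1 * p ^ (k + 1)) = x := by rw [one_mul]
      refine ⟨by rw [h1]; exact IntermediateField.mem_adjoin_simple_self FM x, ?_⟩
      rw [Nat.div_one, ← hgen]
      congr 1
      apply Subtype.ext
      rw [IntermediateField.AdjoinSimple.coe_gen]
      exact h1
    · have hrp : (d.minFac).Prime := Nat.minFac_prime hd1
      set r := d.minFac with hr
      have : Fact r.Prime := ⟨hrp⟩
      obtain ⟨d', hd'⟩ : r ∣ d := Nat.minFac_dvd d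
      obtain ⟨Φr, hΦr⟩ := hΦ r
      have hd'0 : d' ≠ 0 := by rintro rfl; exact hd0 (by rw [hd', mul_zero])
      have hd'lt : d' < d := by
        rw [hd']
        have := hrp.one_lt
        have h3 := Nat.pos_of_ne_zero hd'0
        nlinarith
      have hd'M : d' ∣ M₁ := (Dvd.intro_left r hd'.symm).trans hd
      have hrM : r ∣ M₁ := (Nat.minFac_dvd d).trans hd
      have hrne : r ≠ p := by
        intro h
        exact hpM₁ (h ▸ hrM)
      have hcharr : (r : K) ≠ 0 := by
        intro h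
        obtain ⟨c, hc⟩ := hrM
        apply hchar
        rw [hc]
        push_cast
        rw [h, zero_mul, zero_mul]
      obtain ⟨η, hη⟩ := exists_unit_primitiveRoot (K := K) (n := r) hcharr
      obtain ⟨hmem', hval'⟩ := ih d' hd'lt hd'M
      have hdpk : d * p ^ k ∣ M₁ * p ^ k := Nat.mul_dvd_mul hd dvd_rfl
      have hmemQ : jt (1 : Kˣ) (d * p ^ k) ∈ FM := jt_mem_full K hM0 hdpk
      set P : E[X] := PhiR Φr (⟨jt 1 (d' * p ^ (k + 1)), hmem'⟩ : E) with hP
      set Q : E[X] := PhiR Φp (⟨jt 1 (d * p ^ k), hFE _ hmemQ⟩ : E) with hQ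
      have hr0 : r ≠ 0 := hrp.ne_zero
      set c := d' * p ^ k with hc
      have hc0 : c ≠ 0 := Nat.mul_ne_zero hd'0 hpk
      have : NeZero (r * p) := ⟨Nat.mul_ne_zero hr0 hp0⟩
      have hP1 : P.map ((qExpand K (r * p)).comp (algebraMap E (LaurentSeries K))) =
          PhiR Φr (jt (1 : Kˣ) (r * (p * p * c))) := by
        rw [hP, PhiR_map, RingHom.comp_apply]
        change PhiR Φr (qExpand K (r * p) (jt (1 : Kˣ) (d' * p ^ (k + 1)))) = _
        rw [qExpand_jt]
        congr 2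
        rw [hc]; ring
      have hQ1 : Q.map ((qExpand K (r * p)).comp (algebraMap E (LaurentSeries K))) =
          PhiR Φp (jt (1 : Kˣ) (p * (r * r * c))) := by
        rw [hQ, PhiR_map, RingHom.comp_apply]
        change PhiR Φp (qExpand K (r * p) (jt (1 : Kˣ) (d * p ^ k))) = _
        rw [qExpand_jt]
        congr 2
        rw [hc, hd']; ring
      have hPy : aeval (jt (1 : Kˣ) (d * p ^ (k + 1))) P = 0 := by
        rw [aeval_def, ← eval_map, hP, PhiR_map]
        change (PhiR Φr (jt (1 : Kˣ) (d' * p ^ (k + 1)))).eval _ = 0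
        have := hΦr.root_high hη (m := d' * p ^ (k + 1)) (Nat.mul_ne_zero hd'0 hpk1)
        rwa [← mul_assoc, ← hd'] at this
      have hQy : aeval (jt (1 : Kˣ) (d * p ^ (k + 1))) Q = 0 := by
        rw [aeval_def, ← eval_map, hQ, PhiR_map]
        change (PhiR Φp (jt (1 : Kˣ) (d * p ^ k))).eval _ = 0
        have := hΦp.root_high hζ (m := d * p ^ k) (Nat.mul_ne_zero hd0 hpk)
        rwa [show p * (d * p ^ k) = d * p ^ (k + 1) by ring] at this
      have hmem : jt (1 : Kˣ) (d * p ^ (k + 1)) ∈ E := by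
        have h1 : jt (1 : Kˣ) (d * p ^ (k + 1)) ∈ (algebraMap E (LaurentSeries K)).range := by
          refine mem_of_common_root (qExpand K (r * p)) (P := P) (Q := Q) ?_ hPy hQy ?_ ?_
          · have h2 : (P.map ((qExpand K (r * p)).comp
                (algebraMap E (LaurentSeries K)))).Separable := by
              rw [hP1]
              have := hΦr.separable hη 1 (m := p * p * c)
                (Nat.mul_ne_zero (Nat.mul_ne_zero hp0 hp0) hc0)
              rwa [one_pow] at this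
            exact (Polynomial.separable_map _).mp h2
          · rw [hP1]
            have := hΦr.at_jt hη 1 (m := p * p * c)
                (Nat.mul_ne_zero (Nat.mul_ne_zero hp0 hp0) hc0)
            rw [one_pow] at this
            rw [this]
            exact (Splits.X_sub_C _).mul (Splits.prod fun i _ => Splits.X_sub_C _)
          · intro z hz1 hz2
            rw [hP1] at hz1
            rw [hQ1] at hz2
            rw [common_root_mem hrne hζ hη hΦp hΦr hc0 hz1 hz2, qExpand_jt]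
            congr 1
            rw [hc, hd']; ring
        obtain ⟨a, ha⟩ := h1
        rw [← ha]
        exact a.2
      refine ⟨hmem, ?_⟩
      -- the value
      obtain ⟨c', hc'⟩ := hd
      have hc'0 : c' ≠ 0 := by rintro rfl; exact hM₁ (by rw [hc', mul_zero])
      have hdiv : M₁ / d = c' := by rw [hc', Nat.mul_div_cancel_left _ (Nat.pos_of_ne_zero hd0)]
      have hdiv' : M₁ / d' = r * c' := by
        rw [hc', hd', show r * d' * c' = d' * (r * c') by ring,
          Nat.mul_div_cancel_left _ (Nat.pos_of_ne_zero hd'0)]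
      rw [hdiv]
      have hroot : ∀ R : E[X], aeval (jt (1 : Kˣ) (d * p ^ (k + 1))) R = 0 →
          (R.map ι'').eval (ι'' ⟨jt 1 (d * p ^ (k + 1)), hmem⟩) = 0 := by
        intro R hR
        rw [eval_map, eval₂_at_apply]
        have : R.eval (⟨jt 1 (d * p ^ (k + 1)), hmem⟩ : E) = 0 := by
          apply Subtype.val_injective
          change algebraMap E (LaurentSeries K) _ = 0
          rw [← hR, aeval_def, ← eval₂_at_apply]
          rfl
        rw [this, map_zero]
      have hv1 := hroot P hPy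
      have hv2 := hroot Q hQy
      rw [hP, PhiR_map, hval', hdiv'] at hv1
      have hQval : ι'' ⟨jt 1 (d * p ^ k), hFE _ hmemQ⟩ = jt 1 (p * c') := by
        rw [hextmem _ hmemQ, hι', RingHom.comp_apply, hι.2 _ hmemQ hdpk, qExpand_jt]
        congr 2
        rw [Nat.mul_div_mul_right _ _ (Nat.pos_of_ne_zero hpk), hdiv]
      rw [hQ, PhiR_map, hQval] at hv2
      exact common_root_val hrne hζ hη hΦp hΦr hc'0 hv1 hv2
  have hle : modularFunctionFieldFullC K (M₁ * p ^ (k + 1)) ≤ E.restrictScalars K := by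
    rw [full_le_iff]
    intro d hd0 hd
    rw [IntermediateField.mem_restrictScalars]
    rcases dvd_mul_pow_succ_cases hp.out hd with h | ⟨d₁, hd₁, rfl⟩
    · exact hFE _ (jt_mem_full K hM0 h)
    · exact (claim d₁ hd₁).1
  refine ⟨?_, ?_⟩
  · let f : modularFunctionFieldFullC K (M₁ * p ^ (k + 1)) →+* E :=
      (algebraMap (modularFunctionFieldFullC K (M₁ * p ^ (k + 1))) (LaurentSeries K)).codRestrict
        E (fun a => hle a.2)
    refine ⟨ι''.comp f, ?_, ?_⟩
    · intro c
      have h1 : f (algebraMap K _ c) = algebraMap FM E (algebraMap K FM c) := by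
        apply Subtype.ext
        rfl
      rw [RingHom.comp_apply, h1, hext, hι', RingHom.comp_apply, hι.1]
      exact (qExpandAlgHomC K p).commutes c
    · intro d h hd
      have h1 : ∀ h' : jt (1 : Kˣ) d ∈ E, f ⟨jt 1 d, h⟩ = ⟨jt 1 d, h'⟩ := fun h' => rfl
      rcases dvd_mul_pow_succ_cases hp.out hd with h2 | ⟨d₁, hd₁, rfl⟩
      · have hmem2 := jt_mem_full K hM0 h2
        rw [RingHom.comp_apply, h1 (hFE _ hmem2), hextmem _ hmem2, hι', RingHom.comp_apply,
          hι.2 _ hmem2 h2, qExpand_jt]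
        congr 1
        rw [pow_succ, ← mul_assoc, ← Nat.mul_div_assoc _ h2, mul_comm p]
      · obtain ⟨h3, h4⟩ := claim d₁ hd₁
        rw [RingHom.comp_apply, h1 h3, h4, Nat.mul_div_mul_right _ _ (Nat.pos_of_ne_zero hpk1)]
  · apply le_antisymm hle
    intro a ha
    rw [IntermediateField.mem_restrictScalars] at ha
    have h1 : FM ≤ modularFunctionFieldFullC K (M₁ * p ^ (k + 1)) :=
      full_mono K hM0' (Nat.mul_dvd_mul dvd_rfl (pow_dvd_pow p (Nat.le_succ k)))
    have h2 : E ≤ IntermediateField.extendScalars h1 := by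
      rw [hE, IntermediateField.adjoin_le_iff]
      rintro _ rfl
      exact jt_mem_full K hM0' (dvd_mul_left _ _)
    exact h2 ha

end Step

end Fermat.Agent.S28
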