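import Mathlib
import Fermat.Prelude.Def_ModularCurve_X0ModL
import Fermat.Agent.S28.TowerStep

set_option autoImplicit false

noncomputable section

namespace Fermat.Agent.S28

open ModularCurve Polynomial IntermediateField

section AB

variable {K : Type} [Field K] {p : ℕ} [hp : Fact p.Prime]

/-- the product `∏ (X - j(ζ^i t^m))` -/
def lowProd (ζ : Kˣ) (p m : ℕ) : (LaurentSeries K)[X] :=
  ∏ i ∈ Finset.range p, (X - C (jt (ζ ^ i) m))

omit hp in
theorem lowProd_monic (ζ : Kˣ) (m : ℕ) : (lowProd ζ p m).Monic :=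
  monic_prod_of_monic _ _ fun _ _ => monic_X_sub_C _

omit hp in
theorem lowProd_natDegree (ζ : Kˣ) (m : ℕ) : (lowProd ζ p m).natDegree = p := by
  rw [lowProd, natDegree_prod_of_monic _ _ fun _ _ => monic_X_sub_C _]
  simp

omit hp in
theorem lowProd_splits (ζ : Kˣ) (m : ℕ) : (lowProd ζ p m).Splits :=
  Splits.prod fun _ _ => Splits.X_sub_C _

omit hp in
theorem lowProd_root {ζ : Kˣ} {m : ℕ} {z : LaurentSeries K} (h : (lowProd ζ p m).eval z = 0) :
    ∃ i, z = jt (ζ ^ i) m := by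
  rw [lowProd, eval_prod, Finset.prod_eq_zero_iff] at h
  obtain ⟨i, -, h⟩ := h
  rw [eval_sub, eval_X, eval_C] at h
  exact ⟨i, sub_eq_zero.mp h⟩

theorem lowProd_eval_one {ζ : Kˣ} {m : ℕ} : (lowProd ζ p m).eval (jt (1 : Kˣ) m) = 0 := by
  rw [lowProd, eval_prod, Finset.prod_eq_zero (Finset.mem_range.mpr hp.out.pos)]
  simp

theorem twist_comp_qExpand {ζ : Kˣ} (hζ : IsPrimitiveRoot ζ p) {R : Type*} [CommRing R]
    (ι : R →+* LaurentSeries K) :
    (twist ζ).comp ((qExpand K p).comp ι) = (qExpand K p).comp ι := by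
  ext1 a
  exact twist_qExpand_of_pow_eq_one ζ p hζ.pow_eq_one _

/-- Case `k ≥ 1`: the minimal polynomial of `j(q^{p^{k+1}})` over `F_M` maps to `lowProd`. -/
theorem caseA {Φ : ℤ[X][X]} (hΦ : ModPolySpec p Φ) {ζ : Kˣ} (hζ : IsPrimitiveRoot ζ p)
    {M₁ k : ℕ} (hM₁ : M₁ ≠ 0) (hpM₁ : ¬ p ∣ M₁)
    {ι : modularFunctionFieldFullC K (M₁ * p ^ (k + 1)) →+* LaurentSeries K}
    (hι : IsFricke K (M₁ * p ^ (k + 1)) ι) :
    (minpoly (modularFunctionFieldFullC K (M₁ * p ^ (k + 1)))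
      (jt (1 : Kˣ) (p ^ (k + 2)))).map ((qExpand K p).comp ι) = lowProd ζ p M₁ := by
  have hp0 : p ≠ 0 := hp.out.ne_zero
  have hpk : p ^ k ≠ 0 := pow_ne_zero _ hp0
  have hpk1 : p ^ (k + 1) ≠ 0 := pow_ne_zero _ hp0
  have hM0 : M₁ * p ^ (k + 1) ≠ 0 := Nat.mul_ne_zero hM₁ hpk1
  let FM := modularFunctionFieldFullC K (M₁ * p ^ (k + 1))
  let ι' : FM →+* LaurentSeries K := (qExpand K p).comp ι
  set x : LaurentSeries K := jt (1 : Kˣ) (p ^ (k + 2)) with hx
  have hmem1 : jt (1 : Kˣ) (p ^ (k + 1)) ∈ FM := jt_mem_full K hM0 (dvd_mul_left _ _)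
  have hdvd0 : p ^ k ∣ M₁ * p ^ (k + 1) := Dvd.intro_left (M₁ * p) (by ring)
  have hmem0 : jt (1 : Kˣ) (p ^ k) ∈ FM := jt_mem_full K hM0 hdvd0
  set P : FM[X] := PhiR Φ (⟨jt 1 (p ^ (k + 1)), hmem1⟩ : FM) with hP
  set a : FM := ⟨jt 1 (p ^ k), hmem0⟩ with ha
  have hPmonic : P.Monic := PhiR_monic hΦ.monic _
  -- `a` is a root of `P`
  have hroot_a : P.IsRoot a := by
    apply Subtype.val_injective
    change algebraMap FM (LaurentSeries K) (P.eval a) = 0
    rw [← eval₂_at_apply, ← eval_map, hP, PhiR_map]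
    have := hΦ.root_low_one hζ hpk
    rwa [← pow_succ'] at this
  obtain ⟨G, hG⟩ := dvd_iff_isRoot.mpr hroot_a
  have hPx : aeval x P = 0 := by
    rw [aeval_def, ← eval_map, hP, PhiR_map]
    have := hΦ.root_high hζ hpk1
    rwa [← pow_succ'] at this
  have hxa : x ≠ algebraMap FM (LaurentSeries K) a := by
    intro h
    have h1 : jt (1 : Kˣ) (p ^ (k + 2)) = jt 1 (p ^ k) := h
    have h2 := (jt_inj (pow_ne_zero _ hp0) hpk h1).1
    have h3 := Nat.pow_right_injective hp.out.two_le h2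
    omega
  have hGx : aeval x G = 0 := by
    rw [hG, map_mul, map_sub, aeval_X, aeval_C] at hPx
    exact (mul_eq_zero.mp hPx).resolve_left (sub_ne_zero.mpr hxa)
  have hμG : minpoly FM x ∣ G := minpoly.dvd FM x hGx
  have hxint : IsIntegral FM x := ⟨P, hPmonic, hPx⟩
  -- the image of `G`
  have hGmap : G.map ι' = lowProd ζ p M₁ := by
    have h1 := congrArg (Polynomial.map ι') hG
    rw [Polynomial.map_mul, Polynomial.map_sub, map_X, map_C, hP, PhiR_map] at h1
    have h2 : ι' ⟨jt 1 (p ^ (k + 1)), hmem1⟩ = jt (1 ^ p) (p * M₁) := by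
      rw [RingHom.comp_apply, hι.2 _ hmem1 (dvd_mul_left _ _), qExpand_jt,
        Nat.mul_div_cancel _ (Nat.pos_of_ne_zero hpk1), one_pow]
    have h3 : ι' a = jt (1 ^ (p * p)) (p * p * M₁) := by
      rw [ha, RingHom.comp_apply, hι.2 _ hmem0 hdvd0, qExpand_jt, one_pow]
      congr 1
      rw [show M₁ * p ^ (k + 1) = (M₁ * p) * p ^ k by ring,
        Nat.mul_div_cancel _ (Nat.pos_of_ne_zero hpk)]
      ring
    rw [h2, h3, hΦ.at_jt hζ 1 hM₁] at h1
    have h4 := mul_left_cancel₀ (X_sub_C_ne_zero _) h1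
    rw [← h4, lowProd]
    simp
  have hdvd : (minpoly FM x).map ι' ∣ lowProd ζ p M₁ := by
    rw [← hGmap]
    exact Polynomial.map_dvd ι' hμG
  have hdeg : ((minpoly FM x).map ι').degree ≠ 0 := by
    rw [degree_map]
    exact (minpoly.degree_pos hxint).ne'
  obtain ⟨z, hz⟩ := ((lowProd_splits ζ M₁).of_dvd (lowProd_monic ζ M₁).ne_zero hdvd).exists_eval_eq_zero hdeg
  obtain ⟨i, rfl⟩ := lowProd_root (eval_eq_zero_of_dvd_of_eval_eq_zero hdvd hz)
  have hfix : ((minpoly FM x).map ι').map (twist ζ) = (minpoly FM x).map ι' := by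
    rw [Polynomial.map_map, twist_comp_qExpand hζ]
  have hdvd' := prod_dvd_of_twist_fixed hζ hpM₁ hfix hz
  exact eq_of_monic_of_associated ((minpoly.monic hxint).map _) (lowProd_monic ζ M₁)
    (associated_of_dvd_dvd hdvd hdvd')

/-- Case `k = 0`: if `j(q^p) ∉ F_M`, `p ∤ M`, its minimal polynomial over `F_M` is
`Φ_p(X; j)`. -/
theorem caseB {Φ : ℤ[X][X]} (hΦ : ModPolySpec p Φ) {ζ : Kˣ} (hζ : IsPrimitiveRoot ζ p)
    {M₁ : ℕ} (hM₁ : M₁ ≠ 0) (hpM₁ : ¬ p ∣ M₁)
    {ι : modularFunctionFieldFullC K (M₁ * p ^ 0) →+* LaurentSeries K}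
    (hι : IsFricke K (M₁ * p ^ 0) ι)
    (hx : jt (1 : Kˣ) (p ^ 1) ∉ modularFunctionFieldFullC K (M₁ * p ^ 0)) :
    lowProd ζ p M₁ ∣ (minpoly (modularFunctionFieldFullC K (M₁ * p ^ 0))
      (jt (1 : Kˣ) (p ^ 1))).map ((qExpand K p).comp ι) ∧
    (minpoly (modularFunctionFieldFullC K (M₁ * p ^ 0))
      (jt (1 : Kˣ) (p ^ 1))).natDegree = p + 1 := by
  classical
  have hp0 : p ≠ 0 := hp.out.ne_zero
  have hp1 := hp.out.one_lt
  have hM0 : M₁ * p ^ 0 ≠ 0 := by simpa using hM₁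
  let FM := modularFunctionFieldFullC K (M₁ * p ^ 0)
  let ι' : FM →+* LaurentSeries K := (qExpand K p).comp ι
  set x : LaurentSeries K := jt (1 : Kˣ) (p ^ 1) with hxdef
  have hmem1 : jt (1 : Kˣ) 1 ∈ FM := jt_mem_full K hM0 (one_dvd _)
  set P : FM[X] := PhiR Φ (⟨jt 1 1, hmem1⟩ : FM) with hP
  have hPmonic : P.Monic := PhiR_monic hΦ.monic _
  have hPdeg : P.natDegree = p + 1 := by
    rw [hP, PhiR_natDegree hΦ.monic, hΦ.natDegree_eq]
  have hPx : aeval x P = 0 := by
    rw [aeval_def, ← eval_map, hP, PhiR_map]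
    have := hΦ.root_high hζ (m := 1) one_ne_zero
    rw [mul_one] at this
    rwa [hxdef, pow_one]
  have hxint : IsIntegral FM x := ⟨P, hPmonic, hPx⟩
  have hμP : minpoly FM x ∣ P := minpoly.dvd FM x hPx
  have hPmap : P.map ι' = (X - C (jt 1 (p * p * M₁))) * lowProd ζ p M₁ := by
    rw [hP, PhiR_map]
    have h2 : ι' ⟨jt 1 1, hmem1⟩ = jt (1 ^ p) (p * M₁) := by
      rw [RingHom.comp_apply, hι.2 _ hmem1 (one_dvd _), qExpand_jt, one_pow]
      congr 1
      simp
    rw [h2, hΦ.at_jt hζ 1 hM₁, one_pow, lowProd]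
    simp
  have hdvd : (minpoly FM x).map ι' ∣ (X - C (jt 1 (p * p * M₁))) * lowProd ζ p M₁ := by
    rw [← hPmap]
    exact Polynomial.map_dvd ι' hμP
  have hdeg2 : 2 ≤ (minpoly FM x).natDegree := by
    have h1 : 0 < (minpoly FM x).natDegree := minpoly.natDegree_pos hxint
    have h2 : (minpoly FM x).natDegree ≠ 1 := by
      intro h
      rw [minpoly.natDegree_eq_one_iff] at h
      obtain ⟨a, ha⟩ := h
      apply hx
      rw [← ha]
      exact a.2
    omega
  have hsep : ((minpoly FM x).map ι').Separable := by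
    have h1 : (P.map ι').Separable := by
      rw [hPmap]
      have := hΦ.separable hζ 1 (m := M₁) hM₁
      rw [hΦ.at_jt hζ 1 hM₁, one_pow] at this
      simpa [lowProd] using this
    rw [hPmap] at h1
    exact h1.of_dvd hdvd
  have hne : (X - C (jt (1 : Kˣ) (p * p * M₁))) * lowProd ζ p M₁ ≠ 0 :=
    mul_ne_zero (X_sub_C_ne_zero _) (lowProd_monic ζ M₁).ne_zero
  have hspl : ((minpoly FM x).map ι').Splits :=
    ((Splits.X_sub_C _).mul (lowProd_splits ζ M₁)).of_dvd hne hdvd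
  -- find a low root
  have hlow : ∃ i, ((minpoly FM x).map ι').eval (jt (ζ ^ i) M₁) = 0 := by
    by_contra hcon
    push Not at hcon
    have hroots : ((minpoly FM x).map ι').roots.toFinset ⊆ {jt 1 (p * p * M₁)} := by
      intro z hz
      rw [Multiset.mem_toFinset, mem_roots (by
        rw [Ne, Polynomial.map_eq_zero]; exact minpoly.ne_zero hxint)] at hz
      have h1 := eval_eq_zero_of_dvd_of_eval_eq_zero hdvd hz
      rw [eval_mul, mul_eq_zero] at h1
      rcases h1 with h1 | h1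
      · rw [eval_sub, eval_X, eval_C] at h1
        rw [Finset.mem_singleton]
        exact sub_eq_zero.mp h1
      · obtain ⟨i, rfl⟩ := lowProd_root h1
        exact absurd hz (hcon i)
    have hcard := Finset.card_le_card hroots
    rw [Multiset.toFinset_card_of_nodup (nodup_roots hsep), ← hspl.natDegree_eq_card_roots,
      natDegree_map, Finset.card_singleton] at hcard
    omega
  obtain ⟨i, hi⟩ := hlow
  have hfix : ((minpoly FM x).map ι').map (twist ζ) = (minpoly FM x).map ι' := by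
    rw [Polynomial.map_map, twist_comp_qExpand hζ]
  have hdvd' : lowProd ζ p M₁ ∣ (minpoly FM x).map ι' := prod_dvd_of_twist_fixed hζ hpM₁ hfix hi
  refine ⟨hdvd', ?_⟩
  have hge : p ≤ (minpoly FM x).natDegree := by
    have := natDegree_le_of_dvd hdvd' (by
      rw [Ne, Polynomial.map_eq_zero]; exact minpoly.ne_zero hxint)
    rwa [lowProd_natDegree, natDegree_map] at this
  have hle : (minpoly FM x).natDegree ≤ p + 1 := by
    rw [← hPdeg]
    exact natDegree_le_of_dvd hμP hPmonic.ne_zero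
  have hnep : (minpoly FM x).natDegree ≠ p := by
    intro hdegp
    obtain ⟨H, hH⟩ := hμP
    have hHdeg : H.natDegree = 1 := by
      have h1 := congrArg natDegree hH
      rw [hPdeg] at h1
      have hHne : H ≠ 0 := by
        rintro rfl
        rw [mul_zero] at hH
        exact hPmonic.ne_zero hH
      rw [natDegree_mul (minpoly.ne_zero hxint) hHne, hdegp] at h1
      omega
    have hHmonic : H.Monic := by
      have h1 := hPmonic
      rw [hH] at h1
      exact (minpoly.monic hxint).of_mul_monic_left h1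
    obtain ⟨b, hb⟩ : ∃ b : FM, H.eval b = 0 := by
      have h1 : H.Splits := Splits.of_natDegree_le_one hHdeg.le
      exact h1.exists_eval_eq_zero (by
        rw [degree_eq_natDegree hHmonic.ne_zero, hHdeg]; exact one_ne_zero)
    have hPb : P.eval b = 0 := by rw [hH, eval_mul, hb, mul_zero]
    -- `b`, as a series, is a root of `Φ(X; j)`
    have h2 : (PhiR Φ (jt (1 : Kˣ) 1)).eval (b : LaurentSeries K) = 0 := by
      have h3 := congrArg (algebraMap FM (LaurentSeries K)) hPb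
      rw [← eval₂_at_apply, ← eval_map, hP, PhiR_map, map_zero] at h3
      exact h3
    have h4 : (PhiR Φ (jt ((1 : Kˣ) ^ p) (p * 1))).eval
        (qExpand K p (b : LaurentSeries K)) = 0 := by
      have h5 : PhiR Φ (jt ((1 : Kˣ) ^ p) (p * 1)) =
          (PhiR Φ (jt (1 : Kˣ) 1)).map (qExpand K p) := by
        rw [PhiR_map, qExpand_jt, one_pow]
      rw [h5, eval_map, eval₂_at_apply, h2, map_zero]
    rcases hΦ.eq_of_root hζ 1 one_ne_zero h4 with h6 | ⟨i, -, h6⟩
    · apply hx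
      have h7 : (b : LaurentSeries K) = jt 1 (p ^ 1) := by
        apply qExpand_injective (R := K) p
        rw [h6, qExpand_jt, one_pow, mul_one, pow_one]
      rw [hxdef, ← h7]
      exact b.2
    · have h7 : (qExpand K p (b : LaurentSeries K)).coeff (-1 : ℤ) =
          (jt (1 * ζ ^ i) 1).coeff (-1 : ℤ) := by rw [h6]
      have h8 : (jt (1 * ζ ^ i) 1).coeff (-1 : ℤ) = (((1 * ζ ^ i)⁻¹ : Kˣ) : K) := by
        have := jt_coeff_neg (1 * ζ ^ i) (n := 1) one_ne_zero
        simpa using this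
      rw [h8, qExpand_coeff_of_not_dvd] at h7
      · exact Units.ne_zero _ h7.symm
      · intro h9
        have h10 : (p : ℤ) ∣ 1 := (dvd_neg.mp h9)
        have h11 : p ∣ 1 := by exact_mod_cast h10
        exact hp.out.one_lt.ne' (Nat.dvd_one.mp h11)
  change (minpoly FM x).natDegree = p + 1
  omega

end AB

end Fermat.Agent.S28
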