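import Mathlib
import Fermat.Prelude.Def_ModularCurve_X0ModL
import Fermat.Agent.S28.TowerAB

set_option autoImplicit false

noncomputable section

namespace Fermat.Agent.S28

open ModularCurve Polynomial IntermediateField

/-- `j(q^p) ∉ K(j)` for all fields with `p ≠ 0`. -/
def JpNotMem : Prop := ∀ (p : ℕ) [Fact p.Prime] (K : Type) [Field K], (p : K) ≠ 0 →
  qExpand K p (jqModC K) ∉ IntermediateField.adjoin K {jqModC K}

theorem exists_extend_alg {E F Ω : Type*} [Field E] [Field F] [Field Ω] [IsAlgClosed Ω]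
    (i : E →+* F) (h : ∀ x : F, ∃ P : E[X], P ≠ 0 ∧ P.eval₂ i x = 0) (θ : E →+* Ω) :
    ∃ σ : F →+* Ω, ∀ a, σ (i a) = θ a := by
  let _ : Algebra E F := i.toAlgebra
  let _ : Algebra E Ω := θ.toAlgebra
  have : Algebra.IsAlgebraic E F := ⟨fun x => by
    obtain ⟨P, hP0, hP⟩ := h x
    exact ⟨P, hP0, hP⟩⟩
  exact ⟨(IsAlgClosed.lift : F →ₐ[E] Ω).toRingHom, fun a =>
    (IsAlgClosed.lift : F →ₐ[E] Ω).commutes a⟩

section

variable {K : Type} [Field K]

theorem full_one : modularFunctionFieldFullC K 1 = IntermediateField.adjoin K {jqModC K} := by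
  apply le_antisymm
  · rw [full_le_iff]
    intro d _ hd
    rw [Nat.dvd_one] at hd
    subst hd
    rw [jt_one_one]
    exact mem_adjoin_simple_self K _
  · rw [adjoin_le_iff]
    rintro _ rfl
    rw [← jt_one_one]
    exact jt_mem_full K one_ne_zero dvd_rfl

theorem isFricke_one (M : ℕ) (hM : M = 1) :
    IsFricke K M (algebraMap (modularFunctionFieldFullC K M) (LaurentSeries K)) := by
  subst hM
  refine ⟨fun c => rfl, fun d h hd => ?_⟩
  rw [Nat.dvd_one] at hd
  subst hd
  rfl

variable [IsAlgClosed K]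

/-- `j(q^d)` is algebraic over any intermediate field containing `j`. -/
theorem isIntegral_jt (hΦ : ModPolyAll) {E₀ : IntermediateField K (LaurentSeries K)}
    (h1 : jt (1 : Kˣ) 1 ∈ E₀) (d : ℕ) (hd : (d : K) ≠ 0) : IsIntegral E₀ (jt (1 : Kˣ) d) := by
  induction d using Nat.strong_induction_on with
  | _ d ih =>
  have hd0 : d ≠ 0 := by rintro rfl; exact hd Nat.cast_zero
  by_cases hd1 : d = 1
  · subst hd1
    exact isIntegral_algebraMap (x := (⟨_, h1⟩ : E₀))
  · have hrp : (d.minFac).Prime := Nat.minFac_prime hd1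
    set r := d.minFac with hr
    have : Fact r.Prime := ⟨hrp⟩
    obtain ⟨d', hd'⟩ : r ∣ d := Nat.minFac_dvd d
    obtain ⟨Φr, hΦr⟩ := hΦ r
    have hd'0 : d' ≠ 0 := by rintro rfl; exact hd0 (by rw [hd', mul_zero])
    have hd'lt : d' < d := by
      rw [hd']
      have := hrp.one_lt
      have h3 := Nat.pos_of_ne_zero hd'0
      nlinarith
    have hcast : (d : K) = (r : K) * (d' : K) := by
      rw [← Nat.cast_mul, ← hd']
    have hcharr : (r : K) ≠ 0 := by
      intro h; apply hd; rw [hcast, h, zero_mul]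
    have hchard' : (d' : K) ≠ 0 := by
      intro h; apply hd; rw [hcast, h, mul_zero]
    obtain ⟨η, hη⟩ := exists_unit_primitiveRoot (K := K) (n := r) hcharr
    have ih' := ih d' hd'lt hchard'
    let A := integralClosure E₀ (LaurentSeries K)
    have hmem : jt (1 : Kˣ) d' ∈ A := ih'
    have hint : IsIntegral A (jt (1 : Kˣ) d) := by
      refine ⟨PhiR Φr (⟨jt 1 d', hmem⟩ : A), PhiR_monic hΦr.monic _, ?_⟩
      rw [← eval_map, PhiR_map]
      have := hΦr.root_high hη hd'0
      rwa [← hd'] at this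
    exact isIntegral_trans _ hint

theorem isIntegral_of_mem_full (hΦ : ModPolyAll) {E₀ : IntermediateField K (LaurentSeries K)}
    (h1 : jt (1 : Kˣ) 1 ∈ E₀) {M : ℕ} (hM : (M : K) ≠ 0) {a : LaurentSeries K}
    (ha : a ∈ modularFunctionFieldFullC K M) : IsIntegral E₀ a := by
  have h : modularFunctionFieldFullC K M ≤
      (algebraicClosure E₀ (LaurentSeries K)).restrictScalars K := by
    rw [full_le_iff]
    intro d _ hd
    rw [IntermediateField.mem_restrictScalars, mem_algebraicClosure_iff]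
    refine (isIntegral_jt hΦ h1 d ?_).isAlgebraic
    obtain ⟨c, rfl⟩ := hd
    intro h0
    apply hM
    push_cast
    rw [h0, zero_mul]
  have h2 := h ha
  rw [IntermediateField.mem_restrictScalars, mem_algebraicClosure_iff] at h2
  exact isAlgebraic_iff_isIntegral.mp h2

variable {p : ℕ} [hp : Fact p.Prime]

theorem jt_p_notMem (hΦ : ModPolyAll) (hJ : JpNotMem) {M : ℕ} (hpM : ¬ p ∣ M)
    (hchar : ((M * p : ℕ) : K) ≠ 0) :
    jt (1 : Kˣ) (p ^ 1) ∉ modularFunctionFieldFullC K M := by
  intro hx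
  have hM : M ≠ 0 := by rintro rfl; exact hpM (dvd_zero _)
  have hMneZero : NeZero M := ⟨hM⟩
  have hcharM : (M : K) ≠ 0 := by
    intro h; apply hchar; push_cast; rw [h, zero_mul]
  have hcharp : (p : K) ≠ 0 := by
    intro h; apply hchar; push_cast; rw [h, mul_zero]
  obtain ⟨Φp, hΦp⟩ := hΦ p
  obtain ⟨ζ, hζ⟩ := exists_unit_primitiveRoot (K := K) (n := p) hcharp
  -- level `p`
  have hp1 : ¬ p ∣ 1 := fun h => hp.out.one_lt.ne' (Nat.dvd_one.mp h)
  have hnot1 : jt (1 : Kˣ) (p ^ 1) ∉ modularFunctionFieldFullC K (1 * p ^ 0) := by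
    rw [pow_zero, mul_one, full_one, pow_one, jt_one_eq]
    exact hJ p K hcharp
  have hF1 := isFricke_one (K := K) (1 * p ^ 0) (by simp)
  have hB := caseB hΦp hζ one_ne_zero hp1 hF1 hnot1
  obtain ⟨⟨ι₂, hι₂⟩, -⟩ := tower_step (p := p) hΦ one_ne_zero hp1 (by simpa using hcharp) hF1
    (eval_eq_zero_of_dvd_of_eval_eq_zero hB.1 lowProd_eval_one)
  let Fp := modularFunctionFieldFullC K (1 * p ^ (0 + 1))
  have hFp : Fp = modularFunctionFieldFullC K (1 * p ^ (0 + 1)) := rfl
  have hle : Fp ≤ modularFunctionFieldFullC K M := by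
    rw [hFp, full_le_iff]
    intro d _ hd
    rw [zero_add, one_mul, pow_one] at hd
    rcases (Nat.dvd_prime hp.out).mp hd with rfl | rfl
    · exact jt_mem_full K hM (one_dvd _)
    · rwa [pow_one] at hx
  let Ω := AlgebraicClosure (LaurentSeries K)
  let θ : Fp →+* Ω := (algebraMap (LaurentSeries K) Ω).comp ((qExpand K M).comp ι₂)
  let i : Fp →+* modularFunctionFieldFullC K M := (IntermediateField.inclusion hle).toRingHom
  have hmem11 : jt (1 : Kˣ) 1 ∈ Fp :=
    jt_mem_full K (by simpa using hp.out.ne_zero) (one_dvd _)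
  obtain ⟨σ, hσ⟩ := exists_extend_alg i (fun y => by
    have h1 := isIntegral_of_mem_full hΦ hmem11 hcharM y.2
    obtain ⟨P, hP, hPy⟩ := h1
    refine ⟨P, hP.ne_zero, ?_⟩
    apply (algebraMap (modularFunctionFieldFullC K M) (LaurentSeries K)).injective
    rw [hom_eval₂, map_zero]
    exact hPy) θ
  -- values of `σ` on generators
  have claim : ∀ d : ℕ, d ∣ M → ∀ h : jt (1 : Kˣ) d ∈ modularFunctionFieldFullC K M,
      ∃ (u : Kˣ) (a : ℕ), a ≠ 0 ∧
        σ ⟨jt 1 d, h⟩ = algebraMap (LaurentSeries K) Ω (jt u (p * ((M / d) * (a * a)))) := by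
    intro d
    induction d using Nat.strong_induction_on with
    | _ d ih =>
    intro hd h
    have hd0 : d ≠ 0 := by rintro rfl; exact hM (Nat.eq_zero_of_zero_dvd hd)
    by_cases hd1 : d = 1
    · subst hd1
      refine ⟨1, 1, one_ne_zero, ?_⟩
      have h1 : σ ⟨jt 1 1, h⟩ = θ ⟨jt 1 1, hmem11⟩ := hσ ⟨jt 1 1, hmem11⟩
      rw [h1]
      change algebraMap (LaurentSeries K) Ω (qExpand K M (ι₂ ⟨jt 1 1, hmem11⟩)) = _
      rw [hι₂.2 _ hmem11 (one_dvd _), qExpand_jt]
      congr 2
      simp [mul_comm]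
    · have hrp : (d.minFac).Prime := Nat.minFac_prime hd1
      set r := d.minFac with hr
      have : Fact r.Prime := ⟨hrp⟩
      obtain ⟨d', hd'⟩ : r ∣ d := Nat.minFac_dvd d
      obtain ⟨Φr, hΦr⟩ := hΦ r
      have hd'0 : d' ≠ 0 := by rintro rfl; exact hd0 (by rw [hd', mul_zero])
      have hd'lt : d' < d := by
        rw [hd']
        have := hrp.one_lt
        have h3 := Nat.pos_of_ne_zero hd'0
        nlinarith
      have hd'M : d' ∣ M := (Dvd.intro_left r hd'.symm).trans hd
      have hrM : r ∣ M := (Nat.minFac_dvd d).trans hd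
      have hcharr : (r : K) ≠ 0 := by
        intro h
        obtain ⟨c, hc⟩ := hrM
        apply hcharM
        rw [hc]
        push_cast
        rw [h, zero_mul]
      obtain ⟨η, hη⟩ := exists_unit_primitiveRoot (K := K) (n := r) hcharr
      have hmem' := jt_mem_full K hM hd'M
      obtain ⟨u', a', ha', hval'⟩ := ih d' hd'lt hd'M hmem'
      obtain ⟨c, hc⟩ := hd
      have hc0 : c ≠ 0 := by rintro rfl; exact hM (by rw [hc, mul_zero])
      have hdiv : M / d = c := by rw [hc, Nat.mul_div_cancel_left _ (Nat.pos_of_ne_zero hd0)]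
      have hdiv' : M / d' = r * c := by
        rw [hc, hd', show r * d' * c = d' * (r * c) by ring,
          Nat.mul_div_cancel_left _ (Nat.pos_of_ne_zero hd'0)]
      obtain ⟨v, hv⟩ : ∃ v : Kˣ, v ^ r = u' := by
        obtain ⟨w, hw⟩ := IsAlgClosed.exists_pow_nat_eq (u' : K) hrp.pos
        have hw0 : w ≠ 0 := by
          rintro rfl
          rw [zero_pow hrp.ne_zero] at hw
          exact u'.ne_zero hw.symm
        exact ⟨Units.mk0 w hw0, Units.ext (by simpa using hw)⟩
      set m' := p * (c * (a' * a')) with hm'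
      have hm'0 : m' ≠ 0 := by
        rw [hm']
        exact Nat.mul_ne_zero hp.out.ne_zero (Nat.mul_ne_zero hc0 (Nat.mul_ne_zero ha' ha'))
      have hval2 : σ ⟨jt 1 d', hmem'⟩ =
          algebraMap (LaurentSeries K) Ω (jt (v ^ r) (r * m')) := by
        rw [hval', hdiv', hv]
        congr 2
        rw [hm']; ring
      -- `σ (jt 1 d)` is a root
      have hrt : (PhiR Φr (⟨jt 1 d', hmem'⟩ : modularFunctionFieldFullC K M)).eval
          (⟨jt 1 d, h⟩ : modularFunctionFieldFullC K M) = 0 := by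
        apply (algebraMap (modularFunctionFieldFullC K M) (LaurentSeries K)).injective
        rw [← eval₂_at_apply, ← eval_map, PhiR_map, map_zero]
        have := hΦr.root_high hη hd'0
        rw [← hd'] at this
        exact this
      have hrt2 := congrArg σ hrt
      rw [← eval₂_at_apply, ← eval_map, PhiR_map, map_zero, hval2, ← PhiR_map,
        hΦr.at_jt hη v hm'0, Polynomial.map_mul, Polynomial.map_prod, eval_mul, eval_prod,
        mul_eq_zero] at hrt2
      rw [hdiv]
      rcases hrt2 with h5 | h5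
      · rw [Polynomial.map_sub, map_X, map_C, eval_sub, eval_X, eval_C, sub_eq_zero] at h5
        refine ⟨v ^ (r * r), r * a', Nat.mul_ne_zero hrp.ne_zero ha', ?_⟩
        rw [h5]
        congr 2
        rw [hm']; ring
      · rw [Finset.prod_eq_zero_iff] at h5
        obtain ⟨j, -, h5⟩ := h5
        rw [Polynomial.map_sub, map_X, map_C, eval_sub, eval_X, eval_C, sub_eq_zero] at h5
        exact ⟨v * η ^ j, a', ha', h5⟩
  -- all of `σ(F_M)` lies in `K((t^p))`
  let R : Subfield Ω := ((algebraMap (LaurentSeries K) Ω).comp (qExpand K p)).fieldRange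
  have hR : ∀ (a : LaurentSeries K) (ha : a ∈ modularFunctionFieldFullC K M), σ ⟨a, ha⟩ ∈ R := by
    intro a ha
    have ha' : a ∈ IntermediateField.adjoin K (divisorExpansionsC K M) := ha
    induction ha' using IntermediateField.adjoin_induction with
    | mem y hy =>
      obtain ⟨d, hd0, hd, rfl⟩ := hy
      have h1 := jt_mem_full K hM hd
      obtain ⟨u, a, -, h2⟩ := claim d hd h1
      have h3 : (⟨qExpand K d (jqModC K), ha⟩ : modularFunctionFieldFullC K M) =
          ⟨jt 1 d, h1⟩ := Subtype.ext (jt_one_eq d).symm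
      rw [h3, h2]
      exact ⟨jt u (M / d * (a * a)), by rw [RingHom.comp_apply, qExpand_jt]⟩
    | algebraMap c =>
      have h1 : (⟨algebraMap K (LaurentSeries K) c, ha⟩ : modularFunctionFieldFullC K M) =
          i (algebraMap K Fp c) := rfl
      rw [h1, hσ]
      refine ⟨algebraMap K (LaurentSeries K) c, ?_⟩
      change algebraMap (LaurentSeries K) Ω (qExpand K p (algebraMap K (LaurentSeries K) c)) =
        algebraMap (LaurentSeries K) Ω (qExpand K M (ι₂ (algebraMap K Fp c)))
      rw [hι₂.1]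
      congr 1
      exact ((qExpandAlgHomC K p).commutes c).trans ((qExpandAlgHomC K M).commutes c).symm
    | add x y hx hy ihx ihy =>
      have := add_mem (ihx hx) (ihy hy)
      rwa [← map_add] at this
    | inv x hx ihx =>
      have := inv_mem (ihx hx)
      rwa [← map_inv₀] at this
    | mul x y hx hy ihx ihy =>
      have := mul_mem (ihx hx) (ihy hy)
      rwa [← map_mul] at this
  -- contradiction
  have hxFp : jt (1 : Kˣ) (p ^ 1) ∈ Fp :=
    jt_mem_full K (by simpa using hp.out.ne_zero) (by simp)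
  have h1 : σ ⟨jt 1 (p ^ 1), hx⟩ = algebraMap (LaurentSeries K) Ω (jt 1 M) := by
    have h2 : σ ⟨jt 1 (p ^ 1), hx⟩ = θ ⟨jt 1 (p ^ 1), hxFp⟩ := hσ ⟨jt 1 (p ^ 1), hxFp⟩
    rw [h2]
    change algebraMap (LaurentSeries K) Ω (qExpand K M (ι₂ ⟨jt 1 (p ^ 1), hxFp⟩)) = _
    rw [hι₂.2 _ hxFp (by simp), qExpand_jt]
    congr 2
    rw [zero_add, one_mul, Nat.div_self (by rw [pow_one]; exact hp.out.pos), mul_one]
  obtain ⟨g, hg⟩ := hR _ hx
  rw [h1, RingHom.comp_apply] at hg
  have h3 := (algebraMap (LaurentSeries K) Ω).injective hg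
  have h4 : (qExpand K p g).coeff (-(M : ℤ)) = (jt (1 : Kˣ) M).coeff (-(M : ℤ)) := by rw [h3]
  rw [jt_coeff_neg _ hM, qExpand_coeff_of_not_dvd] at h4
  · exact Units.ne_zero _ h4.symm
  · intro h5
    rw [dvd_neg] at h5
    exact hpM (by exact_mod_cast h5)

end

end Fermat.Agent.S28
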