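import Mathlib
import Fermat.Prelude.Def_ModularCurve_X0ModL
import Fermat.Agent.S28.NotMem
import Fermat.Agent.Gamma0Count

set_option autoImplicit false

noncomputable section

namespace Fermat.Agent.S28

open ModularCurve Polynomial IntermediateField

theorem dedekindPsi_one' : dedekindPsi 1 = 1 := by
  rw [dedekindPsi, Nat.divisors_one, Finset.filter_singleton, if_pos squarefree_one]
  simp

theorem dedekindPsi_step {M₁ p : ℕ} (hp : p.Prime) (h : ¬ p ∣ M₁) (k : ℕ) :
    dedekindPsi (M₁ * p ^ (k + 1)) =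
      dedekindPsi (M₁ * p ^ k) * (if k = 0 then p + 1 else p) := by
  have hc : ∀ j, M₁.Coprime (p ^ j) := fun j =>
    Nat.Coprime.pow_right j ((Nat.Prime.coprime_iff_not_dvd hp).mpr h).symm
  rw [Fermat.Agent.Gamma0Count.dedekindPsi_mul (hc (k + 1)),
    Fermat.Agent.Gamma0Count.dedekindPsi_prime_pow hp,
    Fermat.Agent.Gamma0Count.dedekindPsi_mul (hc k)]
  cases k with
  | zero => simp
  | succ k =>
    rw [Fermat.Agent.Gamma0Count.dedekindPsi_prime_pow hp, if_neg (Nat.succ_ne_zero k)]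
    ring

theorem relfinrank_adjoin_simple {K : Type} [Field K] {F₀ F₁ : IntermediateField K (LaurentSeries K)}
    {x : LaurentSeries K} (hx : IsIntegral F₀ x)
    (h : F₁ = (IntermediateField.adjoin F₀ {x}).restrictScalars K) :
    relfinrank F₀ F₁ = (minpoly F₀ x).natDegree := by
  have hle : F₀ ≤ F₁ := by
    intro a ha
    rw [h]
    exact IntermediateField.algebraMap_mem (IntermediateField.adjoin F₀ {x}) ⟨a, ha⟩
  rw [relfinrank_eq_finrank_of_le hle, ← adjoin.finrank hx]
  have h1 : extendScalars hle = IntermediateField.adjoin F₀ {x} := by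
    apply IntermediateField.restrictScalars_injective K
    rw [extendScalars_restrictScalars]
    exact h
  rw [h1]

variable {K : Type} [Field K] [IsAlgClosed K]

/-- The degree theorem: `[F_M(K) : K(j)] = ψ(M)` for `M` invertible in `K`. -/
theorem tower (hΦ : ModPolyAll) (hJ : JpNotMem) (M : ℕ) (hM : (M : K) ≠ 0) :
    (∃ ι : modularFunctionFieldFullC K M →+* LaurentSeries K, IsFricke K M ι) ∧
    relfinrank (modularFunctionFieldFullC K 1) (modularFunctionFieldFullC K M) =
      dedekindPsi M := by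
  induction M using Nat.strong_induction_on with
  | _ M ih =>
  have hM0 : M ≠ 0 := by rintro rfl; exact hM Nat.cast_zero
  by_cases hM1 : M = 1
  · subst hM1
    exact ⟨⟨_, isFricke_one 1 rfl⟩, by rw [relfinrank_self, dedekindPsi_one']⟩
  · have hpp : (M.minFac).Prime := Nat.minFac_prime hM1
    set p := M.minFac with hpdef
    have : Fact p.Prime := ⟨hpp⟩
    obtain ⟨e, M₁, hpM₁, hMe⟩ := Nat.exists_eq_pow_mul_and_not_dvd hM0 p hpp.ne_one
    have he : e ≠ 0 := by
      rintro rfl
      rw [pow_zero, one_mul] at hMe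
      exact hpM₁ (hMe ▸ Nat.minFac_dvd M)
    obtain ⟨k, rfl⟩ := Nat.exists_eq_succ_of_ne_zero he
    rw [Nat.succ_eq_add_one, mul_comm] at hMe
    have hM₁ : M₁ ≠ 0 := by rintro rfl; exact hM0 (by rw [hMe, zero_mul])
    have hpk : p ^ k ≠ 0 := pow_ne_zero _ hpp.ne_zero
    have hcast : (M : K) = (M₁ : K) * (p : K) * ((p : K) ^ k) := by
      rw [hMe]; push_cast; ring
    have hchar : ((M₁ * p : ℕ) : K) ≠ 0 := by
      intro h; apply hM; rw [hcast]; push_cast at h; rw [h, zero_mul]
    have hcharp : (p : K) ≠ 0 := by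
      intro h; apply hchar; push_cast; rw [h, mul_zero]
    have hcharM₁ : (M₁ : K) ≠ 0 := by
      intro h; apply hchar; push_cast; rw [h, zero_mul]
    have hcharMk : ((M₁ * p ^ k : ℕ) : K) ≠ 0 := by
      push_cast
      exact mul_ne_zero hcharM₁ (pow_ne_zero _ hcharp)
    have hlt : M₁ * p ^ k < M := by
      rw [hMe, pow_succ, ← mul_assoc]
      have h1 : 0 < M₁ * p ^ k := Nat.pos_of_ne_zero (Nat.mul_ne_zero hM₁ hpk)
      have h2 := hpp.one_lt
      nlinarith
    obtain ⟨⟨ι, hι⟩, hdeg⟩ := ih (M₁ * p ^ k) hlt hcharMk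
    obtain ⟨Φp, hΦp⟩ := hΦ p
    obtain ⟨ζ, hζ⟩ := exists_unit_primitiveRoot (K := K) (n := p) hcharp
    have hM0k : M₁ * p ^ k ≠ 0 := Nat.mul_ne_zero hM₁ hpk
    -- the minimal polynomial
    have key : ((minpoly (modularFunctionFieldFullC K (M₁ * p ^ k))
          (jt (1 : Kˣ) (p ^ (k + 1)))).map ((qExpand K p).comp ι)).eval (jt (1 : Kˣ) M₁) = 0 ∧
        (minpoly (modularFunctionFieldFullC K (M₁ * p ^ k))
          (jt (1 : Kˣ) (p ^ (k + 1)))).natDegree = if k = 0 then p + 1 else p := by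
      cases k with
      | zero =>
        have hnot : jt (1 : Kˣ) (p ^ 1) ∉ modularFunctionFieldFullC K (M₁ * p ^ 0) := by
          rw [pow_zero, mul_one]
          exact jt_p_notMem hΦ hJ hpM₁ hchar
        have hB := caseB hΦp hζ hM₁ hpM₁ hι hnot
        exact ⟨eval_eq_zero_of_dvd_of_eval_eq_zero hB.1 lowProd_eval_one, by
          rw [if_pos rfl]; exact hB.2⟩
      | succ k =>
        have hA := caseA hΦp hζ hM₁ hpM₁ hι
        refine ⟨by rw [hA]; exact lowProd_eval_one, ?_⟩
        rw [if_neg (Nat.succ_ne_zero k)]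
        have := congrArg natDegree hA
        rwa [natDegree_map, lowProd_natDegree] at this
    obtain ⟨⟨ι₂, hι₂⟩, hadj⟩ := tower_step hΦ hM₁ hpM₁ hchar hι key.1
    have hint : IsIntegral (modularFunctionFieldFullC K (M₁ * p ^ k))
        (jt (1 : Kˣ) (p ^ (k + 1))) := by
      apply isIntegral_jt hΦ (jt_mem_full K hM0k (one_dvd _))
      push_cast
      exact pow_ne_zero _ hcharp
    have hrel := relfinrank_adjoin_simple hint hadj
    rw [key.2] at hrel
    have hle1 : modularFunctionFieldFullC K 1 ≤ modularFunctionFieldFullC K (M₁ * p ^ k) :=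
      full_mono K hM0k (one_dvd _)
    have hle2 : modularFunctionFieldFullC K (M₁ * p ^ k) ≤
        modularFunctionFieldFullC K (M₁ * p ^ (k + 1)) := by
      refine full_mono K (Nat.mul_ne_zero hM₁ (pow_ne_zero _ hpp.ne_zero)) ?_
      exact Nat.mul_dvd_mul dvd_rfl (pow_dvd_pow p (Nat.le_succ k))
    have htot : relfinrank (modularFunctionFieldFullC K 1)
        (modularFunctionFieldFullC K (M₁ * p ^ (k + 1))) =
        dedekindPsi (M₁ * p ^ (k + 1)) := by
      rw [← relfinrank_mul_relfinrank hle1 hle2, hdeg, hrel, dedekindPsi_step hpp hpM₁ k]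
    rw [← hMe] at htot
    refine ⟨?_, htot⟩
    have h3 : ∀ n, n = M₁ * p ^ (k + 1) →
        ∃ ι : modularFunctionFieldFullC K n →+* LaurentSeries K, IsFricke K n ι := by
      rintro n rfl
      exact ⟨ι₂, hι₂⟩
    exact h3 M hMe

end Fermat.Agent.S28
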