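import Mathlib
import Fermat.Prelude.Def_ModularCurve_IgusaScheme
import Fermat.Prelude.Def_ModularCurve_X0ModL

set_option autoImplicit false
open AlgebraicGeometry CategoryTheory CategoryTheory.Limits

namespace Fermat.Agent.S28

/-- A scheme covered by two integral open subschemes with nonempty intersection is integral. -/
theorem isIntegral_of_two_opens {X U V : Scheme.{0}} (i : U ⟶ X) (j : V ⟶ X)
    [IsOpenImmersion i] [IsOpenImmersion j] [IsIntegral U] [IsIntegral V]
    (hcov : ∀ x : X, x ∈ Set.range i ∨ x ∈ Set.range j)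
    (hmeet : ∃ (u : U) (v : V), i u = j v) : IsIntegral X := by
  have hred : IsReduced X := by
    have : ∀ x : X, _root_.IsReduced (X.presheaf.stalk x) := by
      intro x
      rcases hcov x with ⟨y, rfl⟩ | ⟨y, rfl⟩
      · exact isReduced_of_injective _
          (asIso <| i.stalkMap y).commRingCatIsoToRingEquiv.injective
      · exact isReduced_of_injective _
          (asIso <| j.stalkMap y).commRingCatIsoToRingEquiv.injective
    exact isReduced_of_isReduced_stalk _
  obtain ⟨u, v, huv⟩ := hmeet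
  have : IrreducibleSpace X := by
    have : Nonempty X := ⟨i u⟩
    refine { isPreirreducible_univ := ?_, toNonempty := inferInstance }
    have hU : IsIrreducible (Set.range i) := by
      rw [← Set.image_univ]
      exact (IrreducibleSpace.isIrreducible_univ U).image _ i.continuous.continuousOn
    have hV : IsIrreducible (Set.range j) := by
      rw [← Set.image_univ]
      exact (IrreducibleSpace.isIrreducible_univ V).image _ j.continuous.continuousOn
    have hUo : IsOpen (Set.range i) := i.isOpenEmbedding.isOpen_range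
    have hVo : IsOpen (Set.range j) := j.isOpenEmbedding.isOpen_range
    have hm : (Set.range i ∩ Set.range j).Nonempty := ⟨i u, ⟨u, rfl⟩, ⟨v, huv.symm⟩⟩
    have key : ∀ W : Set X, IsOpen W → W.Nonempty → (Set.range i ∩ W).Nonempty := by
      intro W hW ⟨w, hw⟩
      rcases hcov w with h | h
      · exact ⟨w, h, hw⟩
      · obtain ⟨z, hz⟩ := hV.2 _ _ hUo hW (by rwa [Set.inter_comm] at hm) ⟨w, h, hw⟩
        exact ⟨z, hz.2⟩
    intro A B hA hB ⟨a, ha⟩ ⟨b, hb⟩
    obtain ⟨z, hz⟩ := hU.2 A B hA hB (key A hA ⟨a, ha.2⟩) (key B hB ⟨b, hb.2⟩)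
    exact ⟨z, Set.mem_univ _, hz.2⟩
  exact isIntegral_of_irreducibleSpace_of_isReduced X

open ModularCurve ModularCurve.IgusaScheme TensorProduct in
theorem isIntegral_pullback_igusaTo_of_domain
    (N : ℕ) [NeZero N] (ℓ : ℕ) [Fact ℓ.Prime]
    (K : Type) [Field K] [Algebra ↥(GaloisRep.ratLocalizedAt ℓ) K]
    (hFin : IsDomain ((chartAlgFin N ℓ) ⊗[↥(GaloisRep.ratLocalizedAt ℓ)] K))
    (hInf : IsDomain ((chartAlgInf N ℓ) ⊗[↥(GaloisRep.ratLocalizedAt ℓ)] K))
    (hMid : Nontrivial ((chartAlgMid N ℓ) ⊗[↥(GaloisRep.ratLocalizedAt ℓ)] K)) :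
    IsIntegral ↑(pullback (igusaTo N ℓ)
      (Spec.map (CommRingCat.ofHom (algebraMap ↥(GaloisRep.ratLocalizedAt ℓ) K)))) := by
  let g := Spec.map (CommRingCat.ofHom (algebraMap ↥(GaloisRep.ratLocalizedAt ℓ) K))
  let i : pullback (Spec.map (CommRingCat.ofHom (algebraMap ↥(GaloisRep.ratLocalizedAt ℓ)
      (chartAlgFin N ℓ)))) g ⟶ pullback (igusaTo N ℓ) g :=
    pullback.map _ _ _ _ (ιFin N ℓ) (𝟙 _) (𝟙 _) (by simp) (by simp)
  let j : pullback (Spec.map (CommRingCat.ofHom (algebraMap ↥(GaloisRep.ratLocalizedAt ℓ)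
      (chartAlgInf N ℓ)))) g ⟶ pullback (igusaTo N ℓ) g :=
    pullback.map _ _ _ _ (ιInf N ℓ) (𝟙 _) (𝟙 _) (by simp) (by simp)
  have hi : IsOpenImmersion i := by
    apply Scheme.pullback_map_isOpenImmersion
  have hj : IsOpenImmersion j := by
    apply Scheme.pullback_map_isOpenImmersion
  have hU : IsIntegral ↑(pullback (Spec.map (CommRingCat.ofHom
      (algebraMap ↥(GaloisRep.ratLocalizedAt ℓ) (chartAlgFin N ℓ)))) g) := by
    have : IsDomain (CommRingCat.of ((chartAlgFin N ℓ) ⊗[↥(GaloisRep.ratLocalizedAt ℓ)] K)) :=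
      hFin
    exact IsIntegral.of_isIso (pullbackSpecIso ↥(GaloisRep.ratLocalizedAt ℓ)
      (chartAlgFin N ℓ) K).inv
  have hV : IsIntegral ↑(pullback (Spec.map (CommRingCat.ofHom
      (algebraMap ↥(GaloisRep.ratLocalizedAt ℓ) (chartAlgInf N ℓ)))) g) := by
    have : IsDomain (CommRingCat.of ((chartAlgInf N ℓ) ⊗[↥(GaloisRep.ratLocalizedAt ℓ)] K)) :=
      hInf
    exact IsIntegral.of_isIso (pullbackSpecIso ↥(GaloisRep.ratLocalizedAt ℓ)
      (chartAlgInf N ℓ) K).inv
  refine isIntegral_of_two_opens i j ?_ ?_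
  · intro x
    rcases mem_range_ιFin_or_mem_range_ιInf N ℓ ((pullback.fst (igusaTo N ℓ) g) x) with h | h
    · left
      rw [Scheme.Pullback.range_map]
      exact ⟨h, ⟨_, by simp; rfl⟩⟩
    · right
      rw [Scheme.Pullback.range_map]
      exact ⟨h, ⟨_, by simp; rfl⟩⟩
  · have hne : Nonempty ↑(pullback (Spec.map (CommRingCat.ofHom
        (algebraMap ↥(GaloisRep.ratLocalizedAt ℓ) (chartAlgMid N ℓ)))) g) := by
      obtain ⟨z⟩ : Nonempty (Spec (CommRingCat.of
          ((chartAlgMid N ℓ) ⊗[↥(GaloisRep.ratLocalizedAt ℓ)] K))) := by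
        have : Nontrivial (CommRingCat.of
          ((chartAlgMid N ℓ) ⊗[↥(GaloisRep.ratLocalizedAt ℓ)] K)) := hMid
        infer_instance
      exact ⟨(pullbackSpecIso ↥(GaloisRep.ratLocalizedAt ℓ) (chartAlgMid N ℓ) K).inv z⟩
    obtain ⟨z⟩ := hne
    let m₁ : pullback (Spec.map (CommRingCat.ofHom (algebraMap ↥(GaloisRep.ratLocalizedAt ℓ)
        (chartAlgMid N ℓ)))) g ⟶ pullback (Spec.map (CommRingCat.ofHom
        (algebraMap ↥(GaloisRep.ratLocalizedAt ℓ) (chartAlgFin N ℓ)))) g :=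
      pullback.map _ _ _ _ (fFin N ℓ) (𝟙 _) (𝟙 _) (by
        rw [Category.comp_id, ← Spec.map_comp, ← CommRingCat.ofHom_comp]
        rfl) (by simp)
    let m₂ : pullback (Spec.map (CommRingCat.ofHom (algebraMap ↥(GaloisRep.ratLocalizedAt ℓ)
        (chartAlgMid N ℓ)))) g ⟶ pullback (Spec.map (CommRingCat.ofHom
        (algebraMap ↥(GaloisRep.ratLocalizedAt ℓ) (chartAlgInf N ℓ)))) g :=
      pullback.map _ _ _ _ (fInf N ℓ) (𝟙 _) (𝟙 _) (by
        rw [Category.comp_id, ← Spec.map_comp, ← CommRingCat.ofHom_comp]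
        rfl) (by simp)
    refine ⟨m₁ z, m₂ z, ?_⟩
    have hcomm : m₁ ≫ i = m₂ ≫ j := by
      apply pullback.hom_ext
      · simp only [m₁, m₂, i, j, Category.assoc, pullback.lift_fst, pullback.lift_fst_assoc,
          pullback.map]
        rw [glue_condition]
      · simp only [m₁, m₂, i, j, Category.assoc, pullback.lift_snd, pullback.lift_snd_assoc,
          pullback.map, Category.comp_id]
    rw [← Scheme.Hom.comp_apply, ← Scheme.Hom.comp_apply, hcomm]

end Fermat.Agent.S28
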