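import Mathlib
import Fermat.Prelude.Def_ModularCurve_IgusaScheme
import Fermat.Prelude.Def_ModularCurve_X0ModL
import Fermat.Agent.S28.Glue

set_option autoImplicit false

noncomputable section

namespace Fermat.Agent.S28

open ModularCurve TensorProduct

/-- The localisation of `ℤ` at `ℓ` as a type. -/
abbrev Zl (ℓ : ℕ) : Type := ↥(GaloisRep.ratLocalizedAt ℓ)

section Scalars

variable (ℓ : ℕ) [Fact ℓ.Prime]

omit [Fact ℓ.Prime] in
theorem mem_ratLocalizedAt {q : ℚ} : q ∈ GaloisRep.ratLocalizedAt ℓ ↔ q.den.Coprime ℓ := Iff.rfl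

theorem den_ne_zero_of_charP (K : Type*) [Field K] [CharP K ℓ] (r : Zl ℓ) :
    ((r : ℚ).den : K) ≠ 0 := by
  intro h
  rw [CharP.cast_eq_zero_iff K ℓ] at h
  have h2 : ((r : ℚ).den).Coprime ℓ := r.2
  have := Nat.Coprime.eq_one_of_dvd h2.symm h
  exact (Fact.out : ℓ.Prime).one_lt.ne' this

omit [Fact ℓ.Prime] in
theorem algebraMap_mul_den (K : Type*) [Field K] [Algebra (Zl ℓ) K] (r : Zl ℓ) :
    algebraMap (Zl ℓ) K r * ((r : ℚ).den : K) = ((r : ℚ).num : K) := by
  have h : r * (((r : ℚ).den : ℕ) : Zl ℓ) = (((r : ℚ).num : ℤ) : Zl ℓ) := by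
    apply Subtype.ext
    push_cast
    exact Rat.mul_den_eq_num (r : ℚ)
  have := congrArg (algebraMap (Zl ℓ) K) h
  simpa using this

theorem algebraMap_mem_zmod (K : Type*) [Field K] [CharP K ℓ] [Algebra (Zl ℓ) K]
    [Algebra (ZMod ℓ) K] (r : Zl ℓ) :
    ∃ a : ZMod ℓ, algebraMap (ZMod ℓ) K a = algebraMap (Zl ℓ) K r := by
  refine ⟨(((r : ℚ).num : ℤ) : ZMod ℓ) / (((r : ℚ).den : ℕ) : ZMod ℓ), ?_⟩
  have h0 := den_ne_zero_of_charP ℓ K r
  rw [map_div₀, map_intCast, map_natCast, div_eq_iff h0, algebraMap_mul_den]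

theorem dvd_of_algebraMap_eq_zero (K : Type*) [Field K] [CharP K ℓ] [Algebra (Zl ℓ) K]
    (r : Zl ℓ) (h : algebraMap (Zl ℓ) K r = 0) : ∃ s : Zl ℓ, r = (ℓ : Zl ℓ) * s := by
  have h1 := algebraMap_mul_den ℓ K r
  rw [h, zero_mul] at h1
  have h2 : (ℓ : ℤ) ∣ (r : ℚ).num := by
    rw [← CharP.intCast_eq_zero_iff K ℓ]
    exact h1.symm
  obtain ⟨m, hm⟩ := h2
  have hl0 : (ℓ : ℚ) ≠ 0 := by exact_mod_cast (Fact.out : ℓ.Prime).ne_zero
  have hval : (r : ℚ) / ℓ = (m : ℚ) / ((r : ℚ).den : ℚ) := by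
    have h3 : (r : ℚ) = ((r : ℚ).num : ℚ) / ((r : ℚ).den : ℚ) := (Rat.num_div_den _).symm
    have h4 : ((r : ℚ).num : ℚ) = (ℓ : ℚ) * m := by exact_mod_cast hm
    rw [h4] at h3
    have hd : ((r : ℚ).den : ℚ) ≠ 0 := by exact_mod_cast (r : ℚ).den_ne_zero
    field_simp
    field_simp at h3
    linarith
  have hmem : (r : ℚ) / ℓ ∈ GaloisRep.ratLocalizedAt ℓ := by
    rw [hval, mem_ratLocalizedAt]
    have hdvd : ((m : ℚ) / ((r : ℚ).den : ℚ)).den ∣ (r : ℚ).den := by
      have := Rat.den_dvd m ((r : ℚ).den : ℤ)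
      have h5 : (((Rat.divInt m ((r : ℚ).den : ℤ))).den : ℤ) ∣ ((r : ℚ).den : ℤ) := this
      have h6 : (Rat.divInt m ((r : ℚ).den : ℤ)) = (m : ℚ) / ((r : ℚ).den : ℚ) := by
        rw [Rat.divInt_eq_div]; norm_cast
      rw [h6] at h5
      exact_mod_cast h5
    exact Nat.Coprime.coprime_dvd_left hdvd r.2
  refine ⟨⟨(r : ℚ) / ℓ, hmem⟩, Subtype.ext ?_⟩
  push_cast
  field_simp

end Scalars

theorem algebraMap_laurent_coeff {R K : Type*} [CommRing R] [Field K] [Algebra R K] (r : R)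
    (k : ℤ) : (algebraMap R (LaurentSeries K) r).coeff k = if k = 0 then algebraMap R K r else 0 := by
  have h1 : algebraMap R (PowerSeries K) r = PowerSeries.C (algebraMap R K r) := by
    rw [PowerSeries.algebraMap_apply]
  rw [HahnSeries.algebraMap_apply', h1, HahnSeries.ofPowerSeries_C]
  simp [HahnSeries.C_apply, HahnSeries.coeff_single]

theorem algebraMap_laurent_self_coeff {R : Type*} [CommRing R] (r : R)
    (k : ℤ) : (algebraMap R (LaurentSeries R) r).coeff k = if k = 0 then r else 0 := by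
  have h1 : algebraMap R (PowerSeries R) r = PowerSeries.C r := by
    rw [PowerSeries.algebraMap_apply]; rfl
  rw [HahnSeries.algebraMap_apply', h1, HahnSeries.ofPowerSeries_C]
  simp [HahnSeries.C_apply, HahnSeries.coeff_single]

/-- Abstract reduction statement: if `φ : B → ℤ_(ℓ)((q))` is "ℓ-saturated", then
`B ⊗ K → K((q))` is injective, for `K` of characteristic `ℓ`. -/
theorem isDomain_tensor_of_saturated (ℓ : ℕ) [Fact ℓ.Prime] (B : Type) [CommRing B]
    [Algebra (Zl ℓ) B] (K : Type) [Field K] [CharP K ℓ] [Algebra (Zl ℓ) K]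
    (φ : B →ₐ[Zl ℓ] LaurentSeries (Zl ℓ))
    (hsat : ∀ b : B, (∀ k, ∃ s : Zl ℓ, (φ b).coeff k = (ℓ : Zl ℓ) * s) →
      ∃ b' : B, b = (ℓ : B) * b') : IsDomain (B ⊗[Zl ℓ] K) := by
  classical
  let _ : Algebra (ZMod ℓ) K := ZMod.algebra K ℓ
  let c := Module.Basis.ofVectorSpace (ZMod ℓ) K
  -- the reduction map
  let ρ : B →ₐ[Zl ℓ] LaurentSeries K :=
    { toRingHom := (coeffMap (algebraMap (Zl ℓ) K)).comp φ.toRingHom
      commutes' := by
        intro r
        have h1 : φ.toRingHom (algebraMap (Zl ℓ) B r) = algebraMap (Zl ℓ) (LaurentSeries (Zl ℓ)) r :=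
          φ.commutes r
        change coeffMap (algebraMap (Zl ℓ) K) (φ.toRingHom (algebraMap (Zl ℓ) B r)) = _
        rw [h1]
        ext k
        rw [coeffMap_coeff, algebraMap_laurent_coeff, algebraMap_laurent_self_coeff]
        split_ifs <;> simp }
  have hρ : ∀ (b : B) (k : ℤ), (ρ b).coeff k = algebraMap (Zl ℓ) K ((φ b).coeff k) :=
    fun b k => rfl
  let g : K →ₐ[Zl ℓ] LaurentSeries K :=
    { toRingHom := HahnSeries.C
      commutes' := by
        intro r
        ext k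
        rw [algebraMap_laurent_coeff]
        simp [HahnSeries.C_apply, HahnSeries.coeff_single] }
  let Ψ := Algebra.TensorProduct.productMap ρ g
  have hΨ : ∀ (b : B) (x : K) (k : ℤ), (Ψ (b ⊗ₜ[Zl ℓ] x)).coeff k = (ρ b).coeff k * x := by
    intro b x k
    have : Ψ (b ⊗ₜ[Zl ℓ] x) = ρ b * HahnSeries.C x := by
      simp only [Ψ, Algebra.TensorProduct.productMap_apply_tmul]
      rfl
    rw [this]
    simp [HahnSeries.C_apply]
  -- every element is a finite sum `∑ b_α ⊗ c_α`
  have hrep : ∀ z : B ⊗[Zl ℓ] K, ∃ f : Module.Basis.ofVectorSpaceIndex (ZMod ℓ) K →₀ B,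
      z = f.sum (fun α b => b ⊗ₜ[Zl ℓ] (c α)) := by
    intro z
    induction z using TensorProduct.induction_on with
    | zero => exact ⟨0, by simp⟩
    | tmul b x =>
      refine ⟨(c.repr x).mapRange (fun a : ZMod ℓ => ((a.val : ℕ) : B) * b) (by simp), ?_⟩
      rw [Finsupp.sum_mapRange_index (by simp)]
      have hx : x = (c.repr x).sum (fun α a => a • c α) := by
        conv_lhs => rw [← c.linearCombination_repr x, Finsupp.linearCombination_apply]
      conv_lhs => rw [hx]
      rw [Finsupp.sum, TensorProduct.tmul_sum, Finsupp.sum]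
      refine Finset.sum_congr rfl fun α _ => ?_
      have h1 : (c.repr x α) • c α = ((c.repr x α).val : Zl ℓ) • c α := by
        rw [Algebra.smul_def, Algebra.smul_def, map_natCast]
        congr 1
        conv_lhs => rw [← ZMod.natCast_zmod_val (c.repr x α)]
        rw [map_natCast]
      rw [h1, TensorProduct.tmul_smul, TensorProduct.smul_tmul']
      congr 1
      rw [Algebra.smul_def, map_natCast]
    | add x y hx hy =>
      obtain ⟨f, rfl⟩ := hx
      obtain ⟨g, rfl⟩ := hy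
      refine ⟨f + g, ?_⟩
      rw [Finsupp.sum_add_index']
      · simp
      · intro a b₁ b₂; rw [TensorProduct.add_tmul]
  have hinj : Function.Injective Ψ := by
    rw [injective_iff_map_eq_zero]
    intro z hz
    obtain ⟨f, rfl⟩ := hrep z
    have hzero : ∀ α k, algebraMap (Zl ℓ) K ((φ (f α)).coeff k) = 0 := by
      intro α k
      have h1 : (Ψ (f.sum (fun α b => b ⊗ₜ[Zl ℓ] (c α)))).coeff k = 0 := by rw [hz]; rfl
      rw [Finsupp.sum, map_sum, HahnSeries.coeff_sum] at h1
      simp only [hΨ, hρ] at h1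
      choose a ha using fun r : Zl ℓ => algebraMap_mem_zmod ℓ K r
      have h2 : ∑ i ∈ f.support, a ((φ (f i)).coeff k) • c i = 0 := by
        rw [← h1]
        refine Finset.sum_congr rfl fun i _ => ?_
        rw [Algebra.smul_def, ha]
      have h3 := linearIndependent_iff'.mp c.linearIndependent f.support _ h2
      by_cases hα : α ∈ f.support
      · rw [← ha, h3 α hα, map_zero]
      · rw [Finsupp.notMem_support_iff.mp hα]; simp
    rw [Finsupp.sum]
    refine Finset.sum_eq_zero fun α _ => ?_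
    obtain ⟨b', hb'⟩ := hsat (f α) (fun k => dvd_of_algebraMap_eq_zero ℓ K _ (hzero α k))
    rw [hb']
    have h1 : (ℓ : B) * b' = (ℓ : Zl ℓ) • b' := by
      rw [Algebra.smul_def, map_natCast]
    rw [h1, TensorProduct.smul_tmul, Algebra.smul_def, map_natCast, CharP.cast_eq_zero, zero_mul,
      TensorProduct.tmul_zero]
  exact hinj.isDomain Ψ.toRingHom

theorem nontrivial_tensor (ℓ : ℕ) (B : Type) [CommRing B]
    [Algebra (Zl ℓ) B] (K : Type) [Field K] [Algebra (Zl ℓ) K]
    (φ : B →ₐ[Zl ℓ] LaurentSeries (Zl ℓ)) : Nontrivial (B ⊗[Zl ℓ] K) := by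
  let ρ : B →ₐ[Zl ℓ] LaurentSeries K :=
    { toRingHom := (coeffMap (algebraMap (Zl ℓ) K)).comp φ.toRingHom
      commutes' := by
        intro r
        have h1 : φ.toRingHom (algebraMap (Zl ℓ) B r) = algebraMap (Zl ℓ) (LaurentSeries (Zl ℓ)) r :=
          φ.commutes r
        change coeffMap (algebraMap (Zl ℓ) K) (φ.toRingHom (algebraMap (Zl ℓ) B r)) = _
        rw [h1]
        ext k
        rw [coeffMap_coeff, algebraMap_laurent_coeff, algebraMap_laurent_self_coeff]
        split_ifs <;> simp }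
  let g : K →ₐ[Zl ℓ] LaurentSeries K :=
    { toRingHom := HahnSeries.C
      commutes' := by
        intro r
        ext k
        rw [algebraMap_laurent_coeff]
        simp [HahnSeries.C_apply, HahnSeries.coeff_single] }
  exact (Algebra.TensorProduct.productMap ρ g).toRingHom.domain_nontrivial

end Fermat.Agent.S28
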