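import Mathlib
import Fermat.Prelude.Def_ModularCurve_IgusaScheme
import Fermat.Prelude.Def_ModularCurve_X0ModL
import Fermat.Agent.S28.Reduce

set_option autoImplicit false

noncomputable section

namespace Fermat.Agent.S28

open ModularCurve

section Val

variable (ℓ : ℕ) [hℓ : Fact ℓ.Prime]

theorem mem_ratLoc_iff_padic {q : ℚ} :
    q ∈ GaloisRep.ratLocalizedAt ℓ ↔ padicNorm ℓ q ≤ 1 := by
  rw [mem_ratLocalizedAt]
  have hq : padicNorm ℓ q = padicNorm ℓ (q.num : ℚ) / padicNorm ℓ (q.den : ℚ) := by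
    rw [← padicNorm.div, Rat.num_div_den]
  constructor
  · intro h
    have hd : padicNorm ℓ (q.den : ℚ) = 1 := by
      rw [padicNorm.nat_eq_one_iff]
      intro hd
      exact hℓ.out.one_lt.ne' (Nat.Coprime.eq_one_of_dvd h.symm hd)
    rw [hq, hd, div_one]
    exact padicNorm.of_int _
  · intro h
    rw [Nat.coprime_comm, Nat.Prime.coprime_iff_not_dvd hℓ.out]
    intro hd
    have hlt : padicNorm ℓ (q.den : ℚ) < 1 := (padicNorm.nat_lt_one_iff _).mpr hd
    have hnum : ¬ (ℓ : ℤ) ∣ q.num := by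
      intro hn
      have h1 : ℓ ∣ q.num.natAbs := Int.natCast_dvd.mp hn
      have h2 := Nat.dvd_gcd h1 hd
      rw [q.reduced] at h2
      exact hℓ.out.one_lt.ne' (Nat.dvd_one.mp h2)
    have hn1 : padicNorm ℓ (q.num : ℚ) = 1 := (padicNorm.int_eq_one_iff _).mpr hnum
    rw [hq, hn1] at h
    have hpos : 0 < padicNorm ℓ (q.den : ℚ) := by
      have h0 : padicNorm ℓ (q.den : ℚ) ≠ 0 :=
        padicNorm.nonzero (by exact_mod_cast q.den_ne_zero)
      exact lt_of_le_of_ne (padicNorm.nonneg _) h0.symm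
    rw [div_le_one hpos] at h
    exact absurd hlt (not_lt.mpr h)

/-- `ℤ_(ℓ)` is completely integrally closed in `ℚ`, elementary form. -/
theorem mem_ratLoc_of_mul_pow_mem {a c : ℚ} (ha : a ≠ 0)
    (h : ∀ n : ℕ, a * c ^ n ∈ GaloisRep.ratLocalizedAt ℓ) : c ∈ GaloisRep.ratLocalizedAt ℓ := by
  rw [mem_ratLoc_iff_padic]
  by_contra hc
  push Not at hc
  have hpos : 0 < padicNorm ℓ a :=
    lt_of_le_of_ne (padicNorm.nonneg _) (padicNorm.nonzero ha).symm
  obtain ⟨n, hn⟩ := pow_unbounded_of_one_lt ((padicNorm ℓ a)⁻¹) hc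
  have h1 := (mem_ratLoc_iff_padic ℓ).mp (h n)
  have hpow : padicNorm ℓ (c ^ n) = padicNorm ℓ c ^ n := by
    induction n with
    | zero => simp
    | succ n ih =>
      rw [pow_succ, pow_succ, padicNorm.mul]
      congr 1
      clear hn h1 ih
      induction n with
      | zero => simp
      | succ n ih => rw [pow_succ, pow_succ, padicNorm.mul, ih]
  rw [padicNorm.mul, hpow] at h1
  have h2 : 1 < padicNorm ℓ a * padicNorm ℓ c ^ n := by
    calc (1 : ℚ) = padicNorm ℓ a * (padicNorm ℓ a)⁻¹ := (mul_inv_cancel₀ hpos.ne').symm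
      _ < _ := mul_lt_mul_of_pos_left hn hpos
  exact absurd h2 (not_lt.mpr h1)

instance valuationRing_Zl : ValuationRing (Zl ℓ) where
  cond' := by
    intro a b
    by_cases ha : (a : ℚ) = 0
    · exact ⟨0, Or.inr (by rw [mul_zero]; exact (Subtype.ext ha).symm)⟩
    by_cases hb : (b : ℚ) = 0
    · exact ⟨0, Or.inl (by rw [mul_zero]; exact (Subtype.ext hb).symm)⟩
    rcases le_total (padicNorm ℓ (a : ℚ)) (padicNorm ℓ (b : ℚ)) with h | h
    · refine ⟨⟨(a : ℚ) / b, ?_⟩, Or.inr (Subtype.ext ?_)⟩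
      · rw [mem_ratLoc_iff_padic, padicNorm.div]
        exact div_le_one_of_le₀ h (padicNorm.nonneg _)
      · push_cast
        field_simp
    · refine ⟨⟨(b : ℚ) / a, ?_⟩, Or.inl (Subtype.ext ?_)⟩
      · rw [mem_ratLoc_iff_padic, padicNorm.div]
        exact div_le_one_of_le₀ h (padicNorm.nonneg _)
      · push_cast
        field_simp

instance isIntegrallyClosed_Zl : IsIntegrallyClosed (Zl ℓ) := inferInstance

end Val

section IntSub

/-- Laurent series over `ℚ` with coefficients in `ℤ_(ℓ)`. -/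
def intSub (ℓ : ℕ) : Subring (LaurentSeries ℚ) :=
  (coeffMap (GaloisRep.ratLocalizedAt ℓ).subtype).range

theorem mem_intSub {ℓ : ℕ} {x : LaurentSeries ℚ} :
    x ∈ intSub ℓ ↔ ∀ k, x.coeff k ∈ GaloisRep.ratLocalizedAt ℓ := by
  constructor
  · rintro ⟨y, rfl⟩ k
    exact (y.coeff k).2
  · intro h
    refine ⟨⟨fun k => ⟨x.coeff k, h k⟩, ?_⟩, ?_⟩
    · refine x.isPWO_support.mono ?_
      intro k hk
      rw [HahnSeries.mem_support]
      intro h0
      exact hk (Subtype.ext h0)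
    · ext k
      rfl

theorem coeffMap_subtype_injective (ℓ : ℕ) :
    Function.Injective (coeffMap (GaloisRep.ratLocalizedAt ℓ).subtype) := by
  intro x y h
  ext k
  have := congrArg (fun z => HahnSeries.coeff z k) h
  simpa using this

theorem intCast_mem_ratLoc (ℓ : ℕ) (n : ℤ) : (n : ℚ) ∈ GaloisRep.ratLocalizedAt ℓ := by
  rw [mem_ratLocalizedAt]; simp

theorem jq_mem_intSub (ℓ : ℕ) : jq ∈ intSub ℓ := by
  rw [mem_intSub]
  intro k
  rw [← jqModC_rat, coeff_jqModC_eq_intCast]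
  exact intCast_mem_ratLoc ℓ _

theorem qExpand_mem_intSub {ℓ : ℕ} {x : LaurentSeries ℚ} (hx : x ∈ intSub ℓ) (d : ℕ) [NeZero d] :
    qExpand ℚ d x ∈ intSub ℓ := by
  rw [mem_intSub] at hx ⊢
  intro k
  by_cases h : (d : ℤ) ∣ k
  · obtain ⟨m, rfl⟩ := h
    rw [qExpand_coeff_mul]; exact hx m
  · rw [qExpand_coeff_of_not_dvd _ _ h]; exact zero_mem _

variable {ℓ : ℕ} [hℓ : Fact ℓ.Prime]

/-- every rational number becomes an integer at `ℓ` after multiplication by a nonzero integer -/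
theorem exists_mul_mem_intSub {N : ℕ} {x : LaurentSeries ℚ}
    (hx : x ∈ modularFunctionFieldFull N) :
    ∃ b ∈ intSub ℓ, b ≠ 0 ∧ b * x ∈ intSub ℓ := by
  unfold modularFunctionFieldFull at hx
  induction hx using IntermediateField.adjoin_induction with
  | mem y hy =>
    obtain ⟨d, hd, _, rfl⟩ := hy
    exact ⟨1, one_mem _, one_ne_zero, by
      rw [one_mul]; exact qExpand_mem_intSub (jq_mem_intSub ℓ) d⟩
  | algebraMap r =>
    refine ⟨((r.den : ℕ) : LaurentSeries ℚ), natCast_mem _ _, ?_, ?_⟩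
    · rw [← map_natCast (algebraMap ℚ (LaurentSeries ℚ)), Ne, map_eq_zero]
      exact_mod_cast r.den_ne_zero
    · have h1 : ((r.den : ℕ) : LaurentSeries ℚ) * algebraMap ℚ (LaurentSeries ℚ) r
          = ((r.num : ℤ) : LaurentSeries ℚ) := by
        have h2 : ((r.den : ℕ) : ℚ) * r = ((r.num : ℤ) : ℚ) := by
          rw [mul_comm]; exact_mod_cast Rat.mul_den_eq_num r
        have h3 := congrArg (algebraMap ℚ (LaurentSeries ℚ)) h2
        rwa [map_mul, map_natCast, map_intCast] at h3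
      rw [h1]
      exact intCast_mem _ _
  | add x y _ _ hx hy =>
    obtain ⟨b, hb, hb0, hbx⟩ := hx
    obtain ⟨c, hc, hc0, hcy⟩ := hy
    refine ⟨b * c, mul_mem hb hc, mul_ne_zero hb0 hc0, ?_⟩
    have : b * c * (x + y) = c * (b * x) + b * (c * y) := by ring
    rw [this]
    exact add_mem (mul_mem hc hbx) (mul_mem hb hcy)
  | inv x _ hx =>
    obtain ⟨b, hb, hb0, hbx⟩ := hx
    by_cases h0 : x = 0
    · exact ⟨1, one_mem _, one_ne_zero, by rw [h0]; simp [zero_mem]⟩
    · refine ⟨b * x, hbx, mul_ne_zero hb0 h0, ?_⟩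
      rw [mul_assoc, mul_inv_cancel₀ h0, mul_one]
      exact hb
  | mul x y _ _ hx hy =>
    obtain ⟨b, hb, hb0, hbx⟩ := hx
    obtain ⟨c, hc, hc0, hcy⟩ := hy
    refine ⟨b * c, mul_mem hb hc, mul_ne_zero hb0 hc0, ?_⟩
    have : b * c * (x * y) = (b * x) * (c * y) := by ring
    rw [this]
    exact mul_mem hbx hcy

/-- An element of `ℚ((q))` that is almost integral over `ℤ_(ℓ)((q))` lies in it. -/
theorem mem_intSub_of_almost {x r : LaurentSeries ℚ} (hr : r ≠ 0)
    (h : ∀ n : ℕ, r * x ^ n ∈ intSub ℓ) : x ∈ intSub ℓ := by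
  classical
  by_contra hx
  have hset : {k | x.coeff k ∉ GaloisRep.ratLocalizedAt ℓ}.Nonempty := by
    rw [mem_intSub] at hx
    push Not at hx
    exact hx
  have hwf : {k | x.coeff k ∉ GaloisRep.ratLocalizedAt ℓ}.IsWF := by
    refine x.isPWO_support.isWF.mono ?_
    intro k hk
    rw [HahnSeries.mem_support]
    intro h0
    exact hk (by rw [h0]; exact zero_mem _)
  set k₀ := hwf.min hset with hk₀
  have hk₀mem : x.coeff k₀ ∉ GaloisRep.ratLocalizedAt ℓ := hwf.min_mem hset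
  have hlt : ∀ k < k₀, x.coeff k ∈ GaloisRep.ratLocalizedAt ℓ := by
    intro k hk
    by_contra hc
    exact hwf.not_lt_min hset hc hk
  set x' : LaurentSeries ℚ := HahnSeries.truncLT k₀ x with hx'
  have hx'mem : x' ∈ intSub ℓ := by
    rw [mem_intSub]
    intro k
    rw [hx', HahnSeries.coeff_truncLT]
    split_ifs with hk
    · exact hlt k hk
    · exact zero_mem _
  set y := x - x' with hy
  have hycoeff : y.coeff k₀ = x.coeff k₀ := by
    rw [hy, HahnSeries.coeff_sub, hx', HahnSeries.coeff_truncLT, if_neg (lt_irrefl _), sub_zero]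
  have hylow : ∀ k < k₀, y.coeff k = 0 := by
    intro k hk
    rw [hy, HahnSeries.coeff_sub, hx', HahnSeries.coeff_truncLT, if_pos hk, sub_self]
  have hne : x.coeff k₀ ≠ 0 := by
    intro h0
    exact hk₀mem (by rw [h0]; exact zero_mem _)
  have hy0 : y ≠ 0 := by
    intro h0
    rw [h0] at hycoeff
    exact hne (by rw [← hycoeff]; rfl)
  have hyord : y.order = k₀ := by
    apply le_antisymm
    · exact HahnSeries.order_le_of_coeff_ne_zero (by rw [hycoeff]; exact hne)
    · by_contra hc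
      push Not at hc
      have h1 := hylow _ hc
      have h2 : y.leadingCoeff ≠ 0 := HahnSeries.leadingCoeff_ne_zero.mpr hy0
      rw [HahnSeries.leadingCoeff_eq] at h2
      exact h2 h1
  have hlead : y.leadingCoeff = x.coeff k₀ := by
    rw [HahnSeries.leadingCoeff_eq, hyord, hycoeff]
  have hmem : ∀ n : ℕ, r * y ^ n ∈ intSub ℓ := by
    intro n
    have hb : r * y ^ n = ∑ m ∈ Finset.range (n + 1),
        (r * x ^ m) * ((-x') ^ (n - m) * (n.choose m : LaurentSeries ℚ)) := by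
      rw [hy, sub_eq_add_neg, add_pow, Finset.mul_sum]
      refine Finset.sum_congr rfl fun m _ => ?_
      ring
    rw [hb]
    refine sum_mem fun m _ => mul_mem (h m) (mul_mem (pow_mem (neg_mem hx'mem) _) ?_)
    exact natCast_mem _ _
  have hpow : ∀ n : ℕ, (r * y ^ n).leadingCoeff = r.leadingCoeff * (x.coeff k₀) ^ n := by
    intro n
    induction n with
    | zero => simp
    | succ n ih => rw [pow_succ, ← mul_assoc, HahnSeries.leadingCoeff_mul, ih, hlead, pow_succ,
        mul_assoc]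
  refine hk₀mem (mem_ratLoc_of_mul_pow_mem ℓ (a := r.leadingCoeff)
    (HahnSeries.leadingCoeff_ne_zero.mpr hr) fun n => ?_)
  rw [← hpow, HahnSeries.leadingCoeff_eq]
  exact mem_intSub.mp (hmem n) _

/-- If `x` is integral over a subring of `ℤ_(ℓ)((q))` and is a fraction, it lies in `ℤ_(ℓ)((q))`. -/
theorem mem_intSub_of_isIntegral {x b : LaurentSeries ℚ} (hb : b ∈ intSub ℓ) (hb0 : b ≠ 0)
    (hbx : b * x ∈ intSub ℓ) (hx : IsIntegral (intSub ℓ) x) : x ∈ intSub ℓ := by
  have h1 : IsAlmostIntegral (intSub ℓ) x := by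
    refine hx.isAlmostIntegral_of_exists_smul_mem_range ⟨⟨b, hb⟩, ?_, ?_⟩
    · exact mem_nonZeroDivisors_of_ne_zero (fun h => hb0 (congrArg Subtype.val h))
    · exact ⟨⟨b * x, hbx⟩, rfl⟩
  obtain ⟨r, hr, h⟩ := h1
  have hr0 : (r : LaurentSeries ℚ) ≠ 0 := fun h0 => nonZeroDivisors.ne_zero hr (Subtype.ext h0)
  refine mem_intSub_of_almost hr0 fun n => ?_
  obtain ⟨s, hs⟩ := h n
  have h2 : (r : LaurentSeries ℚ) * x ^ n = (s : LaurentSeries ℚ) := hs.symm
  rw [h2]
  exact s.2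

end IntSub

end Fermat.Agent.S28
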