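import Mathlib
import Fermat.Prelude.Def_ModularCurve_IgusaScheme
import Fermat.Prelude.Def_ModularCurve_X0ModL
import Fermat.Agent.S28.IntCoeff
import Fermat.Agent.S28.Twist

set_option autoImplicit false

noncomputable section

namespace Fermat.Agent.S28

open ModularCurve Polynomial

/-- Core saturation lemma: for an integrally closed domain `A`, a prime `p` and `g` not divisible
by `p`, if `p • y` and `g • y` are integral over `A` then so is `y`. -/
theorem isIntegral_of_prime_smul {A F : Type*} [CommRing A] [IsDomain A] [IsIntegrallyClosed A]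
    [Field F] [Algebra A F] [FaithfulSMul A F] {p g : A} (hp : Prime p) (hg : ¬ p ∣ g) {y : F}
    (h1 : IsIntegral A (p • y)) (h2 : IsIntegral A (g • y)) : IsIntegral A y := by
  have hg0 : g ≠ 0 := by
    rintro rfl
    exact hg (dvd_zero _)
  have e1 := IsIntegrallyClosed.minpoly_smul hg0 h1
  have e2 := IsIntegrallyClosed.minpoly_smul hp.ne_zero h2
  rw [smul_comm] at e1
  set P := minpoly A (p • y) with hP
  set Q := minpoly A (g • y) with hQ
  have hPmonic : P.Monic := minpoly.monic h1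
  have hQmonic : Q.Monic := minpoly.monic h2
  have h : P.scaleRoots g = Q.scaleRoots p := by rw [← e1, ← e2]
  set d := P.natDegree with hd
  have hdeg : Q.natDegree = d := by
    have := congrArg natDegree h
    rw [natDegree_scaleRoots, natDegree_scaleRoots] at this
    exact this.symm
  have hcoef : ∀ i, P.coeff i * g ^ (d - i) = Q.coeff i * p ^ (d - i) := by
    intro i
    have := congrArg (fun f => coeff f i) h
    simp only [coeff_scaleRoots, hdeg] at this
    exact this
  have hdvd : ∀ i, ∃ c, P.coeff i = p ^ (d - i) * c := by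
    intro i
    have h3 : p ^ (d - i) ∣ P.coeff i * g ^ (d - i) := ⟨Q.coeff i, by rw [hcoef, mul_comm]⟩
    exact hp.pow_dvd_of_dvd_mul_right (d - i) (fun h4 => hg (hp.dvd_of_dvd_pow h4)) h3
  choose c hc using hdvd
  refine ⟨X ^ d + ∑ i ∈ Finset.range d, C (c i) * X ^ i, ?_, ?_⟩
  · apply monic_X_pow_add
    refine mem_degreeLT.mp (sum_mem fun i hi => mem_degreeLT.mpr ?_)
    refine (degree_C_mul_X_pow_le _ _).trans_lt ?_
    exact_mod_cast Finset.mem_range.mp hi
  · have h5 : algebraMap A F (p ^ d) * (eval₂ (algebraMap A F) y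
        (X ^ d + ∑ i ∈ Finset.range d, C (c i) * X ^ i)) = 0 := by
      have h6 : aeval (p • y) P = 0 := minpoly.aeval A (p • y)
      rw [aeval_eq_sum_range, ← hd, Finset.sum_range_succ] at h6
      rw [eval₂_add, eval₂_finsetSum, eval₂_pow, eval₂_X, mul_add, Finset.mul_sum, add_comm]
      rw [← h6]
      congr 1
      · refine Finset.sum_congr rfl fun i hi => ?_
        rw [eval₂_mul, eval₂_C, eval₂_pow, eval₂_X, hc, Algebra.smul_def, map_mul,
          Algebra.smul_def, mul_pow]
        have hi' : i < d := Finset.mem_range.mp hi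
        have : (p : A) ^ d = p ^ (d - i) * p ^ i := by rw [← pow_add]; congr 1; omega
        rw [this, map_mul, map_pow, map_pow]
        ring
      · rw [hd, hPmonic.coeff_natDegree, one_smul, Algebra.smul_def, mul_pow, map_pow]
    rcases mul_eq_zero.mp h5 with h7 | h7
    · exfalso
      have : (p : A) ^ d = 0 := by
        have hinj := FaithfulSMul.algebraMap_injective A F
        exact hinj (by rw [h7, map_zero])
      exact pow_ne_zero d hp.ne_zero this
    · exact h7

section PrimeL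

variable (ℓ : ℕ) [hℓ : Fact ℓ.Prime]

theorem dvd_iff_padicNorm_lt {r : Zl ℓ} : (ℓ : Zl ℓ) ∣ r ↔ padicNorm ℓ (r : ℚ) < 1 := by
  constructor
  · rintro ⟨s, rfl⟩
    push_cast
    rw [padicNorm.mul]
    have h1 := (mem_ratLoc_iff_padic ℓ).mp s.2
    have h2 : padicNorm ℓ (ℓ : ℚ) < 1 := padicNorm.padicNorm_p_lt_one_of_prime
    calc padicNorm ℓ (ℓ : ℚ) * padicNorm ℓ (s : ℚ) ≤ padicNorm ℓ (ℓ : ℚ) * 1 :=
          mul_le_mul_of_nonneg_left h1 (padicNorm.nonneg _)
      _ < 1 := by rw [mul_one]; exact h2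
  · intro h
    by_cases h0 : (r : ℚ) = 0
    · exact ⟨0, by rw [mul_zero]; exact Subtype.ext h0⟩
    obtain ⟨z, hz⟩ := padicNorm.values_discrete (p := ℓ) h0
    have hl0 : (ℓ : ℚ) ≠ 0 := by exact_mod_cast hℓ.out.ne_zero
    have hl1 : (1 : ℚ) < ℓ := by exact_mod_cast hℓ.out.one_lt
    have hz1 : 1 ≤ z := by
      by_contra hc
      push Not at hc
      have : (1 : ℚ) ≤ (ℓ : ℚ) ^ (-z) := one_le_zpow₀ hl1.le (by omega)
      rw [← hz] at this
      exact absurd h (not_lt.mpr this)
    have hmem : (r : ℚ) / ℓ ∈ GaloisRep.ratLocalizedAt ℓ := by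
      rw [mem_ratLoc_iff_padic, padicNorm.div, padicNorm.padicNorm_p_of_prime, hz, div_inv_eq_mul,
        ← zpow_add_one₀ hl0]
      exact zpow_le_one_of_nonpos₀ hl1.le (by omega)
    refine ⟨⟨(r : ℚ) / ℓ, hmem⟩, Subtype.ext ?_⟩
    push_cast
    field_simp

theorem prime_l : Prime (ℓ : Zl ℓ) := by
  refine ⟨?_, ?_, ?_⟩
  · intro h
    have := congrArg Subtype.val h
    push_cast at this
    exact hℓ.out.ne_zero (by exact_mod_cast this)
  · intro h
    have h1 : (ℓ : Zl ℓ) ∣ 1 := isUnit_iff_dvd_one.mp h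
    rw [dvd_iff_padicNorm_lt] at h1
    simp at h1
  · intro a b h
    rw [dvd_iff_padicNorm_lt] at h
    rw [dvd_iff_padicNorm_lt, dvd_iff_padicNorm_lt]
    push_cast at h
    rw [padicNorm.mul] at h
    by_contra hc
    push Not at hc
    have := one_le_mul_of_one_le_of_one_le hc.1 hc.2
    exact absurd h (not_lt.mpr this)

/-- scaling a finite family of rationals to be integral with one entry equal to 1. -/
theorem exists_scale {ι : Type*} (s : Finset ι) (a : ι → ℚ) (h : ∃ i ∈ s, a i ≠ 0) :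
    ∃ c : ℚ, c ≠ 0 ∧ (∀ i ∈ s, c * a i ∈ GaloisRep.ratLocalizedAt ℓ) ∧ ∃ i ∈ s, c * a i = 1 := by
  obtain ⟨i₀, hi₀, h0⟩ := h
  obtain ⟨m, hm, hmax⟩ := s.exists_max_image (fun i => padicNorm ℓ (a i)) ⟨i₀, hi₀⟩
  have hpos : 0 < padicNorm ℓ (a m) := by
    have h1 : 0 < padicNorm ℓ (a i₀) :=
      lt_of_le_of_ne (padicNorm.nonneg _) (padicNorm.nonzero h0).symm
    exact h1.trans_le (hmax _ hi₀)
  have hm0 : a m ≠ 0 := by
    intro h
    rw [h, padicNorm.zero] at hpos
    exact lt_irrefl _ hpos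
  refine ⟨(a m)⁻¹, inv_ne_zero hm0, ?_, m, hm, inv_mul_cancel₀ hm0⟩
  intro i hi
  rw [mem_ratLoc_iff_padic, mul_comm, ← div_eq_mul_inv, padicNorm.div]
  exact div_le_one_of_le₀ (hmax i hi) (padicNorm.nonneg _)

end PrimeL

end Fermat.Agent.S28
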