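import Mathlib
import Fermat.Prelude.Def_ModularCurve_IgusaScheme
import Fermat.Prelude.Def_ModularCurve_X0ModL
import Fermat.Agent.S28.Saturate
import Fermat.Agent.S28.JFacts

set_option autoImplicit false

noncomputable section

namespace Fermat.Agent.S28

open ModularCurve Polynomial

section

variable {ℓ : ℕ} [hℓ : Fact ℓ.Prime]

theorem exists_gMul (K : Type*) [Field K] [Algebra (Zl ℓ) K] {n : ℕ}
    (e : Fin n → LaurentSeries ℤ)
    (h2 : ∀ P : Fin n → K[X],
      ∑ i, aeval (jqModC K) (P i) * coeffMap (Int.castRingHom K) (e i) = 0 → P = 0)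
    {y : LaurentSeries ℚ} (hy : y ∈ intSub ℓ)
    (h3 : ∃ (P : ℚ[X]) (Q : Fin n → ℚ[X]), (P ≠ 0 ∨ Q ≠ 0) ∧
      aeval jq P * y = ∑ i, aeval jq (Q i) * coeffMap (Int.castRingHom ℚ) (e i)) :
    ∃ (P : (Zl ℓ)[X]) (Q : Fin n → (Zl ℓ)[X]), P.map (algebraMap (Zl ℓ) K) ≠ 0 ∧
      aeval jq (P.map (GaloisRep.ratLocalizedAt ℓ).subtype) * y =
        ∑ i, aeval jq ((Q i).map (GaloisRep.ratLocalizedAt ℓ).subtype) *
          coeffMap (Int.castRingHom ℚ) (e i) := by
  classical
  obtain ⟨P, Q, hPQ, hrel⟩ := h3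
  let R : Option (Fin n) → ℚ[X] := fun o => o.elim P Q
  let D : ℕ := ∑ o, (R o).natDegree
  have hD : ∀ o, (R o).natDegree ≤ D := fun o =>
    Finset.single_le_sum (f := fun o => (R o).natDegree) (fun _ _ => Nat.zero_le _)
      (Finset.mem_univ o)
  obtain ⟨o₀, ho₀⟩ : ∃ o, R o ≠ 0 := by
    rcases hPQ with h | h
    · exact ⟨none, h⟩
    · obtain ⟨i, hi⟩ := Function.ne_iff.mp h
      exact ⟨some i, hi⟩
  obtain ⟨c, hc0, hcmem, ⟨⟨o₁, k₁⟩, -, hc1⟩⟩ := exists_scale ℓ
    (Finset.univ ×ˢ Finset.range (D + 1) : Finset (Option (Fin n) × ℕ))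
    (fun ok => (R ok.1).coeff ok.2) ⟨(o₀, (R o₀).natDegree), by
      simp only [Finset.mem_product, Finset.mem_univ, true_and, Finset.mem_range]
      exact Nat.lt_succ_of_le (hD o₀), by
      simpa using ho₀⟩
  have hall : ∀ o k, c * (R o).coeff k ∈ GaloisRep.ratLocalizedAt ℓ := by
    intro o k
    by_cases hk : k ≤ D
    · exact hcmem (o, k) (by simp; omega)
    · rw [coeff_eq_zero_of_natDegree_lt (lt_of_le_of_lt (hD o) (not_le.mp hk)), mul_zero]
      exact zero_mem _
  have hlift : ∀ o, ∃ p : (Zl ℓ)[X], p.map (GaloisRep.ratLocalizedAt ℓ).subtype = C c * R o := by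
    intro o
    have : C c * R o ∈ Polynomial.lifts (GaloisRep.ratLocalizedAt ℓ).subtype := by
      rw [Polynomial.lifts_iff_coeff_lifts]
      intro k
      exact ⟨⟨c * (R o).coeff k, hall o k⟩, by simp⟩
    exact this
  choose R' hR' using hlift
  have hrel' : aeval jq (C c * R none) * y =
      ∑ i, aeval jq (C c * R (some i)) * coeffMap (Int.castRingHom ℚ) (e i) := by
    simp only [map_mul, mul_assoc, ← Finset.mul_sum]
    congr 1
  refine ⟨R' none, fun i => R' (some i), ?_, by rw [hR']; simp only [hR']; exact hrel'⟩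
  intro hzero
  -- lift the relation to `ℤ_(ℓ)((q))`
  obtain ⟨y', hy'⟩ := hy
  have hrelZ : aeval (jqModC (Zl ℓ)) (R' none) * y' =
      ∑ i, aeval (jqModC (Zl ℓ)) (R' (some i)) * coeffMap (Int.castRingHom (Zl ℓ)) (e i) := by
    apply coeffMap_subtype_injective ℓ
    rw [map_mul, map_sum, coeffMap_aeval_j, hR', hy']
    simp only [map_mul, coeffMap_aeval_j, hR', coeffMap_coeffMap]
    have : ((GaloisRep.ratLocalizedAt ℓ).subtype).comp (Int.castRingHom (Zl ℓ)) =
      Int.castRingHom ℚ := Subsingleton.elim _ _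
    rw [this]
    rw [jqModC_rat]
    simpa only [map_mul] using hrel'
  have hrelK := congrArg (coeffMap (algebraMap (Zl ℓ) K)) hrelZ
  rw [map_mul, map_sum, coeffMap_aeval_j, hzero, map_zero, zero_mul] at hrelK
  simp only [map_mul, coeffMap_aeval_j, coeffMap_coeffMap] at hrelK
  have hcast : (algebraMap (Zl ℓ) K).comp (Int.castRingHom (Zl ℓ)) = Int.castRingHom K :=
    Subsingleton.elim _ _
  rw [hcast] at hrelK
  have hQ := h2 _ hrelK.symm
  have hallzero : ∀ o, (R' o).map (algebraMap (Zl ℓ) K) = 0 := by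
    intro o
    rcases o with _ | i
    · exact hzero
    · exact congrFun hQ i
  have hone : (R' o₁).coeff k₁ = 1 := by
    apply Subtype.ext
    have := congrArg (fun p => coeff p k₁) (hR' o₁)
    simp only [coeff_map, coeff_C_mul] at this
    rw [hc1] at this
    exact this
  have := congrArg (fun p => coeff p k₁) (hallzero o₁)
  simp only [coeff_map, hone, map_one, coeff_zero] at this
  exact one_ne_zero this

end

end Fermat.Agent.S28
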