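import Mathlib
import Fermat.Prelude.Def_ModularCurve_IgusaScheme
import Fermat.Prelude.Def_ModularCurve_X0ModL
import Fermat.Agent.S28.Saturate2

set_option autoImplicit false

noncomputable section

namespace Fermat.Agent.S28

open ModularCurve Polynomial ModularCurve.IgusaScheme TensorProduct

section

variable {N : ℕ} [NeZero N] {ℓ : ℕ} [hℓ : Fact ℓ.Prime]

set_option quotPrecheck false in
local notation "FN" => (↥(modularFunctionFieldFull N))

omit hℓ in
theorem ringHom_Zl_ext {L : Type*} [Field L] [Algebra ℚ L] (f g : Zl ℓ →+* L) : f = g := by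
  have : CharZero L := algebraRat.charZero L
  ext r
  have hd : (((r : ℚ).den : ℕ) : L) ≠ 0 := by
    exact_mod_cast (r : ℚ).den_ne_zero
  have h : r * (((r : ℚ).den : ℕ) : Zl ℓ) = (((r : ℚ).num : ℤ) : Zl ℓ) := by
    apply Subtype.ext
    push_cast
    exact Rat.mul_den_eq_num (r : ℚ)
  apply mul_right_cancel₀ hd
  have hf := congrArg f h
  have hg := congrArg g h
  rw [map_mul, map_natCast, map_intCast] at hf hg
  rw [hf, hg]

/-- `A = ℤ_(ℓ)[u]` for `u` transcendental. -/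
def adjEquiv {u : FN} (hu : Function.Injective (aeval (R := Zl ℓ) u)) :
    (Zl ℓ)[X] ≃ₐ[Zl ℓ] Algebra.adjoin (Zl ℓ) {u} :=
  AlgEquiv.ofBijective (aeval (⟨u, Algebra.subset_adjoin rfl⟩ : Algebra.adjoin (Zl ℓ) {u})) (by
    have hval : ∀ P : (Zl ℓ)[X],
        ((aeval (⟨u, Algebra.subset_adjoin rfl⟩ : Algebra.adjoin (Zl ℓ) {u}) P :
          Algebra.adjoin (Zl ℓ) {u}) : FN) = aeval u P := by
      intro P
      exact (aeval_algHom_apply (Algebra.adjoin (Zl ℓ) {u}).val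
        (⟨u, Algebra.subset_adjoin rfl⟩ : Algebra.adjoin (Zl ℓ) {u}) P).symm
    constructor
    · intro P Q h
      apply hu
      rw [← hval, ← hval, h]
    · rintro ⟨x, hx⟩
      have hx' := hx
      rw [Algebra.adjoin_singleton_eq_range_aeval] at hx'
      obtain ⟨P, hP⟩ := hx'
      refine ⟨P, Subtype.ext ?_⟩
      rw [hval]
      exact hP)

omit [NeZero N] hℓ in
theorem adjEquiv_apply {u : FN} (hu : Function.Injective (aeval (R := Zl ℓ) u))
    (P : (Zl ℓ)[X]) : ((adjEquiv hu P : Algebra.adjoin (Zl ℓ) {u}) : FN) = aeval u P :=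
  (aeval_algHom_apply (Algebra.adjoin (Zl ℓ) {u}).val
        (⟨u, Algebra.subset_adjoin rfl⟩ : Algebra.adjoin (Zl ℓ) {u}) P).symm

theorem integral_of_sat {u : FN} (hu : Function.Injective (aeval (R := Zl ℓ) u))
    {y : FN} (h1 : (ℓ : FN) * y ∈ chartAlg N ℓ {u}) (P : (Zl ℓ)[X])
    (hP : ¬ (C (ℓ : Zl ℓ)) ∣ P) (h2 : aeval u P * y ∈ chartAlg N ℓ {u}) :
    y ∈ chartAlg N ℓ {u} := by
  have hclosed : IsIntegrallyClosed (Algebra.adjoin (Zl ℓ) {u}) :=
    IsIntegrallyClosed.of_equiv (adjEquiv hu).toRingEquiv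
  have hprime : Prime (ℓ : Algebra.adjoin (Zl ℓ) {u}) := by
    have h3 : Prime (C (ℓ : Zl ℓ)) := Polynomial.prime_C_iff.mpr (prime_l ℓ)
    have h4 := (MulEquiv.prime_iff (adjEquiv hu).toMulEquiv).mpr h3
    simpa using h4
  have hndvd : ¬ (ℓ : Algebra.adjoin (Zl ℓ) {u}) ∣ adjEquiv hu P := by
    rintro ⟨c, hc⟩
    apply hP
    refine ⟨(adjEquiv hu).symm c, ?_⟩
    apply (adjEquiv hu).injective
    rw [map_mul, AlgEquiv.apply_symm_apply, hc]
    simp
  rw [mem_chartAlg_iff] at h1 h2 ⊢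
  refine isIntegral_of_prime_smul hprime hndvd ?_ ?_
  · rw [Algebra.smul_def, map_natCast]
    exact h1
  · rw [Algebra.smul_def]
    have : algebraMap (Algebra.adjoin (Zl ℓ) {u}) FN (adjEquiv hu P) = aeval u P :=
      adjEquiv_apply hu P
    rw [this]
    exact h2

theorem coe_aeval_jFull (P : (Zl ℓ)[X]) :
    ((aeval (jFull N) P : FN) : LaurentSeries ℚ) =
      aeval jq (P.map (GaloisRep.ratLocalizedAt ℓ).subtype) := by
  change algebraMap FN (LaurentSeries ℚ) (eval₂ (algebraMap (Zl ℓ) FN) (jFull N) P) = _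
  rw [hom_eval₂, aeval_def, eval₂_map]
  have h2 : (algebraMap FN (LaurentSeries ℚ)).comp (algebraMap (Zl ℓ) FN) =
      (algebraMap ℚ (LaurentSeries ℚ)).comp (GaloisRep.ratLocalizedAt ℓ).subtype := by
    exact ringHom_Zl_ext _ _
  rw [h2]
  rfl

theorem aeval_jFull_injective : Function.Injective (aeval (R := Zl ℓ) (jFull N)) := by
  intro P Q h
  have h1 := congrArg (fun z : FN => (z : LaurentSeries ℚ)) h
  simp only [coe_aeval_jFull] at h1
  have h2 := aeval_j_injective ℚ h1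
  exact Polynomial.map_injective _ Subtype.val_injective h2

theorem aeval_inv_jFull_injective : Function.Injective (aeval (R := Zl ℓ) (jFull N)⁻¹) := by
  rw [injective_iff_map_eq_zero]
  intro P hP
  let _ : Invertible (jFull N)⁻¹ := invertibleOfNonzero (inv_ne_zero (jFull_ne_zero N))
  have h1 := (eval₂_reverse_eq_zero_iff (algebraMap (Zl ℓ) FN) (jFull N)⁻¹ P).mpr hP
  have h2 : ⅟((jFull N)⁻¹) = jFull N := by
    rw [invOf_eq_inv, inv_inv]
  rw [h2] at h1
  have h3 : P.reverse = 0 := by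
    apply aeval_jFull_injective (N := N) (ℓ := ℓ)
    rw [map_zero]
    exact h1
  rwa [reverse_eq_zero] at h3

/-- Fractions `x / ℓ` in the chart at `j`. -/
theorem sat_fin {y : FN} (h1 : (ℓ : FN) * y ∈ chartAlg N ℓ {jFull N}) (P : (Zl ℓ)[X])
    (hP : ¬ (C (ℓ : Zl ℓ)) ∣ P) (h2 : aeval (jFull N) P * y ∈ chartAlg N ℓ {jFull N}) :
    y ∈ chartAlg N ℓ {jFull N} :=
  integral_of_sat aeval_jFull_injective h1 P hP h2

theorem sat_inf {y : FN} (h1 : (ℓ : FN) * y ∈ chartAlg N ℓ {(jFull N)⁻¹}) (P : (Zl ℓ)[X])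
    (hP : ¬ (C (ℓ : Zl ℓ)) ∣ P) (h2 : aeval (jFull N) P * y ∈ chartAlg N ℓ {jFull N}) :
    y ∈ chartAlg N ℓ {(jFull N)⁻¹} := by
  have h3 : aeval (jFull N) P * y ∈ chartAlg N ℓ (insert ((jFull N)⁻¹)⁻¹ {(jFull N)⁻¹}) := by
    refine chartAlg_mono N ℓ ?_ h2
    rw [inv_inv]
    simp
  obtain ⟨n, hn⟩ := exists_pow_mul_mem_chartAlg (Set.mem_singleton (jFull N)⁻¹)
    (inv_ne_zero (jFull_ne_zero N)) h3
  refine integral_of_sat aeval_inv_jFull_injective h1 (X ^ n * P.reverse) ?_ ?_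
  · intro hdvd
    apply hP
    rw [C_dvd_iff_dvd_coeff] at hdvd ⊢
    intro i
    have h4 := hdvd (revAt P.natDegree i + n)
    rw [coeff_X_pow_mul, coeff_reverse, revAt_invol] at h4
    exact h4
  · let _ : Invertible (jFull N) := invertibleOfNonzero (jFull_ne_zero N)
    have h5 := eval₂_reverse_mul_pow (algebraMap (Zl ℓ) FN) (jFull N) P
    have h6 : aeval (jFull N)⁻¹ P.reverse * (jFull N) ^ P.natDegree = aeval (jFull N) P := by
      rw [← invOf_eq_inv]
      exact h5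
    have h7 : aeval (jFull N)⁻¹ P.reverse = (jFull N)⁻¹ ^ P.natDegree * aeval (jFull N) P := by
      rw [← h6, inv_pow]
      field_simp [jFull_ne_zero N]
    have h8 : aeval (jFull N)⁻¹ (X ^ n * P.reverse) * y =
        (jFull N)⁻¹ ^ P.natDegree * ((jFull N)⁻¹ ^ n * (aeval (jFull N) P * y)) := by
      rw [map_mul, map_pow, aeval_X, h7]
      ring
    have h9 : (jFull N)⁻¹ ∈ chartAlg N ℓ {(jFull N)⁻¹} :=
      subset_chartAlg N ℓ {(jFull N)⁻¹} (Set.mem_singleton _)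
    rw [h8]
    exact mul_mem (pow_mem h9 _) hn

end

end Fermat.Agent.S28
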