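import Mathlib
import Fermat.Prelude.Def_ModularCurve_IgusaScheme
import Fermat.Prelude.Def_ModularCurve_X0ModL
import Fermat.Agent.S28.Charts

set_option autoImplicit false

noncomputable section

namespace Fermat.Agent.S28

open ModularCurve Polynomial ModularCurve.IgusaScheme TensorProduct AlgebraicGeometry
  CategoryTheory.Limits

section

variable {N : ℕ} [NeZero N] {ℓ : ℕ} [hℓ : Fact ℓ.Prime]

set_option quotPrecheck false in
local notation "FN" => (↥(modularFunctionFieldFull N))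

/-- the generators of level `N` over a ring -/
def genSet (R : Type*) [CommRing R] (N : ℕ) : Set (LaurentSeries R) :=
  {x | ∃ (d : ℕ) (_ : NeZero d), d ∣ N ∧ x = qExpand R d (jqModC R)}

theorem genSet_rat (N : ℕ) : genSet ℚ N = divisorExpansions N := rfl

theorem genSet_eq (K : Type*) [Field K] (N : ℕ) : genSet K N = divisorExpansionsC K N := rfl

omit [NeZero N] in
theorem coeffMap_adjoin_mem (K : Type*) [Field K] {x : LaurentSeries ℤ}
    (hx : x ∈ Algebra.adjoin ℤ (genSet ℤ N)) :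
    coeffMap (Int.castRingHom K) x ∈ modularFunctionFieldFullC K N := by
  induction hx using Algebra.adjoin_induction with
  | mem y hy =>
    obtain ⟨d, hd, hdN, rfl⟩ := hy
    rw [coeffMap_qExpand, coeffMap_jqModC]
    exact jqModCd_mem_full K N hdN
  | algebraMap r =>
    rw [eq_intCast (algebraMap ℤ (LaurentSeries ℤ)) r, map_intCast]
    exact intCast_mem _ _
  | add x y _ _ hx hy => rw [map_add]; exact add_mem hx hy
  | mul x y _ _ hx hy => rw [map_mul]; exact mul_mem hx hy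

omit hℓ in
theorem coeffMap_adjoin_mem_chart
    (hint : ∀ (d : ℕ) [NeZero d] (hd : d ∣ N),
      (⟨qExpand ℚ d jq, jqd_mem_full N hd⟩ : FN) ∈ chartAlg N ℓ {jFull N})
    {x : LaurentSeries ℤ} (hx : x ∈ Algebra.adjoin ℤ (genSet ℤ N)) :
    (⟨coeffMap (Int.castRingHom ℚ) x, coeffMap_adjoin_mem ℚ hx⟩ : FN) ∈
      chartAlg N ℓ {jFull N} := by
  induction hx using Algebra.adjoin_induction with
  | mem y hy =>
    obtain ⟨d, hd, hdN, rfl⟩ := hy
    have h := hint d hdN
    convert h using 1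
    apply Subtype.ext
    change coeffMap (Int.castRingHom ℚ) (qExpand ℤ d (jqModC ℤ)) = qExpand ℚ d jq
    rw [coeffMap_qExpand, coeffMap_jqModC]
    rfl
  | algebraMap r =>
    have h : ((r : ℤ) : FN) ∈ chartAlg N ℓ {jFull N} := intCast_mem _ _
    convert h using 1
    apply Subtype.ext
    change coeffMap (Int.castRingHom ℚ) (algebraMap ℤ (LaurentSeries ℤ) r) =
      algebraMap FN (LaurentSeries ℚ) ((r : ℤ) : FN)
    rw [eq_intCast (algebraMap ℤ (LaurentSeries ℤ)) r, map_intCast, map_intCast]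
  | add x y hx' hy' hx hy =>
    have := add_mem hx hy
    convert this using 1
    apply Subtype.ext
    exact map_add _ _ _
  | mul x y hx' hy' hx hy =>
    have := mul_mem hx hy
    convert this using 1
    apply Subtype.ext
    exact map_mul _ _ _

omit hℓ in
theorem not_C_dvd_of_map_ne_zero (K' : Type*) [Field K'] [CharP K' ℓ] [Algebra (Zl ℓ) K']
    {P : (Zl ℓ)[X]} (h : P.map (algebraMap (Zl ℓ) K') ≠ 0) : ¬ (C (ℓ : Zl ℓ)) ∣ P := by
  rintro ⟨Q, rfl⟩
  apply h
  rw [Polynomial.map_mul, map_C, map_natCast, CharP.cast_eq_zero, C_0, zero_mul]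

omit [NeZero N] in
theorem l_ne_zero_F : (ℓ : FN) ≠ 0 := by
  have : CharZero FN := algebraRat.charZero _
  exact_mod_cast hℓ.out.ne_zero

/-- Saturation of both charts, from the tower data. -/
theorem saturation (K' : Type*) [Field K'] [CharP K' ℓ] [Algebra (Zl ℓ) K']
    (n : ℕ) (e : Fin n → LaurentSeries ℤ)
    (he : ∀ i, e i ∈ Algebra.adjoin ℤ (genSet ℤ N))
    (hint : ∀ (d : ℕ) [NeZero d] (hd : d ∣ N),
      (⟨qExpand ℚ d jq, jqd_mem_full N hd⟩ : FN) ∈ chartAlg N ℓ {jFull N})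
    (h2 : ∀ P : Fin n → K'[X],
      ∑ i, aeval (jqModC K') (P i) * coeffMap (Int.castRingHom K') (e i) = 0 → P = 0)
    (h3 : ∀ y ∈ modularFunctionFieldFull N, ∃ (P : ℚ[X]) (Q : Fin n → ℚ[X]), (P ≠ 0 ∨ Q ≠ 0) ∧
      aeval jq P * y = ∑ i, aeval jq (Q i) * coeffMap (Int.castRingHom ℚ) (e i))
    (x : FN) (hx : ∀ k, ∃ s : Zl ℓ, (x : LaurentSeries ℚ).coeff k = (ℓ : ℚ) * (s : ℚ)) :
    (x ∈ chartAlg N ℓ {jFull N} → ∃ y ∈ chartAlg N ℓ {jFull N}, x = (ℓ : FN) * y) ∧
    (x ∈ chartAlg N ℓ {(jFull N)⁻¹} → ∃ y ∈ chartAlg N ℓ {(jFull N)⁻¹}, x = (ℓ : FN) * y) := by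
  set y : FN := (ℓ : FN)⁻¹ * x with hy
  have hxy : x = (ℓ : FN) * y := by
    rw [hy, ← mul_assoc, mul_inv_cancel₀ l_ne_zero_F, one_mul]
  have hlq : (ℓ : ℚ) ≠ 0 := by exact_mod_cast hℓ.out.ne_zero
  have hycoe : (x : LaurentSeries ℚ) = ((ℓ : ℕ) : LaurentSeries ℚ) * (y : LaurentSeries ℚ) := by
    conv_lhs => rw [hxy]
    push_cast
    rfl
  have hyint : (y : LaurentSeries ℚ) ∈ intSub ℓ := by
    rw [mem_intSub]
    intro k
    obtain ⟨s, hs⟩ := hx k
    rw [hycoe] at hs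
    have h4 : (((ℓ : ℕ) : LaurentSeries ℚ) * (y : LaurentSeries ℚ)).coeff k =
        (ℓ : ℚ) * (y : LaurentSeries ℚ).coeff k := by
      have h5 : ((ℓ : ℕ) : LaurentSeries ℚ) = HahnSeries.single 0 (ℓ : ℚ) := by
        rw [HahnSeries.single_zero_natCast]
      rw [h5, HahnSeries.coeff_single_zero_mul]
    rw [h4] at hs
    rw [mul_left_cancel₀ hlq hs]
    exact s.2
  obtain ⟨P, Q, hP, hrel⟩ := exists_gMul K' e h2 hyint (h3 _ y.2)
  have hP' := not_C_dvd_of_map_ne_zero K' hP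
  have hmem : aeval (jFull N) P * y ∈ chartAlg N ℓ {jFull N} := by
    have h6 : aeval (jFull N) P * y = ∑ i, aeval (jFull N) (Q i) *
        (⟨coeffMap (Int.castRingHom ℚ) (e i), coeffMap_adjoin_mem ℚ (he i)⟩ : FN) := by
      apply Subtype.ext
      have h7 : ((∑ i, aeval (jFull N) (Q i) *
        (⟨coeffMap (Int.castRingHom ℚ) (e i), coeffMap_adjoin_mem ℚ (he i)⟩ : FN) : FN) :
          LaurentSeries ℚ) = ∑ i, aeval jq ((Q i).map (GaloisRep.ratLocalizedAt ℓ).subtype) *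
          coeffMap (Int.castRingHom ℚ) (e i) := by
        change algebraMap FN (LaurentSeries ℚ) _ = _
        rw [map_sum]
        refine Finset.sum_congr rfl fun i _ => ?_
        rw [map_mul]
        congr 1
        exact coe_aeval_jFull (Q i)
      rw [h7, ← hrel, MulMemClass.coe_mul, coe_aeval_jFull P]
    rw [h6]
    refine sum_mem fun i _ => mul_mem ?_ (coeffMap_adjoin_mem_chart hint (he i))
    apply adjoin_le_chartAlg N ℓ {jFull N}
    rw [Algebra.adjoin_singleton_eq_range_aeval]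
    exact ⟨Q i, rfl⟩
  constructor
  · intro hxm
    exact ⟨y, sat_fin (by rw [← hxy]; exact hxm) P hP' hmem, hxy⟩
  · intro hxm
    exact ⟨y, sat_inf (by rw [← hxy]; exact hxm) P hP' hmem, hxy⟩

end

end Fermat.Agent.S28
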