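import Mathlib
import Fermat.Prelude.Def_ModularCurve_X0ModL
import Fermat.Agent.MFF.CoeffDescent
import Fermat.Agent.S28.Core
import Fermat.Agent.S28.Tower
import Fermat.Agent.S28.ModPolySpecProof
import Fermat.Agent.S28.JqpNotMem

/-!
# The degree theorem `[F_N(K) : K(j)] = ψ(N)` for every field `K` with `N ≠ 0` in `K`
-/

set_option autoImplicit false

noncomputable section

namespace Fermat.Agent.S28

open ModularCurve Polynomial IntermediateField

theorem modPolyAll : ModPolyAll := fun p _ => exists_modPolySpec p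

theorem jpNotMem : JpNotMem := fun p _ K _ h => jqp_notMem p K h

theorem dedekindPsi_ne_zero {N : ℕ} (hN : N ≠ 0) : dedekindPsi N ≠ 0 := by
  rw [dedekindPsi]
  have h1 : (1 : ℕ) ∈ N.divisors.filter Squarefree := by
    rw [Finset.mem_filter, Nat.mem_divisors]
    exact ⟨⟨one_dvd _, hN⟩, squarefree_one⟩
  have h2 : N / 1 ≤ ∑ d ∈ N.divisors with Squarefree d, N / d :=
    Finset.single_le_sum (f := fun d => N / d) (fun _ _ => Nat.zero_le _) h1
  rw [Nat.div_one] at h2
  omega

theorem coeffMap_image_genSet (K : Type*) [Field K] (N : ℕ) :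
    coeffMap (Int.castRingHom K) '' genSet ℤ N = divisorExpansionsC K N := by
  ext x
  constructor
  · rintro ⟨_, ⟨d, hd, hdN, rfl⟩, rfl⟩
    exact ⟨d, hd, hdN, by rw [coeffMap_qExpand, coeffMap_jqModC]⟩
  · rintro ⟨d, hd, hdN, rfl⟩
    exact ⟨_, ⟨d, hd, hdN, rfl⟩, by rw [coeffMap_qExpand, coeffMap_jqModC]⟩

section AlgClosed

variable {K : Type} [Field K] [IsAlgClosed K] {N : ℕ}

theorem relfinrank_full_algClosed (hN : (N : K) ≠ 0) :
    relfinrank (modularFunctionFieldFullC K 1) (modularFunctionFieldFullC K N) =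
      dedekindPsi N := (tower modPolyAll jpNotMem N hN).2

theorem aeval_j_mem_full_one (K : Type) [Field K] (P : K[X]) :
    aeval (jqModC K) P ∈ modularFunctionFieldFullC K 1 := by
  rw [full_one]
  exact IntermediateField.algebra_adjoin_le_adjoin K _
    (Polynomial.aeval_mem_adjoin_singleton K (jqModC K))

theorem isAlgebraic_gens (hN : (N : K) ≠ 0) :
    ∀ x ∈ divisorExpansionsC K N, IsAlgebraic (modularFunctionFieldFullC K 1) x := by
  rintro _ ⟨d, hd0, hd, rfl⟩
  rw [← jt_one_eq]
  refine (isIntegral_jt modPolyAll ?_ d ?_).isAlgebraic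
  · exact jt_mem_full K one_ne_zero dvd_rfl
  · obtain ⟨c, rfl⟩ := hd
    intro h0
    apply hN
    push_cast
    rw [h0, zero_mul]

theorem exists_basis_int (hN : (N : K) ≠ 0) :
    ∃ e : Fin (dedekindPsi N) → LaurentSeries ℤ, (∀ i, e i ∈ Algebra.adjoin ℤ (genSet ℤ N)) ∧
      ∀ P : Fin (dedekindPsi N) → K[X],
        ∑ i, aeval (jqModC K) (P i) * coeffMap (Int.castRingHom K) (e i) = 0 → P = 0 := by
  have hN0 : N ≠ 0 := by rintro rfl; exact hN Nat.cast_zero
  let F1 := modularFunctionFieldFullC K 1
  have hle : F1 ≤ modularFunctionFieldFullC K N := full_mono K hN0 (one_dvd _)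
  obtain ⟨b, hbs, hspan, hli⟩ := exists_linearIndependent F1
    ((Submonoid.closure (divisorExpansionsC K N) : Submonoid (LaurentSeries K)) :
      Set (LaurentSeries K))
  have hE : extendScalars hle = IntermediateField.adjoin F1 (divisorExpansionsC K N) :=
    extendScalars_adjoin (K := F1) (S := divisorExpansionsC K N) hle
  have hfin : Module.finrank F1 (Submodule.span F1
      ((Submonoid.closure (divisorExpansionsC K N) : Submonoid (LaurentSeries K)) :
      Set (LaurentSeries K))) = dedekindPsi N := by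
    rw [← Algebra.adjoin_eq_span, ← IntermediateField.adjoin_toSubalgebra_of_isAlgebraic
      (isAlgebraic_gens hN), ← hE, ← relfinrank_full_algClosed hN,
      relfinrank_eq_finrank_of_le hle]
    rfl
  rw [← hspan] at hfin
  have hcard : Nat.card b = dedekindPsi N := by
    rw [← hfin]
    have h1 := Module.finrank_eq_nat_card_basis (Module.Basis.span hli)
    rw [← h1]
    have h2 : Set.range ((↑) : b → LaurentSeries K) = b := Subtype.range_coe
    rw [h2]
  have : Finite b := Nat.finite_of_card_ne_zero (by rw [hcard]; exact dedekindPsi_ne_zero hN0)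
  let φ : Fin (dedekindPsi N) ≃ b := (Finite.equivFinOfCardEq hcard).symm
  have hlift : ∀ i, ∃ x ∈ Algebra.adjoin ℤ (genSet ℤ N),
      coeffMap (Int.castRingHom K) x = (φ i : LaurentSeries K) := by
    intro i
    have h1 : ((φ i : b) : LaurentSeries K) ∈ Submonoid.closure (divisorExpansionsC K N) :=
      hbs (φ i).2
    rw [← coeffMap_image_genSet] at h1
    have h2 : Submonoid.closure (coeffMap (Int.castRingHom K) '' genSet ℤ N) =
        (Submonoid.closure (genSet ℤ N)).map (coeffMap (Int.castRingHom K)) :=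
      (MonoidHom.map_mclosure (coeffMap (Int.castRingHom K) : LaurentSeries ℤ →* LaurentSeries K)
        _).symm
    rw [h2] at h1
    obtain ⟨x, hx, hxe⟩ := h1
    refine ⟨x, ?_, hxe⟩
    exact (Submonoid.closure_le (S := (Algebra.adjoin ℤ (genSet ℤ N)).toSubmonoid)).mpr
      Algebra.subset_adjoin hx
  choose e he hee using hlift
  refine ⟨e, he, fun P hP => ?_⟩
  have hli' : LinearIndependent F1 (fun i => ((φ i : b) : LaurentSeries K)) :=
    hli.comp φ φ.injective
  rw [Fintype.linearIndependent_iff] at hli'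
  have h3 := hli' (fun i => ⟨aeval (jqModC K) (P i), aeval_j_mem_full_one K _⟩) (by
    rw [← hP]
    refine Finset.sum_congr rfl fun i _ => ?_
    rw [hee]
    rfl)
  funext i
  have h4 := congrArg Subtype.val (h3 i)
  exact aeval_j_injective K (h4.trans (map_zero _).symm)

end AlgClosed

/-- `n + 1` elements in a field of degree `n` satisfy a relation over `K[j]`. -/
theorem exists_relation {K : Type} [Field K] {N n : ℕ} (hN0 : N ≠ 0) (hn : n ≠ 0)
    (h : relfinrank (modularFunctionFieldFullC K 1) (modularFunctionFieldFullC K N) = n)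
    {m : ℕ} (hm : n < m)
    (x : Fin m → LaurentSeries K) (hx : ∀ i, x i ∈ modularFunctionFieldFullC K N) :
    ∃ P : Fin m → K[X], P ≠ 0 ∧ ∑ i, aeval (jqModC K) (P i) * x i = 0 := by
  classical
  let F1 := modularFunctionFieldFullC K 1
  have hle : F1 ≤ modularFunctionFieldFullC K N := full_mono K hN0 (one_dvd _)
  rw [relfinrank_eq_finrank_of_le hle] at h
  have : Module.Free F1 (extendScalars hle) := Module.Free.of_divisionRing F1 _
  have : Module.Finite F1 (extendScalars hle) :=
    Module.finite_of_finrank_pos (by rw [h]; exact Nat.pos_of_ne_zero hn)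
  have hnli : ¬ LinearIndependent F1 (fun i => (⟨x i, hx i⟩ : extendScalars hle)) := by
    intro hli
    have := hli.fintype_card_le_finrank
    rw [h, Fintype.card_fin] at this
    omega
  rw [Fintype.not_linearIndependent_iff] at hnli
  obtain ⟨g, hg, i₀, hi₀⟩ := hnli
  have hg' : ∑ i, (g i : LaurentSeries K) * x i = 0 := by
    have := congrArg (algebraMap (extendScalars hle) (LaurentSeries K)) hg
    rw [map_sum, map_zero] at this
    rw [← this]
    rfl
  have hfrac : ∀ i, ∃ A B : K[X], B ≠ 0 ∧
      (g i : LaurentSeries K) * aeval (jqModC K) B = aeval (jqModC K) A := by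
    intro i
    have h1 : (g i : LaurentSeries K) ∈ IntermediateField.adjoin K {jqModC K} := by
      rw [← full_one]
      exact (g i).2
    rw [mem_adjoin_simple_iff] at h1
    obtain ⟨r, s, hrs⟩ := h1
    by_cases hs : aeval (jqModC K) s = 0
    · refine ⟨0, 1, one_ne_zero, ?_⟩
      rw [hrs, hs, div_zero, zero_mul, map_zero]
    · refine ⟨r, s, ?_, ?_⟩
      · rintro rfl; exact hs (map_zero _)
      · rw [hrs, div_mul_cancel₀ _ hs]
  choose A B hB hAB using hfrac
  refine ⟨fun i => A i * ∏ k ∈ Finset.univ.erase i, B k, ?_, ?_⟩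
  · intro h0
    have h1 := congrFun h0 i₀
    simp only [Pi.zero_apply, mul_eq_zero] at h1
    rcases h1 with h1 | h1
    · have h2 := hAB i₀
      rw [h1, map_zero, mul_eq_zero] at h2
      rcases h2 with h2 | h2
      · exact hi₀ (Subtype.ext h2)
      · exact hB i₀ (aeval_j_injective K (h2.trans (map_zero _).symm))
    · rw [Finset.prod_eq_zero_iff] at h1
      obtain ⟨k, -, hk⟩ := h1
      exact hB k hk
  · have h1 : ∀ i, aeval (jqModC K) (A i * ∏ k ∈ Finset.univ.erase i, B k) * x i =
        aeval (jqModC K) (∏ k, B k) * ((g i : LaurentSeries K) * x i) := by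
      intro i
      rw [← Finset.mul_prod_erase Finset.univ B (Finset.mem_univ i), map_mul, map_mul, ← hAB]
      ring
    simp only [h1]
    rw [← Finset.mul_sum, hg', mul_zero]

section Descent

variable {K L : Type*} [Field K] [Field L] [Algebra K L]

/-- apply a linear functional to the coefficients of a polynomial -/
def polyLin (φ : L →ₗ[K] K) (P : L[X]) : K[X] :=
  ∑ i ∈ Finset.range (P.natDegree + 1), monomial i (φ (P.coeff i))

theorem polyLin_coeff (φ : L →ₗ[K] K) (P : L[X]) (i : ℕ) :
    (polyLin φ P).coeff i = φ (P.coeff i) := by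
  rw [polyLin, finset_sum_coeff]
  simp only [coeff_monomial]
  rw [Finset.sum_ite_eq' (Finset.range (P.natDegree + 1)) i]
  split_ifs with h
  · rfl
  · rw [coeff_eq_zero_of_natDegree_lt, map_zero]
    rw [Finset.mem_range] at h
    omega

theorem polyLin_add (φ : L →ₗ[K] K) (P Q : L[X]) :
    polyLin φ (P + Q) = polyLin φ P + polyLin φ Q := by
  ext i
  rw [coeff_add, polyLin_coeff, polyLin_coeff, polyLin_coeff, coeff_add, map_add]

theorem polyLin_monomial (φ : L →ₗ[K] K) (n : ℕ) (a : L) :
    polyLin φ (monomial n a) = monomial n (φ a) := by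
  ext i
  rw [polyLin_coeff, coeff_monomial, coeff_monomial]
  split_ifs
  · rfl
  · rw [map_zero]

open Fermat.Agent.MFF in
theorem coeffLin_aeval_mul_emb (φ : L →ₗ[K] K) (P : L[X]) (x : LaurentSeries K) :
    coeffLin φ (aeval (jqModC L) P * emb K L x) =
      aeval (jqModC K) (polyLin φ P) * x := by
  induction P using Polynomial.induction_on' with
  | add P Q hP hQ =>
    rw [map_add, add_mul, map_add, hP, hQ, polyLin_add, map_add, add_mul]
  | monomial n a =>
    rw [aeval_monomial, polyLin_monomial, aeval_monomial]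
    have h1 : jqModC L ^ n = emb K L (jqModC K ^ n) := by
      rw [map_pow, coeffMap_jqModC]
    rw [h1, mul_assoc, ← map_mul, coeffLin_algebraMap_mul_emb, mul_assoc]

open Fermat.Agent.MFF in
/-- descent of relations over `L[j]` to relations over `K[j]` -/
theorem descend_relation {m : ℕ} (x : Fin m → LaurentSeries K) (P : Fin m → L[X]) (hP : P ≠ 0)
    (h : ∑ i, aeval (jqModC L) (P i) * emb K L (x i) = 0) :
    ∃ Q : Fin m → K[X], Q ≠ 0 ∧ ∑ i, aeval (jqModC K) (Q i) * x i = 0 := by
  obtain ⟨i, hi⟩ : ∃ i, P i ≠ 0 := by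
    by_contra hcon
    push Not at hcon
    exact hP (funext hcon)
  obtain ⟨φ, hφ⟩ : ∃ φ : L →ₗ[K] K, φ (P i).leadingCoeff ≠ 0 := by
    by_contra hcon
    push Not at hcon
    exact leadingCoeff_ne_zero.mpr hi ((Module.forall_dual_apply_eq_zero_iff K _).1 hcon)
  refine ⟨fun i => polyLin φ (P i), ?_, ?_⟩
  · intro h0
    apply hφ
    have h1 := congrFun h0 i
    have h2 := polyLin_coeff φ (P i) (P i).natDegree
    rw [show polyLin φ (P i) = 0 from h1, coeff_zero] at h2
    exact h2.symm
  · have h1 := congrArg (coeffLin φ) h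
    rw [map_zero, map_sum] at h1
    rw [← h1]
    exact Finset.sum_congr rfl fun i _ => (coeffLin_aeval_mul_emb φ (P i) (x i)).symm

end Descent

end Fermat.Agent.S28
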