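import Mathlib
import Fermat.Prelude.Def_ModularCurve_IgusaScheme
import Fermat.Prelude.Def_ModularCurve_X0ModL
import Fermat.Agent.S28.Core

set_option autoImplicit false

noncomputable section

namespace Fermat.Agent.S28

open ModularCurve Polynomial ModularCurve.IgusaScheme TensorProduct AlgebraicGeometry
  CategoryTheory.Limits

section

variable {N : ℕ} [NeZero N] {ℓ : ℕ} [hℓ : Fact ℓ.Prime]

set_option quotPrecheck false in
local notation "FN" => (↥(modularFunctionFieldFull N))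

theorem coeffMap_int_mem_intSub (x : LaurentSeries ℤ) :
    coeffMap (Int.castRingHom ℚ) x ∈ intSub ℓ := by
  rw [mem_intSub]
  intro k
  exact intCast_mem_ratLoc ℓ _

theorem jq_inv_mem_intSub : jq⁻¹ ∈ intSub ℓ := by
  obtain ⟨v, hv⟩ := (isUnit_jqModC ℤ).exists_right_inv
  have h := congrArg (coeffMap (Int.castRingHom ℚ)) hv
  rw [map_mul, coeffMap_jqModC, map_one] at h
  have h2 : jq⁻¹ = coeffMap (Int.castRingHom ℚ) v := by
    rw [jqModC_rat] at h
    exact inv_eq_of_mul_eq_one_right h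
  rw [h2]
  exact coeffMap_int_mem_intSub v

theorem chart_int {S : Set FN} (hS : ∀ s ∈ S, (s : LaurentSeries ℚ) ∈ intSub ℓ) {x : FN}
    (hx : x ∈ chartAlg N ℓ S) : (x : LaurentSeries ℚ) ∈ intSub ℓ := by
  obtain ⟨b, hb, hb0, hbx⟩ := exists_mul_mem_intSub (ℓ := ℓ) x.2
  have hadj : ∀ a ∈ Algebra.adjoin (Zl ℓ) S, (a : LaurentSeries ℚ) ∈ intSub ℓ := by
    intro a ha
    induction ha using Algebra.adjoin_induction with
    | mem y hy => exact hS y hy
    | algebraMap r =>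
      have h1 : ((algebraMap (Zl ℓ) FN r : FN) : LaurentSeries ℚ) =
          coeffMap (GaloisRep.ratLocalizedAt ℓ).subtype (algebraMap (Zl ℓ) (LaurentSeries (Zl ℓ)) r) := by
        rw [coeffMap_algebraMap']
        exact congrFun (congrArg DFunLike.coe (ringHom_Zl_ext (ℓ := ℓ)
          ((algebraMap FN (LaurentSeries ℚ)).comp (algebraMap (Zl ℓ) FN))
          ((algebraMap ℚ (LaurentSeries ℚ)).comp (GaloisRep.ratLocalizedAt ℓ).subtype))) r
      rw [h1]
      exact ⟨_, rfl⟩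
    | add x y _ _ hx hy => exact add_mem hx hy
    | mul x y _ _ hx hy => exact mul_mem hx hy
  refine mem_intSub_of_isIntegral hb hb0 hbx ?_
  rw [mem_chartAlg_iff] at hx
  let φ : Algebra.adjoin (Zl ℓ) S →+* intSub ℓ :=
    ((algebraMap FN (LaurentSeries ℚ)).comp (algebraMap (Algebra.adjoin (Zl ℓ) S) FN)).codRestrict
      (intSub ℓ) (fun a => hadj a.1 a.2)
  exact hx.map_of_comp_eq φ (algebraMap FN (LaurentSeries ℚ)) (by ext a; rfl)

/-- lift of a series with `ℤ_(ℓ)`-coefficients -/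
def liftInt (x : intSub ℓ) : LaurentSeries (Zl ℓ) := Classical.choose x.2

theorem coeffMap_liftInt (x : intSub ℓ) :
    coeffMap (GaloisRep.ratLocalizedAt ℓ).subtype (liftInt x) = x := Classical.choose_spec x.2

/-- The `q`-expansion homomorphism on a chart. -/
def chartQ (S : Set FN) (hS : ∀ s ∈ S, (s : LaurentSeries ℚ) ∈ intSub ℓ) :
    chartAlg N ℓ S →ₐ[Zl ℓ] LaurentSeries (Zl ℓ) where
  toFun x := liftInt ⟨((x : FN) : LaurentSeries ℚ), chart_int hS x.2⟩
  map_one' := by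
    apply coeffMap_subtype_injective
    rw [coeffMap_liftInt, map_one]; rfl
  map_zero' := by
    apply coeffMap_subtype_injective
    rw [coeffMap_liftInt, map_zero]; rfl
  map_add' x y := by
    apply coeffMap_subtype_injective
    rw [coeffMap_liftInt, map_add, coeffMap_liftInt, coeffMap_liftInt]; rfl
  map_mul' x y := by
    apply coeffMap_subtype_injective
    rw [coeffMap_liftInt, map_mul, coeffMap_liftInt, coeffMap_liftInt]; rfl
  commutes' r := by
    apply coeffMap_subtype_injective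
    rw [coeffMap_liftInt, coeffMap_algebraMap']
    exact congrFun (congrArg DFunLike.coe (ringHom_Zl_ext (ℓ := ℓ)
          ((algebraMap FN (LaurentSeries ℚ)).comp (algebraMap (Zl ℓ) FN))
          ((algebraMap ℚ (LaurentSeries ℚ)).comp (GaloisRep.ratLocalizedAt ℓ).subtype))) r

theorem chartQ_coeff (S : Set FN) (hS : ∀ s ∈ S, (s : LaurentSeries ℚ) ∈ intSub ℓ)
    (x : chartAlg N ℓ S) (k : ℤ) :
    (((chartQ S hS x).coeff k : Zl ℓ) : ℚ) = ((x : FN) : LaurentSeries ℚ).coeff k := by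
  have h := coeffMap_liftInt (⟨((x : FN) : LaurentSeries ℚ), chart_int hS x.2⟩ : intSub ℓ)
  exact congrArg (fun z => HahnSeries.coeff z k) h

theorem s28_of_tower (K : Type) [Field K] [CharP K ℓ] [Algebra (Zl ℓ) K]
    (K' : Type) [Field K'] [CharP K' ℓ] [Algebra (Zl ℓ) K']
    (n : ℕ) (e : Fin n → LaurentSeries ℤ)
    (he : ∀ i, e i ∈ Algebra.adjoin ℤ (genSet ℤ N))
    (hint : ∀ (d : ℕ) [NeZero d] (hd : d ∣ N),
      (⟨qExpand ℚ d jq, jqd_mem_full N hd⟩ : FN) ∈ chartAlg N ℓ {jFull N})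
    (h2 : ∀ P : Fin n → K'[X],
      ∑ i, aeval (jqModC K') (P i) * coeffMap (Int.castRingHom K') (e i) = 0 → P = 0)
    (h3 : ∀ y ∈ modularFunctionFieldFull N, ∃ (P : ℚ[X]) (Q : Fin n → ℚ[X]), (P ≠ 0 ∨ Q ≠ 0) ∧
      aeval jq P * y = ∑ i, aeval jq (Q i) * coeffMap (Int.castRingHom ℚ) (e i)) :
    IsIntegral ↑(pullback (igusaTo N ℓ)
      (Spec.map (CommRingCat.ofHom (algebraMap ↥(GaloisRep.ratLocalizedAt ℓ) K)))) := by
  have hj : (((jFull N : FN)) : LaurentSeries ℚ) ∈ intSub ℓ := by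
    rw [coe_jFull]; exact jq_mem_intSub ℓ
  have hji : ((((jFull N)⁻¹ : FN)) : LaurentSeries ℚ) ∈ intSub ℓ := by
    have : ((((jFull N)⁻¹ : FN)) : LaurentSeries ℚ) = jq⁻¹ := rfl
    rw [this]; exact jq_inv_mem_intSub
  have hS1 : ∀ s ∈ ({jFull N} : Set FN), (s : LaurentSeries ℚ) ∈ intSub ℓ := by
    rintro s rfl; exact hj
  have hS2 : ∀ s ∈ ({(jFull N)⁻¹} : Set FN), (s : LaurentSeries ℚ) ∈ intSub ℓ := by
    rintro s rfl; exact hji
  have hS3 : ∀ s ∈ ({jFull N, (jFull N)⁻¹} : Set FN), (s : LaurentSeries ℚ) ∈ intSub ℓ := by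
    rintro s (rfl | rfl)
    · exact hj
    · exact hji
  have key := saturation (N := N) (ℓ := ℓ) K' n e he hint h2 h3
  apply isIntegral_pullback_igusaTo_of_domain
  · refine isDomain_tensor_of_saturated ℓ (chartAlgFin N ℓ) K (chartQ {jFull N} hS1) ?_
    intro b hb
    obtain ⟨y, hy, hby⟩ := (key b.1 (fun k => by
      obtain ⟨s, hs⟩ := hb k
      refine ⟨s, ?_⟩
      rw [← chartQ_coeff {jFull N} hS1 b k, hs]
      push_cast
      rfl)).1 b.2
    exact ⟨⟨y, hy⟩, Subtype.ext (by rw [hby]; push_cast; rfl)⟩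
  · refine isDomain_tensor_of_saturated ℓ (chartAlgInf N ℓ) K (chartQ {(jFull N)⁻¹} hS2) ?_
    intro b hb
    obtain ⟨y, hy, hby⟩ := (key b.1 (fun k => by
      obtain ⟨s, hs⟩ := hb k
      refine ⟨s, ?_⟩
      rw [← chartQ_coeff {(jFull N)⁻¹} hS2 b k, hs]
      push_cast
      rfl)).2 b.2
    exact ⟨⟨y, hy⟩, Subtype.ext (by rw [hby]; push_cast; rfl)⟩
  · exact nontrivial_tensor ℓ (chartAlgMid N ℓ) K (chartQ {jFull N, (jFull N)⁻¹} hS3)

end

end Fermat.Agent.S28
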