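import Mathlib
import Fermat.Prelude.Def_ModularCurve_X0ModL
import Fermat.Prelude.Def_ModularCurve_IgusaScheme
import Fermat.Agent.S28.Degree
import Fermat.Agent.S28.Assemble

/-!
# The degree theorem for general fields, integrality of `j(q^d)` over `ℤ[j]`
-/

set_option autoImplicit false

noncomputable section

namespace Fermat.Agent.S28

open ModularCurve Polynomial IntermediateField ModularCurve.IgusaScheme

/-! ### integrality -/

/-- the modular equation over any commutative ring -/
theorem modEq_root (R : Type*) [CommRing R] (p : ℕ) [hp : Fact p.Prime] {Φ : ℤ[X][X]}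
    (hΦ : ModPolySpec p Φ) (m n : ℕ) [hm : NeZero m] [NeZero n] (hn : n = p * m) :
    (PhiR Φ (qExpand R m (jqModC R))).eval (qExpand R n (jqModC R)) = 0 := by
  subst hn
  have hZ : (PhiR Φ (qExpand ℤ m (jqModC ℤ))).eval (qExpand ℤ (p * m) (jqModC ℤ)) = 0 := by
    let L := AlgebraicClosure ℚ
    have hpL : (p : L) ≠ 0 := Nat.cast_ne_zero.mpr hp.out.ne_zero
    obtain ⟨ζ, hζ⟩ := exists_unit_primitiveRoot (K := L) (n := p) hpL
    have h1 := hΦ.root_high hζ hm.out
    rw [jt_one_eq, jt_one_eq] at h1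
    apply coeffMap_injective (f := Int.castRingHom L) (RingHom.injective_int _)
    rw [map_zero, ← h1, ← eval₂_at_apply, ← eval_map, PhiR_map, coeffMap_qExpand,
      coeffMap_qExpand, coeffMap_jqModC]
  have h2 := congrArg (coeffMap (Int.castRingHom R)) hZ
  rw [← eval₂_at_apply, ← eval_map, PhiR_map, coeffMap_qExpand, coeffMap_qExpand,
    coeffMap_jqModC, map_zero] at h2
  exact h2

/-- induction principle: the `j(q^d)` are integral over any ring containing `j` -/
theorem isIntegral_of_j {R₀ A : Type*} [CommRing R₀] [CommRing A] [Algebra R₀ A]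
    {R : Type*} [CommRing R] (i : A →+* LaurentSeries R) (hi : Function.Injective i)
    (j₀ : R₀) (hj : i (algebraMap R₀ A j₀) = jqModC R) (N : ℕ)
    (x : ∀ d : ℕ, NeZero d → d ∣ N → A)
    (hx : ∀ (d : ℕ) (h : NeZero d) (hd : d ∣ N), i (x d h hd) = qExpand R d (jqModC R))
    (d : ℕ) (h : NeZero d) (hd : d ∣ N) : IsIntegral R₀ (x d h hd) := by
  induction d using Nat.strong_induction_on with
  | _ d ih =>
  have hd0 : d ≠ 0 := h.out
  by_cases hd1 : d = 1
  · subst hd1
    have : x 1 h hd = algebraMap R₀ A j₀ := by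
      apply hi
      rw [hx, hj, qExpand_one_apply]
    rw [this]
    exact isIntegral_algebraMap
  · have hrp : (d.minFac).Prime := Nat.minFac_prime hd1
    set r := d.minFac with hr
    have : Fact r.Prime := ⟨hrp⟩
    obtain ⟨d', hd'⟩ : r ∣ d := Nat.minFac_dvd d
    obtain ⟨Φr, hΦr⟩ := exists_modPolySpec r
    have hd'0 : d' ≠ 0 := by rintro rfl; exact hd0 (by rw [hd', mul_zero])
    have hne' : NeZero d' := ⟨hd'0⟩
    have hd'lt : d' < d := by
      rw [hd']
      have := hrp.one_lt
      have h3 := Nat.pos_of_ne_zero hd'0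
      nlinarith
    have hd'N : d' ∣ N := (Dvd.intro_left r hd'.symm).trans hd
    have ih' := ih d' hd'lt hne' hd'N
    let B := integralClosure R₀ A
    have hmem : x d' hne' hd'N ∈ B := ih'
    have hint : IsIntegral B (x d h hd) := by
      refine ⟨PhiR Φr (⟨x d' hne' hd'N, hmem⟩ : B), PhiR_monic hΦr.monic _, ?_⟩
      rw [← eval_map, PhiR_map]
      apply hi
      rw [← eval₂_at_apply, ← eval_map, PhiR_map, map_zero, hx]
      change (PhiR Φr (i (x d' hne' hd'N))).eval _ = 0
      rw [hx]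
      exact modEq_root R r hΦr d' d hd'
    exact isIntegral_trans _ hint

theorem isIntegral_int_jqd (R : Type*) [CommRing R] (d : ℕ) [h : NeZero d] :
    IsIntegral (Algebra.adjoin ℤ {jqModC R}) (qExpand R d (jqModC R)) :=
  isIntegral_of_j (R₀ := Algebra.adjoin ℤ {jqModC R}) (RingHom.id (LaurentSeries R))
    (fun _ _ h => h) ⟨jqModC R, Algebra.self_mem_adjoin_singleton ℤ _⟩ rfl d
    (fun d _ _ => qExpand R d (jqModC R)) (fun _ _ _ => rfl) d h dvd_rfl

theorem hint_chart (N : ℕ) [NeZero N] (ℓ : ℕ) [Fact ℓ.Prime] (d : ℕ) [h : NeZero d] (hd : d ∣ N) :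
    (⟨qExpand ℚ d jq, jqd_mem_full N hd⟩ : modularFunctionFieldFull N) ∈
      chartAlg N ℓ {jFull N} := by
  rw [mem_chartAlg_iff]
  exact isIntegral_of_j (R₀ := Algebra.adjoin (Zl ℓ) {jFull N})
    (A := modularFunctionFieldFull N)
    (algebraMap (modularFunctionFieldFull N) (LaurentSeries ℚ)) Subtype.val_injective
    ⟨jFull N, Algebra.subset_adjoin rfl⟩ rfl N
    (fun d _ hd => ⟨qExpand ℚ d jq, jqd_mem_full N hd⟩) (fun _ _ _ => rfl) d h hd

/-! ### general fields -/

section General

variable {K : Type} [Field K] {N : ℕ}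

theorem exists_relation_gen (hN : (N : K) ≠ 0) {m : ℕ} (hm : dedekindPsi N < m)
    (x : Fin m → LaurentSeries K) (hx : ∀ i, x i ∈ modularFunctionFieldFullC K N) :
    ∃ Q : Fin m → K[X], Q ≠ 0 ∧ ∑ i, aeval (jqModC K) (Q i) * x i = 0 := by
  have hN0 : N ≠ 0 := by rintro rfl; exact hN Nat.cast_zero
  let L := AlgebraicClosure K
  have hNL : (N : L) ≠ 0 := by
    rw [← map_natCast (algebraMap K L) N, Ne, map_eq_zero]
    exact hN
  obtain ⟨P, hP, hPx⟩ := exists_relation (K := L) hN0 (dedekindPsi_ne_zero hN0)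
    (relfinrank_full_algClosed hNL) hm (fun i => Fermat.Agent.MFF.emb K L (x i))
    (fun i => Fermat.Agent.MFF.emb_mem_full_iff.mpr (hx i))
  exact descend_relation x P hP hPx

/-- **Integral bases**: there are `ψ(N)` monomials in the `j(q^d)`, `d ∣ N`, forming a basis
of `F_N(K)` over `K(j)`. -/
theorem exists_basis_int_gen (hN : (N : K) ≠ 0) :
    ∃ e : Fin (dedekindPsi N) → LaurentSeries ℤ, (∀ i, e i ∈ Algebra.adjoin ℤ (genSet ℤ N)) ∧
      ∀ P : Fin (dedekindPsi N) → K[X],
        ∑ i, aeval (jqModC K) (P i) * coeffMap (Int.castRingHom K) (e i) = 0 → P = 0 := by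
  let L := AlgebraicClosure K
  have hNL : (N : L) ≠ 0 := by
    rw [← map_natCast (algebraMap K L) N, Ne, map_eq_zero]
    exact hN
  obtain ⟨e, he, h2⟩ := exists_basis_int (K := L) hNL
  refine ⟨e, he, fun P hP => ?_⟩
  have h3 := h2 (fun i => (P i).map (algebraMap K L)) (by
    have h4 := congrArg (coeffMap (algebraMap K L)) hP
    rw [map_zero, map_sum] at h4
    rw [← h4]
    refine Finset.sum_congr rfl fun i _ => ?_
    have h5 : coeffMap (Int.castRingHom L) (e i) =
        coeffMap (algebraMap K L) (coeffMap (Int.castRingHom K) (e i)) := by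
      ext k
      rw [coeffMap_coeff, coeffMap_coeff, coeffMap_coeff, eq_intCast, eq_intCast, map_intCast]
    rw [map_mul, coeffMap_aeval_j, h5])
  funext i
  have h5 := congrFun h3 i
  exact (Polynomial.map_eq_zero_iff (algebraMap K L).injective).mp h5

end General

/-! ### S28 -/

theorem s28_final (N : ℕ) [NeZero N] (ℓ : ℕ) [Fact ℓ.Prime] (hℓN : ¬ ℓ ∣ N)
    (K : Type) [Field K] [CharP K ℓ] [Algebra ↥(GaloisRep.ratLocalizedAt ℓ) K] :
    AlgebraicGeometry.IsIntegral ↑(CategoryTheory.Limits.pullback (igusaTo N ℓ)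
      (AlgebraicGeometry.Spec.map (CommRingCat.ofHom
        (algebraMap ↥(GaloisRep.ratLocalizedAt ℓ) K)))) := by
  have hNK : (N : K) ≠ 0 := by
    rw [Ne, CharP.cast_eq_zero_iff K ℓ N]
    exact hℓN
  obtain ⟨e, he, h2⟩ := exists_basis_int_gen (K := K) hNK
  refine s28_of_tower K K (dedekindPsi N) e he (fun d _ hd => hint_chart N ℓ d hd) h2 ?_
  intro y hy
  have hNQ : ((N : ℕ) : ℚ) ≠ 0 := Nat.cast_ne_zero.mpr (NeZero.ne N)
  obtain ⟨Q, hQ, hQx⟩ := exists_relation_gen (K := ℚ) hNQ (Nat.lt_succ_self (dedekindPsi N))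
    (Fin.cons y fun i => coeffMap (Int.castRingHom ℚ) (e i)) (by
      intro i
      refine Fin.cases ?_ (fun i => ?_) i
      · rw [Fin.cons_zero]; exact hy
      · rw [Fin.cons_succ]; exact coeffMap_adjoin_mem ℚ (he i))
  refine ⟨Q 0, fun i => - Q i.succ, ?_, ?_⟩
  · by_contra hcon
    push Not at hcon
    apply hQ
    funext i
    refine Fin.cases ?_ (fun i => ?_) i
    · exact hcon.1
    · have := congrFun hcon.2 i
      simpa using this
  · rw [Fin.sum_univ_succ] at hQx
    simp only [Fin.cons_zero, Fin.cons_succ] at hQx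
    simp only [map_neg, neg_mul, Finset.sum_neg_distrib]
    exact eq_neg_of_add_eq_zero_left hQx

end Fermat.Agent.S28
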